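import Fermat.Agent.S30.TateDefs

/-!
# P15 (S30), part (A′): the Hecke transform preserves cuspidal characters

* `isCuspidalHom_heckeFun` : for a torsion-free target, the Hecke transform `T_ℓ φ` of a cuspidal
  additive character `φ` of `Γ₀(N)` is cuspidal;
* `hom_heckeHp`            : the additive map underlying `heckeHp N p ℓ φ` is the Hecke transform of
  the additive map underlying `φ`.

Proof of the first statement: let `(π, g)` be a Hecke datum of `γ` with `(tr γ)² ≤ 4` and `K` the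
order of `π`. Then `γ ^ K` has a Hecke datum `(1, g')`, i.e. `M_i γ^K = g'_i M_i`, so `g'_i` has the
trace of `γ ^ K`, whose square is again `≤ 4`. Hence `K • (T_ℓ φ) γ = (T_ℓ φ) (γ ^ K) =
∑ i, φ (g'_i) = 0`.
-/

set_option autoImplicit false

namespace Fermat.Agent.S30

open Fermat.Agent.S42 CongruenceSubgroup
open scoped MatrixGroups

namespace HeckeCusp

/-- Cayley–Hamilton for `2 × 2` matrices, in trace form. -/
theorem trace_mul_mul (Y X : Matrix (Fin 2) (Fin 2) ℤ) :
    (Y * X * X).trace = X.trace * (Y * X).trace - X.det * Y.trace := by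
  simp only [Matrix.trace_fin_two, Matrix.mul_apply, Fin.sum_univ_two, Matrix.det_fin_two]
  ring

/-- The recurrence for the traces of the powers of a matrix of determinant `1`. -/
theorem trace_pow_succ_succ {X : Matrix (Fin 2) (Fin 2) ℤ} (hX : X.det = 1) (k : ℕ) :
    (X ^ (k + 2)).trace = X.trace * (X ^ (k + 1)).trace - (X ^ k).trace := by
  rw [show k + 2 = k + 1 + 1 from rfl, pow_succ (X) (k + 1), pow_succ X k, trace_mul_mul, hX,
    one_mul]

/-- The arithmetic step: the invariant quadratic form keeps the next trace bounded. -/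
theorem step_bound {t x y : ℤ} (h : x * x - t * x * y + y * y = 4 - t * t) (ht : t * t ≤ 4)
    (hx : x * x ≤ 4) (hy : y * y ≤ 4) : (t * x - y) * (t * x - y) ≤ 4 := by
  have ht1 : -2 ≤ t := by nlinarith
  have ht2 : t ≤ 2 := by nlinarith
  have hx1 : -2 ≤ x := by nlinarith
  have hx2 : x ≤ 2 := by nlinarith
  have hy1 : -2 ≤ y := by nlinarith
  have hy2 : y ≤ 2 := by nlinarith
  interval_cases t <;> interval_cases x <;> interval_cases y <;> omega

/-- If `(tr X)² ≤ 4` and `det X = 1` then all powers of `X` have `(tr X^k)² ≤ 4`. -/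
theorem trace_pow_sq_le {X : Matrix (Fin 2) (Fin 2) ℤ} (hX : X.det = 1)
    (ht : X.trace ^ 2 ≤ 4) (k : ℕ) : (X ^ k).trace ^ 2 ≤ 4 := by
  have key : ∀ k : ℕ,
      (X ^ (k + 1)).trace * (X ^ (k + 1)).trace - X.trace * (X ^ (k + 1)).trace * (X ^ k).trace
          + (X ^ k).trace * (X ^ k).trace = 4 - X.trace * X.trace ∧
        (X ^ k).trace * (X ^ k).trace ≤ 4 ∧
        (X ^ (k + 1)).trace * (X ^ (k + 1)).trace ≤ 4 := by
    intro k
    induction k with
    | zero =>
      have h1 : (1 : Matrix (Fin 2) (Fin 2) ℤ).trace = 2 := by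
        simp
      rw [pow_zero, zero_add, pow_one, h1]
      refine ⟨by ring, by norm_num, by nlinarith⟩
    | succ k ih =>
      obtain ⟨h1, h2, h3⟩ := ih
      have hrec := trace_pow_succ_succ hX k
      have hb := step_bound h1 (by nlinarith) h3 h2
      refine ⟨?_, h3, ?_⟩
      · rw [show k + 1 + 1 = k + 2 from rfl, hrec]
        linear_combination h1
      · rw [show k + 1 + 1 = k + 2 from rfl, hrec]
        exact hb
  have := (key k).2.1
  nlinarith

/-- Conjugate matrices (through a matrix of nonzero determinant) have the same trace. -/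
theorem trace_eq_of_mul_eq {M X P : Matrix (Fin 2) (Fin 2) ℤ} (hM : M.det ≠ 0)
    (h : M * X = P * M) : P.trace = X.trace := by
  have h1 : M.det * P.trace = M.det * X.trace := by
    calc M.det * P.trace = (P * (M * M.adjugate)).trace := by
          rw [Matrix.mul_adjugate, Matrix.mul_smul, Matrix.mul_one, Matrix.trace_smul,
            smul_eq_mul]
      _ = ((M * X) * M.adjugate).trace := by rw [← Matrix.mul_assoc, h]
      _ = (M.adjugate * (M * X)).trace := Matrix.trace_mul_comm _ _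
      _ = M.det * X.trace := by
          rw [← Matrix.mul_assoc, Matrix.adjugate_mul, Matrix.smul_mul, Matrix.one_mul,
            Matrix.trace_smul, smul_eq_mul]
  exact mul_left_cancel₀ hM h1

/-- The powers of `γ` have Hecke data whose permutations are the powers of `π`. -/
theorem exists_datum_pow {N ℓ : ℕ} {γ : ↥(Gamma0 N)} {π : Equiv.Perm (Option (Fin ℓ))}
    {g : Option (Fin ℓ) → ↥(Gamma0 N)} (h : IsHeckeDatum N ℓ γ π g) (k : ℕ) :
    ∃ g' : Option (Fin ℓ) → ↥(Gamma0 N), IsHeckeDatum N ℓ (γ ^ k) (π ^ k) g' := by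
  induction k with
  | zero =>
    refine ⟨fun _ => 1, fun i => ?_⟩
    rw [pow_zero, pow_zero, Subgroup.coe_one, Matrix.SpecialLinearGroup.coe_one, Matrix.mul_one,
      Matrix.one_mul, Equiv.Perm.coe_one, id_eq]
  | succ k ih =>
    obtain ⟨g', hg'⟩ := ih
    refine ⟨fun i => g' i * g ((π ^ k) i), ?_⟩
    have h2 := HeckeCosets.isHeckeDatum_mul hg' h
    rw [pow_succ, pow_succ']
    exact h2

end HeckeCusp

open HeckeCusp

/-- The Hecke transform of a cuspidal character with values in a torsion-free abelian group is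
cuspidal. -/
theorem isCuspidalHom_heckeFun {N ℓ : ℕ} (hℓ : ℓ.Prime) (hℓN : ¬ ℓ ∣ N) {A : Type*}
    [AddCommGroup A] (hA : ∀ (n : ℕ) (a : A), n ≠ 0 → n • a = 0 → a = 0)
    {φ : Additive ↥(Gamma0 N) →+ A} (hφ : IsCuspidalHom N φ) :
    IsCuspidalHom N (heckeFun N ℓ hℓ hℓN φ) := by
  intro γ hγ
  obtain ⟨π, g, hπg⟩ := exists_heckeDatum hℓ hℓN γ
  have hK : 0 < orderOf π := orderOf_pos π
  obtain ⟨g', hg'⟩ := exists_datum_pow hπg (orderOf π)
  rw [pow_orderOf_eq_one] at hg'
  have h1 : heckeFun N ℓ hℓ hℓN φ (Additive.ofMul (γ ^ orderOf π)) =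
      ∑ i, φ (Additive.ofMul (g' i)) :=
    isHeckeTransform_heckeFun N ℓ hℓ hℓN φ (γ ^ orderOf π) 1 g' hg'
  have h2 : ∀ i, φ (Additive.ofMul (g' i)) = 0 := by
    intro i
    apply hφ
    have hdet : (heckeMat ℓ i).det ≠ 0 := by
      rw [HeckeCosets.det_heckeMat]
      exact_mod_cast hℓ.ne_zero
    have htr := trace_eq_of_mul_eq hdet (hg' i)
    rw [htr, Subgroup.coe_pow, Matrix.SpecialLinearGroup.coe_pow]
    exact trace_pow_sq_le (Matrix.SpecialLinearGroup.det_coe _) hγ _
  rw [Finset.sum_eq_zero (fun i _ => h2 i)] at h1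
  have h3 : heckeFun N ℓ hℓ hℓN φ (Additive.ofMul (γ ^ orderOf π)) =
      orderOf π • heckeFun N ℓ hℓ hℓN φ (Additive.ofMul γ) := by
    rw [ofMul_pow, map_nsmul]
  rw [h3] at h1
  exact hA _ _ hK.ne' h1

/-- The additive map underlying `heckeHp N p ℓ φ` is the Hecke transform of the additive map
underlying `φ`. -/
theorem hom_heckeHp (N p ℓ : ℕ) [Fact p.Prime] (hℓ : ℓ.Prime) (hℓN : ¬ ℓ ∣ N) (φ : Hp N p) :
    Hp.hom (heckeHp N p ℓ hℓ hℓN φ) = heckeFun N ℓ hℓ hℓN (Hp.hom φ) := by
  refine hom_heckeHp_of hℓ hℓN (fun ψ => ?_) φ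
  refine isCuspidalHom_heckeFun hℓ hℓN (fun n a hn h => ?_) (Hp.isCuspidalHom_hom ψ)
  rw [nsmul_eq_mul] at h
  rcases mul_eq_zero.1 h with h0 | h0
  · exact absurd (Nat.cast_eq_zero.1 h0) hn
  · exact h0

end Fermat.Agent.S30
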