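import Fermat.Agent.S22

/-!
# P15 (S30), part (A′): a common eigenvector attached to a character of the Hecke algebra
(second implementation)

Let `χ : 𝕋 →+* R` be a ring homomorphism from the weight-2 Hecke algebra of level `N` to a domain
of characteristic zero.  Then there are a nonzero cusp form `g` and an injective ring homomorphism
`e : χ.range →+* ℂ` with `T g = e (χ T) • g` for all `T ∈ 𝕋` (`exists_eigenform_of_char_B`).

Proof: `𝔭 = ker χ` is a prime of `𝕋` with `𝔭 ∩ ℤ = 0`; as `𝕋` is integral over `ℤ` it is a minimal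
prime, hence (Noetherian) the annihilator of some `b ∈ 𝕋`.  The subspace of cusp forms killed by
`𝔭` contains the image of `b`, so it is nonzero, and it is stable under the commuting family `𝕋`:
it contains a common eigenvector, whose character has kernel `𝔭` by incomparability.
-/

set_option autoImplicit false

namespace Fermat.Agent.S30

namespace EigenCharB

open Module

section Linear

variable {K V : Type*} [Field K] [IsAlgClosed K] [AddCommGroup V] [Module K V]

/-- A commuting family of endomorphisms has a common eigenvector in every nonzero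
finite-dimensional invariant subspace. -/
theorem exists_common_eigenvector (𝒮 : Set (Module.End K V))
    (hcomm : ∀ T ∈ 𝒮, ∀ T' ∈ 𝒮, Commute T T') :
    ∀ (n : ℕ) (W : Submodule K V), FiniteDimensional K W → Module.finrank K W = n → W ≠ ⊥ →
      (∀ T ∈ 𝒮, ∀ w ∈ W, T w ∈ W) → ∃ g ∈ W, g ≠ 0 ∧ ∀ T ∈ 𝒮, ∃ c : K, T g = c • g := by
  intro n
  induction n using Nat.strong_induction_on with
  | _ n ih =>
    intro W hfd hn hW hinv
    by_cases h : ∀ T ∈ 𝒮, ∃ c : K, ∀ w ∈ W, T w = c • w
    · obtain ⟨g, hgW, hg⟩ := Submodule.exists_mem_ne_zero_of_ne_bot hW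
      refine ⟨g, hgW, hg, fun T hT => ?_⟩
      obtain ⟨c, hc⟩ := h T hT
      exact ⟨c, hc g hgW⟩
    · push Not at h
      obtain ⟨T₀, hT₀, hns⟩ := h
      haveI : Nontrivial W := (Submodule.nontrivial_iff_ne_bot).mpr hW
      obtain ⟨c, hc⟩ := Module.End.exists_eigenvalue (T₀.restrict (hinv T₀ hT₀))
      obtain ⟨w, hw⟩ := hc.exists_hasEigenvector
      have hw1 : T₀ (w : V) = c • (w : V) := by
        have := congrArg Subtype.val hw.apply_eq_smul
        simpa using this
      have hw0 : (w : V) ≠ 0 := fun h0 => hw.2 (Subtype.ext h0)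
      let W' : Submodule K V := W ⊓ LinearMap.ker (T₀ - c • (1 : Module.End K V))
      have hmem : ∀ x : V, x ∈ W' ↔ x ∈ W ∧ T₀ x = c • x := by
        intro x
        simp only [W', Submodule.mem_inf, LinearMap.mem_ker, LinearMap.sub_apply,
          LinearMap.smul_apply, Module.End.one_apply, sub_eq_zero]
      have hle : W' ≤ W := inf_le_left
      obtain ⟨w₁, hw₁W, hw₁⟩ := hns c
      have hlt : W' < W := by
        refine lt_of_le_of_ne hle fun heq => hw₁ ?_
        have : w₁ ∈ W' := heq ▸ hw₁W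
        exact ((hmem w₁).mp this).2
      have hfd' : FiniteDimensional K W' := Submodule.finiteDimensional_of_le hle
      have hrank : Module.finrank K W' < n := hn ▸ Submodule.finrank_lt_finrank_of_lt hlt
      have hW' : W' ≠ ⊥ := by
        intro h0
        have : (w : V) ∈ W' := (hmem _).mpr ⟨w.2, hw1⟩
        rw [h0, Submodule.mem_bot] at this
        exact hw0 this
      have hinv' : ∀ T ∈ 𝒮, ∀ x ∈ W', T x ∈ W' := by
        intro T hT x hx
        obtain ⟨hxW, hx1⟩ := (hmem x).mp hx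
        refine (hmem _).mpr ⟨hinv T hT x hxW, ?_⟩
        have hc := hcomm T₀ hT₀ T hT
        have h1 : T₀ (T x) = T (T₀ x) := by
          have := congrArg (fun f : Module.End K V => f x) hc.eq
          simpa using this
        rw [h1, hx1, map_smul]
      obtain ⟨g, hg, hg0, hgT⟩ := ih _ hrank W' hfd' rfl hW' hinv'
      exact ⟨g, hle hg, hg0, hgT⟩

end Linear

section Char

variable {K V : Type*} [Field K] [AddCommGroup V] [Module K V]

/-- The character of a common eigenvector of a commutative ring of endomorphisms. -/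
theorem exists_char_of_eigenvector {A : Type*} [CommRing A] (ι : A →+* Module.End K V)
    {g : V} (hg : g ≠ 0) (h : ∀ T : A, ∃ c : K, ι T g = c • g) :
    ∃ μ : A →+* K, ∀ T : A, ι T g = μ T • g := by
  have hinj : Function.Injective fun c : K => c • g := smul_left_injective K hg
  choose μ hμ using h
  refine ⟨{ toFun := μ, map_one' := ?_, map_mul' := ?_, map_zero' := ?_, map_add' := ?_ }, hμ⟩
  · apply hinj
    show μ 1 • g = (1 : K) • g
    rw [← hμ, map_one, one_smul, Module.End.one_apply]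
  · intro T T'
    apply hinj
    show μ (T * T') • g = (μ T * μ T') • g
    rw [← hμ, map_mul, Module.End.mul_apply, hμ T', map_smul, hμ T, smul_smul, mul_comm]
  · apply hinj
    show μ 0 • g = (0 : K) • g
    rw [← hμ, map_zero, zero_smul, LinearMap.zero_apply]
  · intro T T'
    apply hinj
    show μ (T + T') • g = (μ T + μ T') • g
    rw [← hμ, map_add, LinearMap.add_apply, hμ T, hμ T', add_smul]

end Char

section Prime

variable {A : Type*} [CommRing A]

/-- A prime ideal lying over `0` of a ring integral over `ℤ` is a minimal prime. -/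
theorem mem_minimalPrimes_of_comap_eq_bot [Algebra.IsIntegral ℤ A] (𝔭 : Ideal A) [𝔭.IsPrime]
    (h𝔭 : 𝔭.comap (algebraMap ℤ A) = ⊥) : 𝔭 ∈ (⊥ : Ideal A).minimalPrimes := by
  refine ⟨⟨inferInstance, bot_le⟩, ?_⟩
  rintro 𝔮 ⟨h𝔮, -⟩ hle
  by_contra hnot
  obtain ⟨x, hx𝔭, hx𝔮⟩ := Set.not_subset.mp hnot
  have := Ideal.comap_lt_comap_of_integral_mem_sdiff (R := ℤ) hle ⟨hx𝔭, hx𝔮⟩
    (Algebra.IsIntegral.isIntegral x)
  rw [h𝔭] at this
  exact not_lt_bot this

/-- Incomparability over `ℤ`: two primes over `0`, one contained in the other, are equal. -/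
theorem eq_of_le_of_comap_eq_bot [Algebra.IsIntegral ℤ A] (𝔭 𝔮 : Ideal A) [𝔭.IsPrime]
    (hle : 𝔭 ≤ 𝔮) (h𝔮 : 𝔮.comap (algebraMap ℤ A) = ⊥) : 𝔭 = 𝔮 := by
  refine le_antisymm hle fun x hx => ?_
  by_contra hx𝔭
  have := Ideal.comap_lt_comap_of_integral_mem_sdiff (R := ℤ) hle ⟨hx, hx𝔭⟩
    (Algebra.IsIntegral.isIntegral x)
  rw [h𝔮] at this
  exact not_lt_bot this

/-- The kernel of a ring homomorphism to a ring of characteristic zero lies over `0`. -/
theorem comap_ker_eq_bot {B : Type*} [CommRing B] [CharZero B] (χ : A →+* B) :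
    (RingHom.ker χ).comap (algebraMap ℤ A) = ⊥ := by
  rw [eq_bot_iff]
  intro n hn
  rw [Ideal.mem_comap, RingHom.mem_ker, eq_intCast, map_intCast] at hn
  rw [Ideal.mem_bot]
  exact_mod_cast hn

/-- In a Noetherian ring, a minimal prime is the annihilator of an element. -/
theorem exists_annihilator_of_minimal [IsNoetherianRing A] (𝔭 : Ideal A)
    (h𝔭 : 𝔭 ∈ (⊥ : Ideal A).minimalPrimes) : ∃ b : A, ∀ T : A, T ∈ 𝔭 ↔ T * b = 0 := by
  have hcol : (⊥ : Submodule A A).colon {(1 : A)} = ⊥ := by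
    ext r
    rw [Submodule.mem_colon_singleton, Submodule.mem_bot, smul_eq_mul, mul_one]
    rfl
  obtain ⟨b, hb⟩ := Submodule.exists_eq_colon_of_mem_minimalPrimes (N := (⊥ : Submodule A A))
    (x := (1 : A)) (I := 𝔭) (by rw [hcol]; exact h𝔭)
  refine ⟨b, fun T => ?_⟩
  rw [hb, Submodule.mem_colon_singleton, Submodule.mem_bot, smul_eq_mul]

end Prime

end EigenCharB

open EigenCharB in
/-- **A common eigenvector attached to a character of the Hecke algebra**: the kernel of `χ` is
the kernel of the character of a common eigenvector. -/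
theorem exists_eigenform_of_char_B (N : ℕ) [NeZero N] (S : Set ℕ) {R : Type*} [CommRing R]
    [IsDomain R] [CharZero R] (χ : CuspForm.heckeAlgebra N 2 S →+* R) :
    ∃ (g : CuspForm (CongruenceSubgroup.Gamma0 N) 2) (e : ↥χ.range →+* ℂ), g ≠ 0 ∧
      Function.Injective e ∧
      ∀ T : CuspForm.heckeAlgebra N 2 S,
        (T : Module.End ℂ (CuspForm (CongruenceSubgroup.Gamma0 N) 2)) g = e ⟨χ T, T, rfl⟩ • g := by
  classical
  haveI : Module.Finite ℤ (CuspForm.heckeAlgebra N 2 S) := Fermat.Agent.S22.result N 2 S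
  haveI : FiniteDimensional ℂ (CuspForm (CongruenceSubgroup.Gamma0 N) 2) :=
    Fermat.Agent.S22.FinalAlgebra.finiteDimensional N 2
  haveI : IsNoetherianRing (CuspForm.heckeAlgebra N 2 S) :=
    isNoetherian_of_tower ℤ (isNoetherian_of_isNoetherianRing_of_finite ℤ _)
  haveI : Algebra.IsIntegral ℤ (CuspForm.heckeAlgebra N 2 S) := inferInstance
  -- the prime `𝔭 = ker χ`
  haveI h𝔭prime : (RingHom.ker χ).IsPrime := RingHom.ker_isPrime χ
  have h𝔭bot := comap_ker_eq_bot χ
  obtain ⟨b, hb⟩ := exists_annihilator_of_minimal (RingHom.ker χ)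
    (mem_minimalPrimes_of_comap_eq_bot (RingHom.ker χ) h𝔭bot)
  have hb0 : b ≠ 0 := by
    intro h0
    have h1 : (1 : CuspForm.heckeAlgebra N 2 S) ∈ RingHom.ker χ := (hb 1).mpr (by rw [h0, mul_zero])
    exact h𝔭prime.ne_top ((Ideal.eq_top_iff_one _).mpr h1)
  have hb0' : (b : Module.End ℂ (CuspForm (CongruenceSubgroup.Gamma0 N) 2)) ≠ 0 :=
    fun h0 => hb0 (Subtype.ext h0)
  obtain ⟨v, hv⟩ : ∃ v, (b : Module.End ℂ (CuspForm (CongruenceSubgroup.Gamma0 N) 2)) v ≠ 0 := by
    by_contra hcon
    push Not at hcon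
    exact hb0' (LinearMap.ext hcon)
  -- the subspace killed by `𝔭`
  let W : Submodule ℂ (CuspForm (CongruenceSubgroup.Gamma0 N) 2) :=
    ⨅ T : RingHom.ker χ, LinearMap.ker
      (((T : CuspForm.heckeAlgebra N 2 S) :
        Module.End ℂ (CuspForm (CongruenceSubgroup.Gamma0 N) 2)))
  have hWmem : ∀ w, w ∈ W ↔ ∀ T : CuspForm.heckeAlgebra N 2 S, T ∈ RingHom.ker χ →
      (T : Module.End ℂ (CuspForm (CongruenceSubgroup.Gamma0 N) 2)) w = 0 := by
    intro w
    simp only [W, Submodule.mem_iInf, LinearMap.mem_ker, Subtype.forall]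
  have hW : W ≠ ⊥ := by
    intro h0
    have : (b : Module.End ℂ (CuspForm (CongruenceSubgroup.Gamma0 N) 2)) v ∈ W := by
      rw [hWmem]
      intro T hT
      have h1 := (hb T).mp hT
      have h2 : ((T * b : CuspForm.heckeAlgebra N 2 S) :
          Module.End ℂ (CuspForm (CongruenceSubgroup.Gamma0 N) 2)) v = 0 := by
        rw [h1]
        rfl
      exact h2
    rw [h0, Submodule.mem_bot] at this
    exact hv this
  let 𝒮 : Set (Module.End ℂ (CuspForm (CongruenceSubgroup.Gamma0 N) 2)) :=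
    (CuspForm.heckeAlgebra N 2 S : Set (Module.End ℂ (CuspForm (CongruenceSubgroup.Gamma0 N) 2)))
  have hcomm : ∀ T ∈ 𝒮, ∀ T' ∈ 𝒮, Commute T T' := by
    intro T hT T' hT'
    have := mul_comm (⟨T, hT⟩ : CuspForm.heckeAlgebra N 2 S) ⟨T', hT'⟩
    exact congrArg Subtype.val this
  have hinv : ∀ T ∈ 𝒮, ∀ w ∈ W, T w ∈ W := by
    intro T hT w hw
    rw [hWmem] at hw ⊢
    intro T' hT'
    have hc := hcomm T' T'.2 T hT
    have h1 : (T' : Module.End ℂ (CuspForm (CongruenceSubgroup.Gamma0 N) 2)) (T w) =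
        T ((T' : Module.End ℂ (CuspForm (CongruenceSubgroup.Gamma0 N) 2)) w) := by
      have := congrArg (fun f : Module.End ℂ (CuspForm (CongruenceSubgroup.Gamma0 N) 2) => f w)
        hc.eq
      simpa using this
    rw [h1, hw T' hT', map_zero]
  obtain ⟨g, hgW, hg0, hgT⟩ := exists_common_eigenvector 𝒮 hcomm _ W inferInstance rfl hW hinv
  obtain ⟨μ, hμ⟩ := exists_char_of_eigenvector
    (CuspForm.heckeAlgebra N 2 S).val.toRingHom hg0 (fun T => hgT T T.2)
  have hμ' : ∀ T : CuspForm.heckeAlgebra N 2 S,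
      (T : Module.End ℂ (CuspForm (CongruenceSubgroup.Gamma0 N) 2)) g = μ T • g := hμ
  -- the kernel of `μ` is `𝔭`
  have hle : RingHom.ker χ ≤ RingHom.ker μ := by
    intro T hT
    rw [RingHom.mem_ker]
    have h1 := (hWmem g).mp hgW T hT
    rw [hμ' T] at h1
    exact (smul_eq_zero.mp h1).resolve_right hg0
  have hker : RingHom.ker χ = RingHom.ker μ :=
    eq_of_le_of_comap_eq_bot _ _ hle (comap_ker_eq_bot μ)
  -- the embedding of the image of `χ`
  have hle' : RingHom.ker χ.rangeRestrict ≤ RingHom.ker μ := by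
    intro T hT
    rw [← hker, RingHom.mem_ker]
    have := congrArg Subtype.val (RingHom.mem_ker.mp hT)
    exact this
  let e : ↥χ.range →+* ℂ :=
    χ.rangeRestrict.liftOfSurjective χ.rangeRestrict_surjective ⟨μ, hle'⟩
  have he : ∀ T : CuspForm.heckeAlgebra N 2 S, e ⟨χ T, T, rfl⟩ = μ T := fun T =>
    χ.rangeRestrict.liftOfRightInverse_comp_apply _ _ ⟨μ, hle'⟩ T
  refine ⟨g, e, hg0, ?_, fun T => ?_⟩
  · rw [injective_iff_map_eq_zero]
    rintro ⟨y, T, rfl⟩ hy
    rw [he T] at hy
    have : T ∈ RingHom.ker χ := by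
      rw [hker]
      exact hy
    exact Subtype.ext this
  · rw [he T]
    exact hμ' T

end Fermat.Agent.S30
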