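import Fermat.Agent.S30.PeriodCharBCore
import Fermat.Agent.S30.EigenCharB

/-!
# P15 (S30), part (A′), module PeriodChar (second team)

`exists_eigen_hom_B`: every character `χ` of the weight two Hecke algebra of level `Γ₀(N)` with
values in a domain of characteristic zero occurs in the cuspidal additive characters of `Γ₀(N)`:
there is a nonzero cuspidal character `ψ : Γ₀(N) → R` with values in `χ.range` such that
`T_ℓ ψ = χ(T_ℓ) ψ` for all good primes `ℓ`.
-/

set_option autoImplicit false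

namespace Fermat.Agent.S30

open Fermat.Agent.S42 CongruenceSubgroup
open scoped MatrixGroups

theorem exists_eigen_hom_B (N : ℕ) [NeZero N] (S : Set ℕ) {R : Type*} [CommRing R] [IsDomain R]
    [CharZero R] (χ : CuspForm.heckeAlgebra N 2 S →+* R) :
    ∃ ψ : Additive ↥(Gamma0 N) →+ R, ψ ≠ 0 ∧ IsCuspidalHom N ψ ∧ (∀ γ, ψ γ ∈ χ.range) ∧
      ∀ (ℓ : ℕ) (hℓ : ℓ.Prime) (hℓN : ¬ ℓ ∣ N) (hℓS : ℓ ∉ S),
        heckeFun N ℓ hℓ hℓN ψ =
          (AddMonoidHom.mulLeft (χ (CuspForm.heckeAlgebra.T hℓ hℓN hℓS))).comp ψ := by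
  obtain ⟨g, e, hg, he, hev⟩ := exists_eigenform_of_char_B N S χ
  exact PeriodCharB.exists_eigen_hom_of_eigenform N S χ g e hg he hev

end Fermat.Agent.S30
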