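import Fermat.Agent.S30.TateDefs
import Fermat.Agent.S30.HeckeCusp
import Fermat.Agent.S22
import Fermat.Agent.S30.PeriodCharB

/-!
# P15 (S30), part (A′): interface (I2) — the eigensystem `χ` occurs in `𝒪' ⊗ Hp N p`
-/

set_option autoImplicit false

namespace Fermat.Agent.S30

open Fermat.Agent.S42 CongruenceSubgroup TensorProduct
open scoped MatrixGroups

namespace EigenTensor

/-- Abstract eigen-equation: if multiplication by `lam` on the `b k` and `T` on the `h j` are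
given by the same integral matrix (transposed), then `∑ b k ⊗ h k` is an eigenvector. -/
theorem baseChange_sum_tmul {R A H : Type*} [CommRing R] [CommRing A] [Algebra R A]
    [AddCommGroup H] [Module R H] (T : Module.End R H) {m : ℕ} (b : Fin m → A) (h : Fin m → H)
    (B : Fin m → Fin m → ℤ) (lam : A)
    (hb : ∀ k, lam * b k = ∑ j, B j k • b j)
    (hT : ∀ j, T (h j) = ∑ k, ((B j k : ℤ) : R) • h k) :
    (T.baseChange A) (∑ k, b k ⊗ₜ[R] h k) = lam • ∑ k, b k ⊗ₜ[R] h k := by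
  rw [map_sum, Finset.smul_sum]
  have h1 : ∀ j, (T.baseChange A) (b j ⊗ₜ[R] h j) =
      ∑ k, ((B j k : ℤ) : R) • (b j ⊗ₜ[R] h k) := by
    intro j
    rw [LinearMap.baseChange_tmul, hT j, TensorProduct.tmul_sum]
    refine Finset.sum_congr rfl fun k _ => ?_
    rw [TensorProduct.tmul_smul]
  have h2 : ∀ k, lam • (b k ⊗ₜ[R] h k) = ∑ j, ((B j k : ℤ) : R) • (b j ⊗ₜ[R] h k) := by
    intro k
    rw [TensorProduct.smul_tmul', smul_eq_mul, hb k, TensorProduct.sum_tmul]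
    refine Finset.sum_congr rfl fun j _ => ?_
    rw [← Int.cast_smul_eq_zsmul R (B j k) (b j), TensorProduct.smul_tmul']
  rw [Finset.sum_congr rfl fun j _ => h1 j, Finset.sum_congr rfl fun k _ => h2 k]
  exact Finset.sum_comm

/-- Abstract non-vanishing: a linear form on `H` detects `∑ b k ⊗ h k`. -/
theorem sum_tmul_ne_zero {R A H : Type*} [CommRing R] [CommRing A] [Algebra R A]
    [AddCommGroup H] [Module R H] (ev : H →ₗ[R] R) {m : ℕ} (b : Fin m → A) (h : Fin m → H)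
    (hne : ∑ k, ev (h k) • b k ≠ 0) : ∑ k, b k ⊗ₜ[R] h k ≠ 0 := by
  intro h0
  apply hne
  have := congrArg (fun x => TensorProduct.rid R A (LinearMap.lTensor A ev x)) h0
  simpa [map_sum] using this

/-- The Hecke transform of the coordinates of an eigen-character with values in a free
`ℤ`-module. -/
theorem heckeFun_coord {N ℓ : ℕ} (hℓ : ℓ.Prime) (hℓN : ¬ ℓ ∣ N) {R₀ : Type*} [AddCommGroup R₀]
    {m : ℕ} (b : Module.Basis (Fin m) ℤ R₀) (L : R₀ →+ R₀)
    (ψ₀ : Additive ↥(Gamma0 N) →+ R₀) (hψ₀ : heckeFun N ℓ hℓ hℓN ψ₀ = L.comp ψ₀) (j : Fin m) :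
    heckeFun N ℓ hℓ hℓN ((b.coord j).toAddMonoidHom.comp ψ₀) =
      ∑ k, b.repr (L (b k)) j • ((b.coord k).toAddMonoidHom.comp ψ₀) := by
  rw [heckeFun_comp, hψ₀]
  refine AddMonoidHom.ext fun γ => ?_
  have hsum : ψ₀ γ = ∑ k, b.repr (ψ₀ γ) k • b k := (b.sum_repr (ψ₀ γ)).symm
  have h1 : b.repr (L (ψ₀ γ)) j = ∑ k, b.repr (ψ₀ γ) k * b.repr (L (b k)) j := by
    conv_lhs => rw [hsum]
    rw [map_sum, map_sum, Finsupp.finsetSum_apply]
    refine Finset.sum_congr rfl fun k _ => ?_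
    rw [map_zsmul, map_zsmul, Finsupp.smul_apply, smul_eq_mul]
  simp only [AddMonoidHom.coe_comp, Function.comp_apply, LinearMap.toAddMonoidHom_coe,
    Module.Basis.coord_apply, AddMonoidHom.finsetSum_apply, AddMonoidHom.smul_apply, smul_eq_mul]
  rw [h1]
  exact Finset.sum_congr rfl fun k _ => mul_comm _ _

/-- The Hecke operator on the `p`-adic characters attached to integral characters. -/
theorem heckeHp_ofHom (N p ℓ : ℕ) [Fact p.Prime] (hℓ : ℓ.Prime) (hℓN : ¬ ℓ ∣ N) {m : ℕ}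
    (n : Fin m → Additive ↥(Gamma0 N) →+ ℤ)
    (hn : ∀ k, IsCuspidalHom N ((Int.castAddHom ℤ_[p]).comp (n k)))
    (B : Fin m → Fin m → ℤ)
    (hB : ∀ j, heckeFun N ℓ hℓ hℓN (n j) = ∑ k, B j k • n k) (j : Fin m) :
    heckeHp N p ℓ hℓ hℓN (Hp.ofHom ((Int.castAddHom ℤ_[p]).comp (n j)) (hn j)) =
      ∑ k, ((B j k : ℤ) : ℤ_[p]) • Hp.ofHom ((Int.castAddHom ℤ_[p]).comp (n k)) (hn k) := by
  apply Hp.hom_injective
  rw [hom_heckeHp, Hp.hom_ofHom, heckeFun_comp, hB j]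
  refine AddMonoidHom.ext fun γ => ?_
  simp only [AddMonoidHom.coe_comp, Function.comp_apply, AddMonoidHom.finsetSum_apply,
    AddMonoidHom.smul_apply, Int.coe_castAddHom, Hp.hom_apply, Submodule.coe_sum,
    Submodule.coe_smul, Finset.sum_apply, Pi.smul_apply, smul_eq_mul, Int.cast_sum, Int.cast_mul]
  rfl

/-- Expansion in a `ℤ`-basis of a subring, with coefficients cast to another base ring. -/
theorem coe_sum_repr {A : Type*} [CommRing A] (R₀ : Subring A) {m : ℕ}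
    (b : Module.Basis (Fin m) ℤ ↥R₀) (R : Type*) [CommRing R] [Algebra R A] (x : ↥R₀) :
    ∑ k, ((b.repr x k : ℤ) : R) • ((b k : ↥R₀) : A) = (x : A) := by
  conv_rhs => rw [← b.sum_repr x]
  rw [← Subring.coe_subtype, map_sum]
  refine Finset.sum_congr rfl fun k _ => ?_
  rw [Int.cast_smul_eq_zsmul, map_zsmul]

/-- Expansion in a `ℤ`-basis of a subring of a product. -/
theorem coe_mul_repr {A : Type*} [CommRing A] (R₀ : Subring A) {m : ℕ}
    (b : Module.Basis (Fin m) ℤ ↥R₀) (lam : ↥R₀) (k : Fin m) :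
    (lam : A) * ((b k : ↥R₀) : A) = ∑ j, b.repr (lam * b k) j • ((b j : ↥R₀) : A) := by
  have h := coe_sum_repr R₀ b ℤ (lam * b k)
  rw [Subring.coe_mul] at h
  rw [← h]
  rfl

/-- The range of a character of the Hecke algebra is a finitely generated `ℤ`-module. -/
theorem finite_range (N : ℕ) [NeZero N] (S : Set ℕ) {R : Type*} [CommRing R]
    (χ : CuspForm.heckeAlgebra N 2 S →+* R) : Module.Finite ℤ ↥χ.range := by
  have : Module.Finite ℤ (CuspForm.heckeAlgebra N 2 S) := Fermat.Agent.S22.result N 2 S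
  exact Module.Finite.of_surjective χ.rangeRestrict.toAddMonoidHom.toIntLinearMap
    χ.rangeRestrict_surjective

end EigenTensor

/-- Interface (I2): the eigensystem `χ` occurs in `𝒪' ⊗ Hp N p`. -/
theorem exists_eigen_tensor (N p : ℕ) [NeZero N] [Fact p.Prime] (S : Set ℕ)
    (𝒪' : Type) [CommRing 𝒪'] [IsDomain 𝒪'] [CharZero 𝒪'] [Algebra ℤ_[p] 𝒪']
    (χ : CuspForm.heckeAlgebra N 2 S →+* 𝒪') : EigenTensor N p S 𝒪' χ := by
  classical
  obtain ⟨ψ, hψ0, hψc, hψr, hψT⟩ := exists_eigen_hom_B N S χ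
  have hfin : Module.Finite ℤ ↥χ.range := EigenTensor.finite_range N S χ
  have hfree : Module.Free ℤ ↥χ.range := Module.free_of_finite_type_torsion_free'
  -- a `ℤ`-basis of the range of `χ`
  let b : Module.Basis (Fin (Module.finrank ℤ ↥χ.range)) ℤ ↥χ.range := Module.finBasis ℤ ↥χ.range
  -- `ψ` with values in the range
  let ψ₀ : Additive ↥(Gamma0 N) →+ ↥χ.range := ψ.codRestrict χ.range hψr
  have hψ₀ : ∀ γ, ((ψ₀ γ : ↥χ.range) : 𝒪') = ψ γ := fun γ => rfl
  -- the integral coordinates of `ψ`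
  let n : Fin (Module.finrank ℤ ↥χ.range) → Additive ↥(Gamma0 N) →+ ℤ :=
    fun k => (b.coord k).toAddMonoidHom.comp ψ₀
  have hn : ∀ k, IsCuspidalHom N ((Int.castAddHom ℤ_[p]).comp (n k)) := by
    intro k γ hγ
    have h0 : ψ₀ (Additive.ofMul γ) = 0 := Subtype.ext (hψc γ hγ)
    show ((b.coord k (ψ₀ (Additive.ofMul γ)) : ℤ) : ℤ_[p]) = 0
    rw [h0, map_zero, Int.cast_zero]
  refine ⟨∑ k, ((b k : ↥χ.range) : 𝒪') ⊗ₜ[ℤ_[p]]
    Hp.ofHom ((Int.castAddHom ℤ_[p]).comp (n k)) (hn k), ?_, ?_⟩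
  · -- non-vanishing
    obtain ⟨γ₀, hγ₀⟩ : ∃ γ₀, ψ γ₀ ≠ 0 := by
      by_contra hcon
      push Not at hcon
      exact hψ0 (AddMonoidHom.ext hcon)
    refine EigenTensor.sum_tmul_ne_zero
      ((LinearMap.proj (Additive.toMul γ₀)).comp (Hp N p).subtype) _ _ ?_
    have hev : ∀ k, ((LinearMap.proj (Additive.toMul γ₀)).comp (Hp N p).subtype)
        (Hp.ofHom ((Int.castAddHom ℤ_[p]).comp (n k)) (hn k)) =
        ((b.repr (ψ₀ γ₀) k : ℤ) : ℤ_[p]) := fun k => rfl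
    have hsum : ∑ k, ((b.repr (ψ₀ γ₀) k : ℤ) : ℤ_[p]) • ((b k : ↥χ.range) : 𝒪') = ψ γ₀ :=
      EigenTensor.coe_sum_repr χ.range b ℤ_[p] (ψ₀ γ₀)
    rw [Finset.sum_congr rfl fun k _ => by rw [hev k], hsum]
    exact hγ₀
  · -- the eigen-equation
    intro ℓ hℓ hℓN hℓS
    set lam₀ : ↥χ.range := ⟨χ (CuspForm.heckeAlgebra.T hℓ hℓN hℓS), _, rfl⟩ with hlam₀
    have hψ₀T : heckeFun N ℓ hℓ hℓN ψ₀ = (AddMonoidHom.mulLeft lam₀).comp ψ₀ := by
      have hinj : Function.Injective (χ.range.subtype : ↥χ.range →+* 𝒪') :=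
        Subtype.val_injective
      have h1 : (χ.range.subtype : ↥χ.range →+* 𝒪').toAddMonoidHom.comp
          (heckeFun N ℓ hℓ hℓN ψ₀) =
          (χ.range.subtype : ↥χ.range →+* 𝒪').toAddMonoidHom.comp
            ((AddMonoidHom.mulLeft lam₀).comp ψ₀) := by
        rw [← heckeFun_comp]
        have h2 : (χ.range.subtype : ↥χ.range →+* 𝒪').toAddMonoidHom.comp ψ₀ = ψ :=
          AddMonoidHom.ext fun γ => rfl
        rw [h2, hψT ℓ hℓ hℓN hℓS]
        exact AddMonoidHom.ext fun γ => rfl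
      refine AddMonoidHom.ext fun γ => hinj ?_
      exact DFunLike.congr_fun h1 γ
    have hB := EigenTensor.heckeFun_coord hℓ hℓN b (AddMonoidHom.mulLeft lam₀) ψ₀ hψ₀T
    refine EigenTensor.baseChange_sum_tmul (heckeHp N p ℓ hℓ hℓN) _ _
      (fun j k => b.repr (lam₀ * b k) j) _ ?_ ?_
    · intro k
      exact EigenTensor.coe_mul_repr χ.range b lam₀ k
    · exact EigenTensor.heckeHp_ofHom N p ℓ hℓ hℓN n hn _ hB

end Fermat.Agent.S30
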