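import Mathlib

/-!
P15 (S30), part (B′), module D (`AdicDescent`), rank-one case.

If `ρL : G →* End_B(L)` is a representation on a free module of rank one and `e : G →* B` is a
character, then `ρL ⊕ (e · det(ρL)⁻¹)` is a representation on a free module of rank two whose
characteristic polynomial at `g` is `X² - t X + e g` as soon as `ρL g` satisfies
`ρL g ² - t ρL g + e g = 0`; it inherits congruences modulo ideals and triviality.

Main statement: `ad1_exists_twist`.
-/

set_option autoImplicit false

namespace Fermat.Agent.S30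

open Polynomial

section RankOne

variable {B : Type*} [CommRing B] [Nontrivial B] {L : Type*} [AddCommGroup L] [Module B L]
  [Module.Free B L] [Module.Finite B L]

/-- On a free module of rank one every endomorphism is multiplication by its determinant. -/
theorem ad1_eq_det_smul (h1 : Module.finrank B L = 1) (f : Module.End B L) :
    f = LinearMap.det f • (1 : Module.End B L) := by
  classical
  let b := Module.finBasisOfFinrankEq B L h1
  apply b.ext
  intro i
  have hi : i = 0 := Subsingleton.elim _ _
  subst hi
  have hdet : LinearMap.det f = b.repr (f (b 0)) 0 := by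
    rw [← LinearMap.det_toMatrix b, Matrix.det_fin_one, LinearMap.toMatrix_apply]
  have h2 : f (b 0) = b.repr (f (b 0)) 0 • b 0 := by
    conv_lhs => rw [← b.sum_repr (f (b 0))]
    simp
  rw [LinearMap.smul_apply, Module.End.one_apply, hdet]
  exact h2

/-- The characteristic polynomial of an endomorphism of a free module of rank one. -/
theorem ad1_charpoly (h1 : Module.finrank B L = 1) (f : Module.End B L) :
    LinearMap.charpoly f = X - C (LinearMap.det f) := by
  classical
  let b := Module.finBasisOfFinrankEq B L h1
  rw [← LinearMap.charpoly_toMatrix f b, Matrix.charpoly, Matrix.det_fin_one,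
    Matrix.charmatrix_apply_eq, ← LinearMap.det_toMatrix b, Matrix.det_fin_one]

/-- A scalar acting as zero on a free module of rank one is zero. -/
theorem ad1_eq_zero_of_smul_one (h1 : Module.finrank B L = 1) {c : B}
    (h : c • (1 : Module.End B L) = 0) : c = 0 := by
  classical
  let b := Module.finBasisOfFinrankEq B L h1
  have h2 := congrArg (fun f : Module.End B L => b.repr (f (b 0)) 0) h
  simpa using h2

omit [Nontrivial B] [Module.Free B L] [Module.Finite B L] in
/-- The coordinates of an element of `I • ⊤` lie in `I`. -/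
theorem ad1_repr_mem {ι : Type*} (b : Module.Basis ι B L) (I : Ideal B) {x : L}
    (hx : x ∈ I • (⊤ : Submodule B L)) (i : ι) : b.repr x i ∈ I := by
  refine Submodule.smul_induction_on hx ?_ ?_
  · intro r hr n _
    rw [map_smul, Finsupp.smul_apply, smul_eq_mul]
    exact I.mul_mem_right _ hr
  · intro x y hx hy
    rw [map_add, Finsupp.add_apply]
    exact I.add_mem hx hy

/-- If `f ≡ 1` modulo `I` then `det f ≡ 1` modulo `I` (rank one). -/
theorem ad1_det_sub_one_mem (h1 : Module.finrank B L = 1) (f : Module.End B L) (I : Ideal B)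
    (h : ∀ v : L, f v - v ∈ I • (⊤ : Submodule B L)) : LinearMap.det f - 1 ∈ I := by
  classical
  let b := Module.finBasisOfFinrankEq B L h1
  have h2 := ad1_repr_mem b I (h (b 0)) 0
  have h3 : f (b 0) = LinearMap.det f • b 0 := by
    conv_lhs => rw [ad1_eq_det_smul h1 f]
    simp
  rw [h3, map_sub, map_smul] at h2
  simpa using h2

end RankOne

section Prod

variable {B : Type*} [CommRing B] {L : Type*} [AddCommGroup L] [Module B L]

/-- A pair lies in `I • ⊤` as soon as its components do. -/
theorem ad1_prod_mem (I : Ideal B) {a : L} (ha : a ∈ I • (⊤ : Submodule B L)) {c : B}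
    (hc : c ∈ I) : ((a, c) : L × B) ∈ I • (⊤ : Submodule B (L × B)) := by
  have h1 : ((a, 0) : L × B) ∈ I • (⊤ : Submodule B (L × B)) := by
    have h2 : LinearMap.inl B L B a ∈ (I • (⊤ : Submodule B L)).map (LinearMap.inl B L B) :=
      Submodule.mem_map_of_mem ha
    rw [Submodule.map_smul''] at h2
    exact Submodule.smul_mono le_rfl le_top h2
  have h2 : ((0, c) : L × B) ∈ I • (⊤ : Submodule B (L × B)) := by
    have h3 : ((0, c) : L × B) = c • ((0, 1) : L × B) := by
      ext <;> simp
    rw [h3]
    exact Submodule.smul_mem_smul hc Submodule.mem_top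
  have h3 : ((a, c) : L × B) = (a, 0) + (0, c) := by
    ext <;> simp
  rw [h3]
  exact Submodule.add_mem _ h1 h2

end Prod

/-- **Rank-one twist.** -/
theorem ad1_exists_twist {B : Type} [CommRing B] [IsDomain B] {L : Type} [AddCommGroup L]
    [Module B L] [Module.Free B L] [Module.Finite B L] (h1 : Module.finrank B L = 1)
    {G : Type} [Group G] (ρL : G →* Module.End B L) (e : G →* B) :
    ∃ (V : Type) (_ : AddCommGroup V) (_ : Module B V) (_ : Module.Free B V)
      (_ : Module.Finite B V) (ρ' : G →* Module.End B V),
      Module.finrank B V = 2 ∧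
      (∀ (g : G) (t : B), ρL g * ρL g - t • ρL g + e g • (1 : Module.End B L) = 0 →
        LinearMap.charpoly (ρ' g) = X ^ 2 - C t * X + C (e g)) ∧
      (∀ (g : G) (I : Ideal B), (∀ v : L, ρL g v - v ∈ I • (⊤ : Submodule B L)) → e g - 1 ∈ I →
        ∀ v : V, ρ' g v - v ∈ I • (⊤ : Submodule B V)) ∧
      (∀ g : G, ρL g = 1 → e g = 1 → ρ' g = 1) := by
  classical
  -- the determinant character and its inverse
  let ψ : G →* B := LinearMap.det.comp ρL
  have hψ : ∀ g, ψ g * ψ g⁻¹ = 1 := fun g => by
    rw [← map_mul, mul_inv_cancel, map_one]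
  let χ : G →* B :=
    { toFun := fun g => e g * ψ g⁻¹
      map_one' := by simp
      map_mul' := fun g h => by
        rw [mul_inv_rev, map_mul, map_mul]
        ring }
  have hχ : ∀ g, χ g = e g * ψ g⁻¹ := fun _ => rfl
  let ρ' : G →* Module.End B (L × B) :=
    { toFun := fun g => (ρL g).prodMap (χ g • (1 : Module.End B B))
      map_one' := by
        rw [map_one, map_one, one_smul, LinearMap.prodMap_one]
      map_mul' := fun g h => by
        rw [map_mul, map_mul, LinearMap.prodMap_mul, smul_mul_smul_comm, one_mul] }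
  have hρ' : ∀ g, ρ' g = (ρL g).prodMap (χ g • (1 : Module.End B B)) := fun _ => rfl
  have hB1 : Module.finrank B B = 1 := Module.finrank_self B
  refine ⟨L × B, inferInstance, inferInstance, inferInstance, inferInstance, ρ', ?_, ?_, ?_, ?_⟩
  · rw [Module.finrank_prod, h1, hB1]
  · intro g t hg
    -- the scalar relation
    have hp : ρL g = ψ g • (1 : Module.End B L) := ad1_eq_det_smul h1 (ρL g)
    have hrel : ψ g * ψ g - t * ψ g + e g = 0 := by
      apply ad1_eq_zero_of_smul_one (L := L) h1
      rw [hp] at hg
      rw [← hg]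
      simp only [smul_mul_smul_comm, mul_one, add_smul, sub_smul, smul_smul]
    have ht : t = ψ g + e g * ψ g⁻¹ := by
      have h2 : (ψ g * ψ g - t * ψ g + e g) * ψ g⁻¹ = 0 := by rw [hrel, zero_mul]
      linear_combination (-1 : B) * h2 + (ψ g - t) * hψ g
    have hdχ : LinearMap.det (χ g • (1 : Module.End B B)) = χ g := by
      rw [LinearMap.det_smul, hB1, pow_one, Module.End.one_eq_id, LinearMap.det_id, mul_one]
    rw [hρ', LinearMap.charpoly_prodMap, ad1_charpoly h1, ad1_charpoly hB1, hdχ, hχ]
    have hC : C (ψ g) * C (ψ g⁻¹) = (1 : B[X]) := by rw [← C_mul, hψ, C_1]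
    change (X - C (ψ g)) * (X - C (e g * ψ g⁻¹)) = _
    rw [ht, C_add, C_mul]
    linear_combination C (e g) * hC
  · intro g I hg he
    have hp : ψ g - 1 ∈ I := ad1_det_sub_one_mem h1 (ρL g) I hg
    have hχ1 : χ g - 1 ∈ I := by
      have h2 : χ g - 1 = ψ g⁻¹ * (e g - 1) - ψ g⁻¹ * (ψ g - 1) := by
        rw [hχ]
        linear_combination hψ g
      rw [h2]
      exact I.sub_mem (I.mul_mem_left _ he) (I.mul_mem_left _ hp)
    rintro ⟨v, c⟩
    have h3 : ρ' g (v, c) - (v, c) = (ρL g v - v, (χ g - 1) * c) := by
      rw [hρ']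
      ext
      · simp
      · simp [sub_mul]
    rw [h3]
    exact ad1_prod_mem I (hg v) (I.mul_mem_right _ hχ1)
  · intro g hg he
    have hp : ψ g = 1 := by
      change LinearMap.det (ρL g) = 1
      rw [hg]
      exact map_one _
    have hq : ψ g⁻¹ = 1 := by
      have := hψ g
      rwa [hp, one_mul] at this
    rw [hρ', hg, hχ, he, hq, mul_one, one_smul, LinearMap.prodMap_one]

end Fermat.Agent.S30
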