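import Mathlib
import Fermat.Agent.S42.Extraction

/-!
# The stable subspace behind the extraction of a two-dimensional representation

Project P15 (S30), part (B′), module X.

`Fermat.Agent.S42.exists_two_dim_of_quadratic` produces, from a finite-dimensional nonzero
representation `ρ` of a group `G` over an algebraically closed field all of whose elements satisfy
quadratic relations `ρ(g)² - t ρ(g) + ε(g) = 0` (with `ε` a character), an abstract
two-dimensional representation.  Here we expose the subspace itself:

* `exists_stable_subspace`: there is a `ρ`-stable subspace `U` of dimension `1` or `2`; in the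
  two-dimensional case every endomorphism `f` of `U` agreeing with `ρ g` on `U` has characteristic
  polynomial `X² - t X + ε(g)`, for every `t` such that the quadratic relation holds for `ρ g`.

`U` is a minimal nonzero stable subspace; the restriction of `ρ` to `U` is irreducible, so its
dimension is at most `2` (`ex_finrank_le_two`), and in dimension `2` the quadratic relations are
the characteristic polynomials (`ex_charpoly_eq`).

Auxiliary declarations carry the prefix `xo_`.
-/

set_option autoImplicit false

namespace Fermat.Agent.S30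

open Polynomial

/-- An endomorphism of a stable subspace `U` which agrees with `ρ g` on `U` is the restriction
`ex_restrict ρ U hU g`. -/
theorem xo_eq_restrict {k : Type*} [Field k] {G : Type*} [Monoid G] {W : Type*} [AddCommGroup W]
    [Module k W] (ρ : G →* Module.End k W) (U : Submodule k W)
    (hU : ∀ g, ∀ u ∈ U, ρ g u ∈ U) (g : G) (f : Module.End k U)
    (hf : ∀ u : U, ((f u : U) : W) = ρ g (u : W)) :
    f = Fermat.Agent.S42.ex_restrict ρ U hU g := by
  ext u
  rw [hf u, Fermat.Agent.S42.ex_restrict_apply]

/-- A minimal nonzero stable subspace, together with the properties of the restricted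
representation: irreducibility, the restricted quadratic relations, and the dimension bounds. -/
theorem xo_exists_minimal_restrict {k : Type*} [Field k] [IsAlgClosed k] {G : Type*} [Group G]
    {W : Type*} [AddCommGroup W] [Module k W] [FiniteDimensional k W] [Nontrivial W]
    (ρ : G →* Module.End k W) (ε : G →* kˣ)
    (h : ∀ g : G, ∃ t : k, ρ g * ρ g - t • ρ g + ((ε g : kˣ) : k) • (1 : Module.End k W) = 0) :
    ∃ (U : Submodule k W) (hU : ∀ g, ∀ u ∈ U, ρ g u ∈ U),
      (∀ N : Submodule k U, (∀ g, ∀ u ∈ N, Fermat.Agent.S42.ex_restrict ρ U hU g u ∈ N) →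
        N = ⊥ ∨ N = ⊤) ∧
      (∀ g : G, ∃ t : k,
        Fermat.Agent.S42.ex_restrict ρ U hU g * Fermat.Agent.S42.ex_restrict ρ U hU g
          - t • Fermat.Agent.S42.ex_restrict ρ U hU g
          + ((ε g : kˣ) : k) • (1 : Module.End k U) = 0) ∧
      (Module.finrank k U = 1 ∨ Module.finrank k U = 2) := by
  obtain ⟨U, hU0, hUst, hUmin⟩ :=
    Fermat.Agent.S42.ex_exists_minimal (ρ : G → Module.End k W)
  have hirr := Fermat.Agent.S42.ex_restrict_irred ρ U hUst hUmin
  have hq' : ∀ g : G, ∃ t : k,
      Fermat.Agent.S42.ex_restrict ρ U hUst g * Fermat.Agent.S42.ex_restrict ρ U hUst g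
        - t • Fermat.Agent.S42.ex_restrict ρ U hUst g
        + ((ε g : kˣ) : k) • (1 : Module.End k U) = 0 :=
    fun g => (h g).imp fun t ht => Fermat.Agent.S42.ex_restrict_quadratic ρ U hUst g t _ ht
  have hnt : Nontrivial U := (Submodule.nontrivial_iff_ne_bot).mpr hU0
  have hle : Module.finrank k U ≤ 2 :=
    Fermat.Agent.S42.ex_finrank_le_two (Fermat.Agent.S42.ex_restrict ρ U hUst) ε hirr hq'
  have hpos : 0 < Module.finrank k U := Module.finrank_pos
  exact ⟨U, hUst, hirr, hq', by omega⟩

/-- **The stable subspace behind the extraction.**  If every `ρ g` satisfies a quadratic relation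
`ρ(g)² - t ρ(g) + ε(g) = 0`, there is a `ρ`-stable subspace `U` of dimension `1` or `2`, and if
its dimension is `2` then every endomorphism of `U` induced by `ρ g` has characteristic polynomial
`X² - t X + ε(g)`, for every `t` for which the relation holds. -/
theorem exists_stable_subspace {k : Type} [Field k] [IsAlgClosed k] {G : Type*} [Group G]
    {W : Type} [AddCommGroup W] [Module k W] [FiniteDimensional k W] [Nontrivial W]
    (ρ : G →* Module.End k W) (ε : G →* kˣ)
    (h : ∀ g : G, ∃ t : k, ρ g * ρ g - t • ρ g + ((ε g : kˣ) : k) • (1 : Module.End k W) = 0) :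
    ∃ U : Submodule k W, (∀ g : G, ∀ u ∈ U, ρ g u ∈ U) ∧
      (Module.finrank k U = 1 ∨
        (Module.finrank k U = 2 ∧ ∀ (g : G) (t : k) (f : Module.End k U),
          ρ g * ρ g - t • ρ g + ((ε g : kˣ) : k) • (1 : Module.End k W) = 0 →
          (∀ u : U, ((f u : U) : W) = ρ g (u : W)) →
          LinearMap.charpoly f = X ^ 2 - C t * X + C ((ε g : kˣ) : k))) := by
  obtain ⟨U, hUst, hirr, hq', hd⟩ := xo_exists_minimal_restrict ρ ε h
  refine ⟨U, hUst, ?_⟩
  rcases hd with hd | hd
  · exact Or.inl hd
  · refine Or.inr ⟨hd, fun g t f ht hf => ?_⟩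
    rw [xo_eq_restrict ρ U hUst g f hf]
    exact Fermat.Agent.S42.ex_charpoly_eq (Fermat.Agent.S42.ex_restrict ρ U hUst) ε hirr hd hq' g t
      (Fermat.Agent.S42.ex_restrict_quadratic ρ U hUst g t _ ht)

end Fermat.Agent.S30
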