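import Mathlib
import Fermat.Prelude.Thm_IsLocalRing_isAdicComplete_of_module_finite
import Fermat.Prelude.Thm_Algebra_finite_maximalSpectrum_and_bijective_localization_of_module_finite

/-!
# P15 (S30), part (B′), module G: the integral closure of a complete DVR in a finite extension

Let `𝒪'` be a complete discrete valuation ring of characteristic zero with finite residue field
and let `K''` be a finite extension of its fraction field.  The integral closure of `𝒪'` in `K''`
is again a complete discrete valuation ring with finite residue field, it is a finite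
`𝒪'`-module with fraction field `K''`, and the structure map is local and injective.

The main statement is `Fermat.Agent.S30.exists_dvr_package`.
-/

set_option autoImplicit false

namespace Fermat.Agent.S30

open IsLocalRing

/-! ### A domain that is a product of local rings is local -/

/-- A domain that is the product of its localisations at the maximal ideals has at most one
maximal ideal. -/
theorem icd_subsingleton_maximalSpectrum (A : Type) [CommRing A] [IsDomain A]
    (h : Function.Bijective (RingHom.pi fun I : MaximalSpectrum A =>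
      algebraMap A (Localization.AtPrime I.asIdeal))) :
    Subsingleton (MaximalSpectrum A) := by
  classical
  refine ⟨fun I J => ?_⟩
  by_contra hIJ
  obtain ⟨a, ha⟩ := h.2 (Pi.single I 1)
  obtain ⟨b, hb⟩ := h.2 (Pi.single J 1)
  have hab : a * b = 0 := by
    apply h.1
    rw [map_mul, ha, hb, map_zero]
    funext K
    rw [Pi.mul_apply, Pi.zero_apply]
    by_cases hK : K = I
    · have hKJ : K ≠ J := fun hKJ => hIJ (hK.symm.trans hKJ)
      rw [Pi.single_eq_of_ne hKJ, mul_zero]
    · rw [Pi.single_eq_of_ne hK, zero_mul]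
  rcases mul_eq_zero.mp hab with h0 | h0
  · have h1 := congrFun ha I
    rw [h0, map_zero, Pi.zero_apply, Pi.single_eq_same] at h1
    exact zero_ne_one h1
  · have h1 := congrFun hb J
    rw [h0, map_zero, Pi.zero_apply, Pi.single_eq_same] at h1
    exact zero_ne_one h1

/-- A domain that is the product of its localisations at the maximal ideals is local. -/
theorem icd_isLocalRing_of_bijective (A : Type) [CommRing A] [IsDomain A]
    (h : Function.Bijective (RingHom.pi fun I : MaximalSpectrum A =>
      algebraMap A (Localization.AtPrime I.asIdeal))) :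
    IsLocalRing A := by
  have hsub := icd_subsingleton_maximalSpectrum A h
  obtain ⟨M, hM⟩ := Ideal.exists_maximal A
  refine IsLocalRing.of_unique_max_ideal ⟨M, hM, fun J hJ => ?_⟩
  exact congrArg MaximalSpectrum.asIdeal (Subsingleton.elim (⟨J, hJ⟩ : MaximalSpectrum A) ⟨M, hM⟩)

/-- A domain that is a finite algebra over a complete noetherian local ring is local. -/
theorem icd_isLocalRing_of_module_finite (R : Type) [CommRing R] [IsLocalRing R]
    [IsNoetherianRing R] [IsAdicComplete (maximalIdeal R) R] (A : Type) [CommRing A] [IsDomain A]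
    [Algebra R A] [Module.Finite R A] : IsLocalRing A :=
  icd_isLocalRing_of_bijective A
    (Algebra.finite_maximalSpectrum_and_bijective_localization_of_module_finite (𝒪 := R) A).2.1

/-- A local Dedekind domain that is integral over a subring that is not a field is a discrete
valuation ring. -/
theorem icd_isDVR_of_isDedekindDomain (R A : Type) [CommRing R] [CommRing A]
    [Algebra R A] [Algebra.IsIntegral R A] [IsDedekindDomain A] [IsLocalRing A]
    (hinj : Function.Injective (algebraMap R A)) (hR : ¬ IsField R) :
    IsDiscreteValuationRing A := by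
  have hA : ¬ IsField A := fun hA => hR (isField_of_isIntegral_of_isField hinj hA)
  exact ((IsDiscreteValuationRing.TFAE A hA).out 0 2).mpr ‹IsDedekindDomain A›

/-! ### The integral closure -/

/-- The structure map of the integral closure is injective. -/
theorem icd_injective (𝒪' : Type) [CommRing 𝒪'] [IsDomain 𝒪']
    (K'' : Type) [Field K''] [Algebra 𝒪' K''] [Algebra (FractionRing 𝒪') K'']
    [IsScalarTower 𝒪' (FractionRing 𝒪') K''] :
    Function.Injective (algebraMap 𝒪' (integralClosure 𝒪' K'')) := by
  intro x y hxy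
  have h1 : algebraMap 𝒪' K'' x = algebraMap 𝒪' K'' y := by
    rw [IsScalarTower.algebraMap_apply 𝒪' (integralClosure 𝒪' K'') K'', hxy,
      ← IsScalarTower.algebraMap_apply 𝒪' (integralClosure 𝒪' K'') K'']
  rw [IsScalarTower.algebraMap_apply 𝒪' (FractionRing 𝒪') K'',
    IsScalarTower.algebraMap_apply 𝒪' (FractionRing 𝒪') K''] at h1
  exact IsFractionRing.injective 𝒪' (FractionRing 𝒪')
    ((algebraMap (FractionRing 𝒪') K'').injective h1)

/-- The integral closure is a finite module. -/
theorem icd_finite (𝒪' : Type) [CommRing 𝒪'] [IsDomain 𝒪'] [IsDiscreteValuationRing 𝒪']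
    [CharZero 𝒪'] (K'' : Type) [Field K''] [Algebra 𝒪' K''] [Algebra (FractionRing 𝒪') K'']
    [IsScalarTower 𝒪' (FractionRing 𝒪') K''] [FiniteDimensional (FractionRing 𝒪') K''] :
    Module.Finite 𝒪' (integralClosure 𝒪' K'') :=
  IsIntegralClosure.finite 𝒪' (FractionRing 𝒪') K'' (integralClosure 𝒪' K'')

/-- The integral closure has fraction field `K''`. -/
theorem icd_isFractionRing (𝒪' : Type) [CommRing 𝒪'] [IsDomain 𝒪']
    (K'' : Type) [Field K''] [Algebra 𝒪' K''] [Algebra (FractionRing 𝒪') K'']
    [IsScalarTower 𝒪' (FractionRing 𝒪') K''] [FiniteDimensional (FractionRing 𝒪') K''] :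
    IsFractionRing (integralClosure 𝒪' K'') K'' :=
  IsIntegralClosure.isFractionRing_of_finite_extension 𝒪' (FractionRing 𝒪') K''
    (integralClosure 𝒪' K'')

/-- The structure map of the integral closure is a local homomorphism. -/
theorem icd_isLocalHom (𝒪' : Type) [CommRing 𝒪'] [IsDomain 𝒪']
    (K'' : Type) [Field K''] [Algebra 𝒪' K''] [Algebra (FractionRing 𝒪') K'']
    [IsScalarTower 𝒪' (FractionRing 𝒪') K''] :
    IsLocalHom (algebraMap 𝒪' (integralClosure 𝒪' K'')) :=
  (algebraMap_isIntegral_iff.mpr inferInstance).isLocalHom (icd_injective 𝒪' K'')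

/-- The integral closure is a local ring. -/
theorem icd_isLocalRing (𝒪' : Type) [CommRing 𝒪'] [IsDomain 𝒪'] [IsDiscreteValuationRing 𝒪']
    [IsAdicComplete (maximalIdeal 𝒪') 𝒪'] [CharZero 𝒪']
    (K'' : Type) [Field K''] [Algebra 𝒪' K''] [Algebra (FractionRing 𝒪') K'']
    [IsScalarTower 𝒪' (FractionRing 𝒪') K''] [FiniteDimensional (FractionRing 𝒪') K''] :
    IsLocalRing (integralClosure 𝒪' K'') :=
  haveI := icd_finite 𝒪' K''
  icd_isLocalRing_of_module_finite 𝒪' (integralClosure 𝒪' K'')

/-- The integral closure is a discrete valuation ring. -/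
theorem icd_isDVR (𝒪' : Type) [CommRing 𝒪'] [IsDomain 𝒪'] [IsDiscreteValuationRing 𝒪']
    [IsAdicComplete (maximalIdeal 𝒪') 𝒪'] [CharZero 𝒪']
    (K'' : Type) [Field K''] [Algebra 𝒪' K''] [Algebra (FractionRing 𝒪') K'']
    [IsScalarTower 𝒪' (FractionRing 𝒪') K''] [FiniteDimensional (FractionRing 𝒪') K''] :
    IsDiscreteValuationRing (integralClosure 𝒪' K'') :=
  haveI := icd_isLocalRing 𝒪' K''
  icd_isDVR_of_isDedekindDomain 𝒪' (integralClosure 𝒪' K'') (icd_injective 𝒪' K'')
    (IsDiscreteValuationRing.not_isField 𝒪')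

/-- The integral closure is complete for its maximal ideal. -/
theorem icd_isAdicComplete (𝒪' : Type) [CommRing 𝒪'] [IsDomain 𝒪']
    [IsDiscreteValuationRing 𝒪'] [IsAdicComplete (maximalIdeal 𝒪') 𝒪'] [CharZero 𝒪']
    (K'' : Type) [Field K''] [Algebra 𝒪' K''] [Algebra (FractionRing 𝒪') K'']
    [IsScalarTower 𝒪' (FractionRing 𝒪') K''] [FiniteDimensional (FractionRing 𝒪') K'']
    [IsLocalRing (integralClosure 𝒪' K'')] :
    IsAdicComplete (maximalIdeal (integralClosure 𝒪' K'')) (integralClosure 𝒪' K'') :=
  haveI := icd_finite 𝒪' K''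
  haveI := icd_isLocalHom 𝒪' K''
  IsLocalRing.isAdicComplete_of_module_finite (𝒪 := 𝒪')

/-- The residue field of the integral closure is finite. -/
theorem icd_finite_residueField (𝒪' : Type) [CommRing 𝒪'] [IsDomain 𝒪']
    [IsDiscreteValuationRing 𝒪'] [Finite (ResidueField 𝒪')] [CharZero 𝒪']
    (K'' : Type) [Field K''] [Algebra 𝒪' K''] [Algebra (FractionRing 𝒪') K'']
    [IsScalarTower 𝒪' (FractionRing 𝒪') K''] [FiniteDimensional (FractionRing 𝒪') K'']
    [IsLocalRing (integralClosure 𝒪' K'')] :
    Finite (ResidueField (integralClosure 𝒪' K'')) :=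
  haveI := icd_finite 𝒪' K''
  haveI := icd_isLocalHom 𝒪' K''
  IsLocalRing.ResidueField.finite_of_finite (R := 𝒪') inferInstance

/-- **The integral closure of a complete DVR in a finite extension of its fraction field** is a
complete DVR with finite residue field, finite over the base, with local injective structure
map. -/
theorem exists_dvr_package
    (𝒪' : Type) [CommRing 𝒪'] [IsDomain 𝒪'] [IsDiscreteValuationRing 𝒪']
    [IsAdicComplete (maximalIdeal 𝒪') 𝒪'] [Finite (ResidueField 𝒪')] [CharZero 𝒪']
    (K'' : Type) [Field K''] [Algebra 𝒪' K''] [Algebra (FractionRing 𝒪') K'']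
    [IsScalarTower 𝒪' (FractionRing 𝒪') K''] [FiniteDimensional (FractionRing 𝒪') K''] :
    ∃ (_ : IsDiscreteValuationRing (integralClosure 𝒪' K''))
      (_ : IsAdicComplete (maximalIdeal (integralClosure 𝒪' K'')) (integralClosure 𝒪' K''))
      (_ : Finite (ResidueField (integralClosure 𝒪' K'')))
      (_ : Module.Finite 𝒪' (integralClosure 𝒪' K''))
      (_ : IsLocalHom (algebraMap 𝒪' (integralClosure 𝒪' K''))),
      IsFractionRing (integralClosure 𝒪' K'') K'' ∧
      Function.Injective (algebraMap 𝒪' (integralClosure 𝒪' K'')) :=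
  haveI := icd_isDVR 𝒪' K''
  ⟨icd_isDVR 𝒪' K'', icd_isAdicComplete 𝒪' K'', icd_finite_residueField 𝒪' K'',
    icd_finite 𝒪' K'', icd_isLocalHom 𝒪' K'', icd_isFractionRing 𝒪' K'', icd_injective 𝒪' K''⟩

end Fermat.Agent.S30
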