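import Mathlib

/-!
# P15 (S30), part (B′), module L: the lattice of integral vectors in a subspace

Pure linear algebra over a principal ideal domain `B` mapping injectively to a field `Ω`.
For a subspace `U` of `Ω ^ r`, the lattice `latticeIn j U` of `B`-integral vectors lying in `U`
is a saturated, finite free `B`-module; if the integral vectors span `U`, its rank is the
dimension of `U` and characteristic polynomials of endomorphisms given by a matrix with entries
in `B` are compatible (`finrank_latticeIn`, `charpoly_latticeIn`).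

Extras (prefix `ld_`): the `Ω`-basis `ld_basis` of `U` attached to a `B`-basis of the lattice
(`ld_basis_apply`, `ld_basis_repr`, `ld_toMatrix`), compatibility of determinant and trace
(`ld_det_latticeIn`, `ld_trace_latticeIn`), the submonoid `ld_stab` of the matrices preserving
`U` with its actions `ld_endHom` on the lattice and `ld_endHomField` on `U`
(`ld_charpoly_endHom`), congruence `ld_sub_mem` / `ld_endHom_sub`, and the spanning criterion
`ld_span_of_frac`.
-/

set_option autoImplicit false

namespace Fermat.Agent.S30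

open Module

/-! ### Generalities: coordinatewise application of a ring homomorphism -/

section General

/-- Coordinatewise application of a ring homomorphism, as a semilinear map. -/
def ld_map {B Ω : Type*} [CommRing B] [CommRing Ω] (j : B →+* Ω) (r : ℕ) :
    (Fin r → B) →ₛₗ[j] (Fin r → Ω) where
  toFun v := fun i => j (v i)
  map_add' v w := by
    funext i
    simp
  map_smul' b v := by
    funext i
    simp

@[simp]
theorem ld_map_apply {B Ω : Type*} [CommRing B] [CommRing Ω] (j : B →+* Ω) (r : ℕ)
    (v : Fin r → B) (i : Fin r) : ld_map j r v i = j (v i) := rfl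

theorem ld_map_mulVec {B Ω : Type*} [CommRing B] [CommRing Ω] (j : B →+* Ω) {r : ℕ}
    (m : Matrix (Fin r) (Fin r) B) (v : Fin r → B) :
    (fun i => j (m.mulVec v i)) = (m.map j).mulVec (fun i => j (v i)) := by
  funext i
  exact RingHom.map_mulVec j m v i

/-- Linear independence over a field `K` of vectors of `K ^ r` is preserved by a field
extension. -/
theorem ld_linearIndependent_algebraMap {K Ω : Type*} [Field K] [Field Ω] [Algebra K Ω]
    {ι : Type*} {r : ℕ} (w : ι → Fin r → K) (hw : LinearIndependent K w) :
    LinearIndependent Ω (fun s => fun i => algebraMap K Ω (w s i)) := by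
  rw [linearIndependent_iff']
  intro t c hc s hs
  refine (Module.forall_dual_apply_eq_zero_iff K (c s)).mp fun ℓ => ?_
  have h0 : ∑ s ∈ t, ℓ (c s) • w s = 0 := by
    funext i
    have hi := congrFun hc i
    simp only [Finset.sum_apply, Pi.smul_apply, smul_eq_mul, Pi.zero_apply] at hi ⊢
    have hℓ : ℓ (∑ s ∈ t, c s * algebraMap K Ω (w s i)) = 0 := by rw [hi, map_zero]
    rw [map_sum] at hℓ
    rw [← hℓ]
    refine Finset.sum_congr rfl fun s _ => ?_
    rw [mul_comm (c s), ← Algebra.smul_def, map_smul, smul_eq_mul, mul_comm]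
  exact linearIndependent_iff'.mp hw t (fun s => ℓ (c s)) h0 s hs

/-- Linear independence over a domain `B` of vectors of `B ^ r` is preserved by an injective
ring homomorphism to a field. -/
theorem ld_linearIndependent_map {B Ω : Type*} [CommRing B] [IsDomain B] [Field Ω]
    (j : B →+* Ω) (hj : Function.Injective j) {ι : Type*} {r : ℕ} (v : ι → Fin r → B)
    (hv : LinearIndependent B v) :
    LinearIndependent Ω (fun s => fun i => j (v s i)) := by
  let _ : Algebra (FractionRing B) Ω := (IsFractionRing.lift hj).toAlgebra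
  have h1 : LinearIndependent B (fun s => fun i => algebraMap B (FractionRing B) (v s i)) := by
    have := hv.map' ((Algebra.linearMap B (FractionRing B)).compLeft (Fin r))
      (LinearMap.ker_eq_bot.mpr
        (Function.Injective.comp_left (IsFractionRing.injective B (FractionRing B))))
    exact this
  have h2 : LinearIndependent (FractionRing B)
      (fun s => fun i => algebraMap B (FractionRing B) (v s i)) :=
    (LinearIndependent.iff_fractionRing B (FractionRing B)).mp h1
  have h3 := ld_linearIndependent_algebraMap (Ω := Ω) _ h2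
  convert h3 using 3 with s i
  exact (IsFractionRing.lift_algebraMap hj (v s i)).symm

end General

section Lattice

variable {B Ω : Type} [CommRing B] [Field Ω] (j : B →+* Ω) {r : ℕ}
  (U : Submodule Ω (Fin r → Ω))

/-- The lattice of `B`-integral vectors lying in the subspace `U`. -/
def latticeIn : Submodule B (Fin r → B) where
  carrier := {v | (fun i => j (v i)) ∈ U}
  add_mem' {a b} ha hb := by
    have h : (fun i => j ((a + b) i)) = (fun i => j (a i)) + (fun i => j (b i)) := by
      funext i
      simp
    change (fun i => j ((a + b) i)) ∈ U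
    rw [h]
    exact U.add_mem ha hb
  zero_mem' := by
    have h : (fun i => j ((0 : Fin r → B) i)) = 0 := by
      funext i
      simp
    change (fun i => j ((0 : Fin r → B) i)) ∈ U
    rw [h]
    exact U.zero_mem
  smul_mem' c {x} hx := by
    have h : (fun i => j ((c • x) i)) = j c • (fun i => j (x i)) := by
      funext i
      simp
    change (fun i => j ((c • x) i)) ∈ U
    rw [h]
    exact U.smul_mem _ hx

theorem mem_latticeIn {v : Fin r → B} : v ∈ latticeIn j U ↔ (fun i => j (v i)) ∈ U := Iff.rfl

theorem mulVec_mem_latticeIn (m : Matrix (Fin r) (Fin r) B)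
    (hm : ∀ u ∈ U, (m.map j).mulVec u ∈ U) {v : Fin r → B} (hv : v ∈ latticeIn j U) :
    m.mulVec v ∈ latticeIn j U := by
  rw [mem_latticeIn, ld_map_mulVec]
  exact hm _ hv

theorem latticeIn_saturated (hj : Function.Injective j) {b : B} (hb : b ≠ 0) {v : Fin r → B}
    (h : b • v ∈ latticeIn j U) : v ∈ latticeIn j U := by
  rw [mem_latticeIn] at h ⊢
  have h' : (fun i => j ((b • v) i)) = j b • (fun i => j (v i)) := by
    funext i
    simp
  rw [h'] at h
  have hjb : j b ≠ 0 := fun h0 => hb (hj (h0.trans (map_zero j).symm))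
  exact (U.smul_mem_iff hjb).mp h

/-- The semilinear map `latticeIn j U → U`, `v ↦ j ∘ v`. -/
def ld_toSub : latticeIn j U →ₛₗ[j] U :=
  ((ld_map j r).domRestrict (latticeIn j U)).codRestrict U fun v => v.2

@[simp]
theorem ld_toSub_apply (v : latticeIn j U) (i : Fin r) :
    ((ld_toSub j U v : U) : Fin r → Ω) i = j ((v : Fin r → B) i) := rfl

theorem ld_toSub_coe (v : latticeIn j U) :
    ((ld_toSub j U v : U) : Fin r → Ω) = fun i => j ((v : Fin r → B) i) := rfl

variable [IsDomain B] [IsPrincipalIdealRing B]

theorem latticeIn_free : Module.Free B (latticeIn j U) :=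
  Module.Free.of_basis (Submodule.basisOfPid (Pi.basisFun B (Fin r)) (latticeIn j U)).2

theorem latticeIn_finite : Module.Finite B (latticeIn j U) :=
  Module.Finite.of_basis (Submodule.basisOfPid (Pi.basisFun B (Fin r)) (latticeIn j U)).2

omit [IsPrincipalIdealRing B] in
/-- The image of a `B`-basis of the lattice is linearly independent over `Ω`. -/
theorem ld_linearIndependent_toSub (hj : Function.Injective j) {ι : Type*}
    (e : Basis ι B (latticeIn j U)) :
    LinearIndependent Ω (fun s => ld_toSub j U (e s)) := by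
  have h1 : LinearIndependent B (fun s => ((e s : latticeIn j U) : Fin r → B)) :=
    e.linearIndependent.map' (latticeIn j U).subtype (Submodule.ker_subtype _)
  have h2 := ld_linearIndependent_map j hj _ h1
  exact LinearIndependent.of_comp U.subtype h2

omit [IsDomain B] [IsPrincipalIdealRing B] in
/-- The image of a `B`-basis of the lattice spans `U` as soon as the integral vectors do. -/
theorem ld_span_toSub
    (hU : U ≤ Submodule.span Ω
      ((fun v : Fin r → B => fun i => j (v i)) '' (latticeIn j U : Set (Fin r → B))))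
    {ι : Type*} [Fintype ι] (e : Basis ι B (latticeIn j U)) :
    ⊤ ≤ Submodule.span Ω (Set.range fun s => ld_toSub j U (e s)) := by
  rintro ⟨x, hx⟩ -
  have hx' := hU hx
  have hle : Submodule.span Ω
      ((fun v : Fin r → B => fun i => j (v i)) '' (latticeIn j U : Set (Fin r → B))) ≤
      (Submodule.span Ω (Set.range fun s => ld_toSub j U (e s))).map U.subtype := by
    rw [Submodule.span_le]
    rintro _ ⟨v, hv, rfl⟩
    refine ⟨ld_toSub j U ⟨v, hv⟩, ?_, rfl⟩
    have hsum : (⟨v, hv⟩ : latticeIn j U) = ∑ s, e.repr ⟨v, hv⟩ s • e s :=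
      (e.sum_repr ⟨v, hv⟩).symm
    rw [hsum, map_sum]
    refine Submodule.sum_mem _ fun s _ => ?_
    rw [map_smulₛₗ]
    exact Submodule.smul_mem _ _ (Submodule.subset_span ⟨s, rfl⟩)
  obtain ⟨y, hy, hyx⟩ := hle hx'
  have : y = ⟨x, hx⟩ := Subtype.ext hyx
  rw [← this]
  exact hy

/-- The `Ω`-basis of `U` obtained from a `B`-basis of the lattice. -/
noncomputable def ld_basis (hj : Function.Injective j)
    (hU : U ≤ Submodule.span Ω
      ((fun v : Fin r → B => fun i => j (v i)) '' (latticeIn j U : Set (Fin r → B))))
    {ι : Type*} [Fintype ι] (e : Basis ι B (latticeIn j U)) : Basis ι Ω U :=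
  Basis.mk (ld_linearIndependent_toSub j U hj e) (ld_span_toSub j U hU e)

omit [IsPrincipalIdealRing B] in
@[simp]
theorem ld_basis_apply (hj : Function.Injective j)
    (hU : U ≤ Submodule.span Ω
      ((fun v : Fin r → B => fun i => j (v i)) '' (latticeIn j U : Set (Fin r → B))))
    {ι : Type*} [Fintype ι] (e : Basis ι B (latticeIn j U)) (s : ι) :
    ld_basis j U hj hU e s = ld_toSub j U (e s) := by
  simp [ld_basis]

omit [IsPrincipalIdealRing B] in
/-- Coordinates in the basis `ld_basis` are the images of the coordinates in the lattice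
basis. -/
theorem ld_basis_repr (hj : Function.Injective j)
    (hU : U ≤ Submodule.span Ω
      ((fun v : Fin r → B => fun i => j (v i)) '' (latticeIn j U : Set (Fin r → B))))
    {ι : Type*} [Fintype ι] (e : Basis ι B (latticeIn j U)) (v : latticeIn j U) (s : ι) :
    (ld_basis j U hj hU e).repr (ld_toSub j U v) s = j (e.repr v s) := by
  have hsum : ld_toSub j U v = ∑ t, j (e.repr v t) • ld_basis j U hj hU e t := by
    conv_lhs => rw [← e.sum_repr v]
    rw [map_sum]
    refine Finset.sum_congr rfl fun t _ => ?_
    rw [map_smulₛₗ, ld_basis_apply]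
  rw [hsum, Basis.repr_sum_self]

theorem finrank_latticeIn (hj : Function.Injective j)
    (hU : U ≤ Submodule.span Ω
      ((fun v : Fin r → B => fun i => j (v i)) '' (latticeIn j U : Set (Fin r → B)))) :
    Module.finrank B (latticeIn j U) = Module.finrank Ω U := by
  obtain ⟨n, e⟩ := Submodule.basisOfPid (Pi.basisFun B (Fin r)) (latticeIn j U)
  rw [Module.finrank_eq_card_basis e, Module.finrank_eq_card_basis (ld_basis j U hj hU e)]

theorem charpoly_latticeIn (hj : Function.Injective j)
    (hU : U ≤ Submodule.span Ω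
      ((fun v : Fin r → B => fun i => j (v i)) '' (latticeIn j U : Set (Fin r → B))))
    (m : Matrix (Fin r) (Fin r) B)
    (f : Module.End B (latticeIn j U))
    (hf : ∀ v : latticeIn j U, ((f v : latticeIn j U) : Fin r → B) = m.mulVec (v : Fin r → B))
    (F : Module.End Ω U)
    (hF : ∀ u : U, ((F u : U) : Fin r → Ω) = (m.map j).mulVec (u : Fin r → Ω)) :
    haveI := latticeIn_free j U
    haveI := latticeIn_finite j U
    (LinearMap.charpoly f).map j = LinearMap.charpoly F := by
  have := latticeIn_free j U
  have := latticeIn_finite j U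
  obtain ⟨n, e⟩ := Submodule.basisOfPid (Pi.basisFun B (Fin r)) (latticeIn j U)
  have hcomm : ∀ v : latticeIn j U, F (ld_toSub j U v) = ld_toSub j U (f v) := by
    intro v
    apply Subtype.ext
    rw [hF, ld_toSub_coe, ld_toSub_coe, hf, ld_map_mulVec]
  have hM : LinearMap.toMatrix (ld_basis j U hj hU e) (ld_basis j U hj hU e) F =
      (LinearMap.toMatrix e e f).map j := by
    ext s t
    rw [LinearMap.toMatrix_apply, Matrix.map_apply, LinearMap.toMatrix_apply, ld_basis_apply,
      hcomm, ld_basis_repr]
  rw [← LinearMap.charpoly_toMatrix f e, ← LinearMap.charpoly_toMatrix F (ld_basis j U hj hU e),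
    hM, Matrix.charpoly_map]

end Lattice

/-! ### Extras for the consumers of the lattice -/

section LatticeExtras

variable {B Ω : Type} [CommRing B] [Field Ω] (j : B →+* Ω) {r : ℕ}
  (U : Submodule Ω (Fin r → Ω))


/-- (e1) If every entry of `m - 1` is divisible by `π ^ n` and `m` preserves `U`, then
`m • v - v ∈ π ^ n • latticeIn j U` for every `v` in the lattice. -/
theorem ld_sub_mem (hj : Function.Injective j) {π : B} (hπ : π ≠ 0) (n : ℕ)
    (m : Matrix (Fin r) (Fin r) B) (hm1 : ∀ i k, (m - 1) i k ∈ Ideal.span {π ^ n})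
    (hm : ∀ u ∈ U, (m.map j).mulVec u ∈ U) {v : Fin r → B} (hv : v ∈ latticeIn j U) :
    ∃ w ∈ latticeIn j U, m.mulVec v - v = π ^ n • w := by
  have hjπ : j π ≠ 0 := fun h => hπ (hj (h.trans (map_zero j).symm))
  have hπn : π ^ n ≠ 0 := by
    intro h0
    exact pow_ne_zero n hjπ (by rw [← map_pow, h0, map_zero])
  choose c hc using fun i k => Ideal.mem_span_singleton'.mp (hm1 i k)
  have hmc : m - 1 = π ^ n • Matrix.of c := by
    ext i k
    rw [Matrix.smul_apply, Matrix.of_apply, smul_eq_mul, mul_comm]
    exact (hc i k).symm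
  have heq : m.mulVec v - v = π ^ n • (Matrix.of c).mulVec v := by
    rw [← Matrix.smul_mulVec, ← hmc, Matrix.sub_mulVec, Matrix.one_mulVec]
  refine ⟨(Matrix.of c).mulVec v, ?_, heq⟩
  refine latticeIn_saturated j U hj hπn ?_
  rw [← heq]
  exact (latticeIn j U).sub_mem (mulVec_mem_latticeIn j U m hm hv) hv

/-- (e2) If `U` is spanned by vectors whose coordinates are fractions of elements of `j B`,
then `U` is spanned by the images of the integral vectors it contains. -/
theorem ld_span_of_frac (hj : Function.Injective j) {ι : Type*} (u : ι → Fin r → Ω)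
    (hu : ∀ s, u s ∈ U) (hspan : U ≤ Submodule.span Ω (Set.range u))
    (hfrac : ∀ s i, ∃ b c : B, c ≠ 0 ∧ u s i * j c = j b) :
    U ≤ Submodule.span Ω
      ((fun v : Fin r → B => fun i => j (v i)) '' (latticeIn j U : Set (Fin r → B))) := by
  refine hspan.trans (Submodule.span_le.mpr ?_)
  rintro _ ⟨s, rfl⟩
  choose b c hc hbc using hfrac s
  have hjc : ∀ i, j (c i) ≠ 0 := fun i h => hc i (hj (h.trans (map_zero j).symm))
  have hd : j (∏ i, c i) ≠ 0 := by
    rw [map_prod]
    exact Finset.prod_ne_zero_iff.mpr fun i _ => hjc i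
  have hv : (fun i => j (b i * ∏ k ∈ Finset.univ.erase i, c k)) = j (∏ i, c i) • u s := by
    funext i
    rw [Pi.smul_apply, smul_eq_mul, map_mul, ← hbc i, mul_assoc, ← map_mul,
      Finset.mul_prod_erase _ _ (Finset.mem_univ i), mul_comm]
  have hmem : (fun i => b i * ∏ k ∈ Finset.univ.erase i, c k) ∈ latticeIn j U := by
    rw [mem_latticeIn, hv]
    exact U.smul_mem _ (hu s)
  have hus : u s = (j (∏ i, c i))⁻¹ •
      (fun i => j (b i * ∏ k ∈ Finset.univ.erase i, c k)) := by
    rw [hv, smul_smul, inv_mul_cancel₀ hd, one_smul]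
  rw [SetLike.mem_coe, hus]
  exact Submodule.smul_mem _ _ (Submodule.subset_span ⟨_, hmem, rfl⟩)


/-- The submonoid of the matrices over `B` whose image over `Ω` preserves the subspace `U`. -/
def ld_stab : Submonoid (Matrix (Fin r) (Fin r) B) where
  carrier := {m | ∀ u ∈ U, (m.map j).mulVec u ∈ U}
  one_mem' := by
    intro u hu
    rw [Matrix.map_one j (map_zero j) (map_one j), Matrix.one_mulVec]
    exact hu
  mul_mem' {a b} ha hb := by
    intro u hu
    rw [Matrix.map_mul, ← Matrix.mulVec_mulVec]
    exact ha _ (hb _ hu)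

theorem ld_mem_stab {m : Matrix (Fin r) (Fin r) B} :
    m ∈ ld_stab j U ↔ ∀ u ∈ U, (m.map j).mulVec u ∈ U := Iff.rfl

/-- The action on the lattice of the matrices preserving `U`. -/
def ld_endHom : ld_stab j U →* Module.End B (latticeIn j U) where
  toFun m := (Matrix.mulVecLin m.1).restrict fun _ hv => mulVec_mem_latticeIn j U m.1 m.2 hv
  map_one' := by
    refine LinearMap.ext fun v => Subtype.ext ?_
    change (1 : Matrix (Fin r) (Fin r) B).mulVec (v : Fin r → B) = v
    rw [Matrix.one_mulVec]
  map_mul' a b := by
    refine LinearMap.ext fun v => Subtype.ext ?_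
    change (a.1 * b.1).mulVec (v : Fin r → B) = a.1.mulVec (b.1.mulVec v)
    rw [Matrix.mulVec_mulVec]

theorem ld_endHom_coe (m : ld_stab j U) (v : latticeIn j U) :
    ((ld_endHom j U m v : latticeIn j U) : Fin r → B) =
      (m : Matrix (Fin r) (Fin r) B).mulVec (v : Fin r → B) := rfl

/-- The action on `U` of the matrices preserving `U`. -/
def ld_endHomField : ld_stab j U →* Module.End Ω U where
  toFun m := (Matrix.mulVecLin (m.1.map j)).restrict m.2
  map_one' := by
    refine LinearMap.ext fun u => Subtype.ext ?_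
    change ((1 : Matrix (Fin r) (Fin r) B).map j).mulVec (u : Fin r → Ω) = u
    rw [Matrix.map_one j (map_zero j) (map_one j), Matrix.one_mulVec]
  map_mul' a b := by
    refine LinearMap.ext fun u => Subtype.ext ?_
    change ((a.1 * b.1).map j).mulVec (u : Fin r → Ω) =
      (a.1.map j).mulVec ((b.1.map j).mulVec u)
    rw [Matrix.map_mul, Matrix.mulVec_mulVec]

theorem ld_endHomField_coe (m : ld_stab j U) (u : U) :
    ((ld_endHomField j U m u : U) : Fin r → Ω) =
      ((m : Matrix (Fin r) (Fin r) B).map j).mulVec (u : Fin r → Ω) := rfl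

variable [IsDomain B] [IsPrincipalIdealRing B]

omit [IsPrincipalIdealRing B] in
/-- The matrix of `F` in the basis `ld_basis` is the image of the matrix of `f` in the lattice
basis, when `f` and `F` are both given by the same matrix `m`. -/
theorem ld_toMatrix (hj : Function.Injective j)
    (hU : U ≤ Submodule.span Ω
      ((fun v : Fin r → B => fun i => j (v i)) '' (latticeIn j U : Set (Fin r → B))))
    (m : Matrix (Fin r) (Fin r) B)
    (f : Module.End B (latticeIn j U))
    (hf : ∀ v : latticeIn j U, ((f v : latticeIn j U) : Fin r → B) = m.mulVec (v : Fin r → B))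
    (F : Module.End Ω U)
    (hF : ∀ u : U, ((F u : U) : Fin r → Ω) = (m.map j).mulVec (u : Fin r → Ω))
    {ι : Type*} [Fintype ι] [DecidableEq ι] (e : Basis ι B (latticeIn j U)) :
    LinearMap.toMatrix (ld_basis j U hj hU e) (ld_basis j U hj hU e) F =
      (LinearMap.toMatrix e e f).map j := by
  have hcomm : ∀ v : latticeIn j U, F (ld_toSub j U v) = ld_toSub j U (f v) := by
    intro v
    apply Subtype.ext
    rw [hF, ld_toSub_coe, ld_toSub_coe, hf, ld_map_mulVec]
  ext s t
  rw [LinearMap.toMatrix_apply, Matrix.map_apply, LinearMap.toMatrix_apply, ld_basis_apply,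
    hcomm, ld_basis_repr]

theorem ld_det_latticeIn (hj : Function.Injective j)
    (hU : U ≤ Submodule.span Ω
      ((fun v : Fin r → B => fun i => j (v i)) '' (latticeIn j U : Set (Fin r → B))))
    (m : Matrix (Fin r) (Fin r) B)
    (f : Module.End B (latticeIn j U))
    (hf : ∀ v : latticeIn j U, ((f v : latticeIn j U) : Fin r → B) = m.mulVec (v : Fin r → B))
    (F : Module.End Ω U)
    (hF : ∀ u : U, ((F u : U) : Fin r → Ω) = (m.map j).mulVec (u : Fin r → Ω)) :
    j (LinearMap.det f) = LinearMap.det F := by
  obtain ⟨n, e⟩ := Submodule.basisOfPid (Pi.basisFun B (Fin r)) (latticeIn j U)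
  rw [← LinearMap.det_toMatrix e f, ← LinearMap.det_toMatrix (ld_basis j U hj hU e) F,
    ld_toMatrix j U hj hU m f hf F hF e, RingHom.map_det]
  rfl

theorem ld_trace_latticeIn (hj : Function.Injective j)
    (hU : U ≤ Submodule.span Ω
      ((fun v : Fin r → B => fun i => j (v i)) '' (latticeIn j U : Set (Fin r → B))))
    (m : Matrix (Fin r) (Fin r) B)
    (f : Module.End B (latticeIn j U))
    (hf : ∀ v : latticeIn j U, ((f v : latticeIn j U) : Fin r → B) = m.mulVec (v : Fin r → B))
    (F : Module.End Ω U)
    (hF : ∀ u : U, ((F u : U) : Fin r → Ω) = (m.map j).mulVec (u : Fin r → Ω)) :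
    j (LinearMap.trace B (latticeIn j U) f) = LinearMap.trace Ω U F := by
  obtain ⟨n, e⟩ := Submodule.basisOfPid (Pi.basisFun B (Fin r)) (latticeIn j U)
  rw [LinearMap.trace_eq_matrix_trace B e f,
    LinearMap.trace_eq_matrix_trace Ω (ld_basis j U hj hU e) F,
    ld_toMatrix j U hj hU m f hf F hF e, AddMonoidHom.map_trace]

/-- Characteristic polynomials of the two actions of a matrix preserving `U`. -/
theorem ld_charpoly_endHom (hj : Function.Injective j)
    (hU : U ≤ Submodule.span Ω
      ((fun v : Fin r → B => fun i => j (v i)) '' (latticeIn j U : Set (Fin r → B))))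
    (m : ld_stab j U) :
    haveI := latticeIn_free j U
    haveI := latticeIn_finite j U
    (LinearMap.charpoly (ld_endHom j U m)).map j = LinearMap.charpoly (ld_endHomField j U m) :=
  charpoly_latticeIn j U hj hU m.1 _ (ld_endHom_coe j U m) _ (ld_endHomField_coe j U m)

omit [IsDomain B] [IsPrincipalIdealRing B] in
/-- (e1), for the action `ld_endHom`: if every entry of `m - 1` is divisible by `π ^ n`, then
`m` acts trivially on the lattice modulo `π ^ n`. -/
theorem ld_endHom_sub (hj : Function.Injective j) {π : B} (hπ : π ≠ 0) (n : ℕ)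
    (m : ld_stab j U)
    (hm1 : ∀ i k, ((m : Matrix (Fin r) (Fin r) B) - 1) i k ∈ Ideal.span {π ^ n})
    (v : latticeIn j U) : ∃ w : latticeIn j U, ld_endHom j U m v - v = π ^ n • w := by
  obtain ⟨w, hw, h⟩ := ld_sub_mem j U hj hπ n m.1 hm1 m.2 v.2
  exact ⟨⟨w, hw⟩, Subtype.ext h⟩

end LatticeExtras

end Fermat.Agent.S30
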