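import Mathlib
import Fermat.Agent.S30.ExtractOpen
import Fermat.Agent.S30.LatticeDescent
import Fermat.Agent.S30.IntClosureDVR
import Fermat.Agent.S30.AdicDescentRankOne

set_option autoImplicit false

/-!
# S30 (P15 B′), module D: descent of a representation with quadratic relations to a lattice

`exists_lattice_rep`: a representation `ρ` of a group `G` on a nonzero finite free module `Y`
over a complete discrete valuation ring `𝒪'`, all of whose elements satisfy a quadratic
relation `ρ g ^ 2 - t • ρ g + ε g = 0`, gives rise to a representation of rank `2` over a finite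
extension `𝒪''` of `𝒪'` (again a complete discrete valuation ring) with the expected
characteristic polynomials, continuity and triviality properties.
-/

namespace Fermat.Agent.S30

open Polynomial IsLocalRing

section Matrices

/-- A quadratic relation between endomorphisms gives the same relation between matrices. -/
theorem ad_toMatrix_rel {A : Type*} [CommRing A] {Y : Type*} [AddCommGroup Y] [Module A Y]
    {n : Type*} [Fintype n] [DecidableEq n] (b : Module.Basis n A Y) (f : Module.End A Y)
    (t e : A) (h : f * f - t • f + e • (1 : Module.End A Y) = 0) :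
    LinearMap.toMatrix b b f * LinearMap.toMatrix b b f - t • LinearMap.toMatrix b b f
      + e • (1 : Matrix n n A) = 0 := by
  have h2 := congrArg (LinearMap.toMatrix b b) h
  rw [map_zero, map_add, map_sub, map_smul, map_smul, LinearMap.toMatrix_mul,
    LinearMap.toMatrix_one] at h2
  exact h2

/-- A quadratic relation between matrices is preserved by a ring homomorphism. -/
theorem ad_map_rel {A B : Type*} [CommRing A] [CommRing B] (f : A →+* B) {n : Type*}
    [Fintype n] [DecidableEq n] (M : Matrix n n A) (t e : A)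
    (h : M * M - t • M + e • (1 : Matrix n n A) = 0) :
    M.map f * M.map f - f t • M.map f + f e • (1 : Matrix n n B) = 0 := by
  have h2 := congrArg (RingHom.mapMatrix f) h
  rw [map_zero, map_add, map_sub, map_mul] at h2
  have h3 : RingHom.mapMatrix f (t • M) = f t • M.map f := by
    ext i k
    simp
  have h4 : RingHom.mapMatrix f (e • (1 : Matrix n n A)) = f e • (1 : Matrix n n B) := by
    ext i k
    by_cases hik : i = k
    · simp [hik]
    · simp [hik]
  rw [h3, h4] at h2
  exact h2

/-- A quadratic relation between matrices gives the same relation between the associated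
endomorphisms. -/
theorem ad_toLin_rel {B : Type*} [CommRing B] {n : Type*} [Fintype n] [DecidableEq n]
    (M : Matrix n n B) (t e : B) (h : M * M - t • M + e • (1 : Matrix n n B) = 0) :
    Matrix.toLin' M * Matrix.toLin' M - t • Matrix.toLin' M
      + e • (1 : Module.End B (n → B)) = 0 := by
  have h2 := congrArg Matrix.toLin' h
  rw [map_zero, map_add, map_sub, map_smul, map_smul, Matrix.toLin'_mul, Matrix.toLin'_one] at h2
  exact h2

/-- The coordinates of an element of `I • ⊤` lie in `I`. -/
theorem ad_repr_mem_of_mem_smul_top {A : Type*} [CommRing A] {Y : Type*} [AddCommGroup Y]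
    [Module A Y] {n : Type*} (b : Module.Basis n A Y) (I : Ideal A) {y : Y}
    (hy : y ∈ I • (⊤ : Submodule A Y)) (i : n) : b.repr y i ∈ I := by
  refine Submodule.smul_induction_on hy ?_ ?_
  · intro a ha x _
    rw [map_smul, Finsupp.smul_apply, smul_eq_mul]
    exact I.mul_mem_right _ ha
  · intro x y hx hy
    rw [map_add, Finsupp.add_apply]
    exact I.add_mem hx hy

/-- The matrices of a representation on a free module, as a monoid homomorphism. -/
noncomputable def ad_matHom {A : Type*} [CommRing A] {Y : Type*} [AddCommGroup Y] [Module A Y]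
    {n : Type*} [Fintype n] [DecidableEq n] (b : Module.Basis n A Y) {G : Type*} [Group G]
    (ρ : G →* Module.End A Y) : G →* Matrix n n A where
  toFun g := LinearMap.toMatrix b b (ρ g)
  map_one' := by rw [map_one, LinearMap.toMatrix_one]
  map_mul' g h := by rw [map_mul, LinearMap.toMatrix_mul]

theorem ad_matHom_apply {A : Type*} [CommRing A] {Y : Type*} [AddCommGroup Y] [Module A Y]
    {n : Type*} [Fintype n] [DecidableEq n] (b : Module.Basis n A Y) {G : Type*} [Group G]
    (ρ : G →* Module.End A Y) (g : G) : ad_matHom b ρ g = LinearMap.toMatrix b b (ρ g) := rfl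

/-- If `ρ g - 1` maps into `I • ⊤`, the entries of the matrix of `ρ g - 1` lie in `I`. -/
theorem ad_matHom_sub_one_mem {A : Type*} [CommRing A] {Y : Type*} [AddCommGroup Y] [Module A Y]
    {n : Type*} [Fintype n] [DecidableEq n] (b : Module.Basis n A Y) {G : Type*} [Group G]
    (ρ : G →* Module.End A Y) (g : G) (I : Ideal A)
    (h : ∀ y : Y, ρ g y - y ∈ I • (⊤ : Submodule A Y)) (i k : n) :
    (ad_matHom b ρ g - 1) i k ∈ I := by
  have h1 : (ad_matHom b ρ g - 1) i k = b.repr (ρ g (b k) - b k) i := by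
    rw [Matrix.sub_apply, ad_matHom_apply, LinearMap.toMatrix_apply, map_sub, Finsupp.sub_apply,
      Module.Basis.repr_self, Matrix.one_apply, Finsupp.single_apply]
    simp only [eq_comm]
  rw [h1]
  exact ad_repr_mem_of_mem_smul_top b I (h (b k)) i

end Matrices

section LatRep

variable {B Ω : Type} [CommRing B] [Field Ω] (j : B →+* Ω) {r : ℕ}
  (U : Submodule Ω (Fin r → Ω)) {G : Type} [Group G] (ν : G →* Matrix (Fin r) (Fin r) B)
  (hν : ∀ g, ∀ u ∈ U, ((ν g).map j).mulVec u ∈ U)

/-- The representation on the lattice `latticeIn j U` given by matrices preserving `U`. -/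
noncomputable def ad_latRep : G →* Module.End B (latticeIn j U) where
  toFun g := (Matrix.toLin' (ν g)).restrict (p := latticeIn j U) (q := latticeIn j U)
    (fun v hv => by
      rw [Matrix.toLin'_apply]
      exact mulVec_mem_latticeIn j U (ν g) (hν g) hv)
  map_one' := by
    refine LinearMap.ext fun v => Subtype.ext ?_
    change (Matrix.toLin' (ν 1)) (v : Fin r → B) = (v : Fin r → B)
    rw [map_one, Matrix.toLin'_one]
    rfl
  map_mul' g h := by
    refine LinearMap.ext fun v => Subtype.ext ?_
    change (Matrix.toLin' (ν (g * h))) (v : Fin r → B)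
      = (Matrix.toLin' (ν g)) ((Matrix.toLin' (ν h)) (v : Fin r → B))
    rw [map_mul, Matrix.toLin'_mul]
    rfl

theorem ad_latRep_coe (g : G) (v : latticeIn j U) :
    ((ad_latRep j U ν hν g v : latticeIn j U) : Fin r → B) = (ν g).mulVec (v : Fin r → B) := by
  change ((Matrix.toLin' (ν g)) (v : Fin r → B)) = _
  rw [Matrix.toLin'_apply]

theorem ad_latRep_eq_one {g : G} (h : ν g = 1) : ad_latRep j U ν hν g = 1 := by
  refine LinearMap.ext fun v => Subtype.ext ?_
  rw [ad_latRep_coe, h, Matrix.one_mulVec, Module.End.one_apply]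

theorem ad_latRep_rel {g : G} (t e : B)
    (h : ν g * ν g - t • ν g + e • (1 : Matrix (Fin r) (Fin r) B) = 0) :
    ad_latRep j U ν hν g * ad_latRep j U ν hν g - t • ad_latRep j U ν hν g
      + e • (1 : Module.End B (latticeIn j U)) = 0 := by
  refine LinearMap.ext fun v => Subtype.ext ?_
  have h2 := congrArg (fun M : Matrix (Fin r) (Fin r) B => M.mulVec (v : Fin r → B)) h
  simp only [Matrix.add_mulVec, Matrix.sub_mulVec, Matrix.smul_mulVec, Matrix.one_mulVec,
    Matrix.zero_mulVec, ← Matrix.mulVec_mulVec] at h2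
  simp only [LinearMap.add_apply, LinearMap.sub_apply, LinearMap.smul_apply, Module.End.mul_apply,
    Module.End.one_apply, LinearMap.zero_apply, Submodule.coe_add, Submodule.coe_sub,
    Submodule.coe_smul, Submodule.coe_zero, ad_latRep_coe]
  exact h2

theorem ad_latRep_sub_eq_smul (hj : Function.Injective j) {c : B} (hc : c ≠ 0)
    (a : Matrix (Fin r) (Fin r) B) {g : G} (hg : ν g - 1 = c • a) (v : latticeIn j U) :
    ∃ w : latticeIn j U, ad_latRep j U ν hν g v - v = c • w := by
  have h1 : c • a.mulVec (v : Fin r → B) = (ν g).mulVec (v : Fin r → B) - (v : Fin r → B) := by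
    rw [← Matrix.smul_mulVec, ← hg, Matrix.sub_mulVec, Matrix.one_mulVec]
  have h2 : c • a.mulVec (v : Fin r → B) ∈ latticeIn j U := by
    rw [h1, ← ad_latRep_coe j U ν hν g v]
    exact (latticeIn j U).sub_mem (Subtype.mem _) (Subtype.mem _)
  refine ⟨⟨a.mulVec (v : Fin r → B), latticeIn_saturated j U hj hc h2⟩, Subtype.ext ?_⟩
  rw [Submodule.coe_sub, ad_latRep_coe, Submodule.coe_smul, ← h1]

end LatRep

section Core

/-- A local homomorphism maps the powers of the maximal ideal into the powers of the maximal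
ideal. -/
theorem ad_algebraMap_mem_pow {A B : Type*} [CommRing A] [CommRing B] [IsLocalRing A]
    [IsLocalRing B] [Algebra A B] [IsLocalHom (algebraMap A B)] {x : A} {n : ℕ}
    (hx : x ∈ maximalIdeal A ^ n) : algebraMap A B x ∈ maximalIdeal B ^ n := by
  have h1 : Ideal.map (algebraMap A B) (maximalIdeal A) ≤ maximalIdeal B := by
    rw [Ideal.map_le_iff_le_comap]
    intro y hy
    rw [Ideal.mem_comap, mem_maximalIdeal, mem_nonunits_iff]
    intro hu
    exact (mem_nonunits_iff.1 ((mem_maximalIdeal y).1 hy))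
      (isUnit_of_map_unit (algebraMap A B) y hu)
  have h2 : algebraMap A B x ∈ Ideal.map (algebraMap A B) (maximalIdeal A ^ n) :=
    Ideal.mem_map_of_mem _ hx
  rw [Ideal.map_pow] at h2
  exact Ideal.pow_right_mono h1 n h2

/-- The abstract core of the descent: the lattice of integral vectors in a stable subspace of
dimension `1` or `2` carries (after a twist in dimension `1`) a representation of rank `2`. -/
theorem ad_core (A : Type) [CommRing A] [IsDomain A] [IsDiscreteValuationRing A]
    (B : Type) [CommRing B] [IsDomain B] [IsDiscreteValuationRing B] [Algebra A B]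
    [IsLocalHom (algebraMap A B)] (hAB : Function.Injective (algebraMap A B))
    (Ω : Type) [Field Ω] (j : B →+* Ω) (hj : Function.Injective j)
    {G : Type} [Group G] {r : ℕ} (μ : G →* Matrix (Fin r) (Fin r) A) (ε : G →* Aˣ)
    (U : Submodule Ω (Fin r → Ω))
    (hstab : ∀ g, ∀ u ∈ U, ((μ g).map (fun a => j (algebraMap A B a))).mulVec u ∈ U)
    (hspan : U ≤ Submodule.span Ω
      ((fun v : Fin r → B => fun i => j (v i)) '' (latticeIn j U : Set (Fin r → B))))
    (hd : Module.finrank Ω U = 1 ∨ (Module.finrank Ω U = 2 ∧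
        ∀ (g : G) (t : A) (F : Module.End Ω U),
          μ g * μ g - t • μ g + ((ε g : Aˣ) : A) • (1 : Matrix (Fin r) (Fin r) A) = 0 →
          (∀ u : U, ((F u : U) : Fin r → Ω) =
            ((μ g).map (fun a => j (algebraMap A B a))).mulVec (u : Fin r → Ω)) →
          LinearMap.charpoly F =
            X ^ 2 - C (j (algebraMap A B t)) * X + C (j (algebraMap A B ((ε g : Aˣ) : A))))) :
    ∃ (V : Type) (_ : AddCommGroup V) (_ : Module B V) (_ : Module.Free B V)
      (_ : Module.Finite B V) (ρ' : G →* Module.End B V),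
      Module.finrank B V = 2 ∧
      (∀ (g : G) (t : A),
        μ g * μ g - t • μ g + ((ε g : Aˣ) : A) • (1 : Matrix (Fin r) (Fin r) A) = 0 →
        LinearMap.charpoly (ρ' g) =
          X ^ 2 - C (algebraMap A B t) * X + C (algebraMap A B ((ε g : Aˣ) : A))) ∧
      (∀ (g : G) (n : ℕ), (∀ i k, (μ g - 1) i k ∈ maximalIdeal A ^ n) →
        ((ε g : Aˣ) : A) - 1 ∈ maximalIdeal A ^ n →
        ∀ v : V, ρ' g v - v ∈ (maximalIdeal B ^ n) • (⊤ : Submodule B V)) ∧
      (∀ g : G, μ g = 1 → ε g = 1 → ρ' g = 1) := by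
  classical
  -- the matrices over `B`
  let ν : G →* Matrix (Fin r) (Fin r) B := (RingHom.mapMatrix (algebraMap A B)).toMonoidHom.comp μ
  have hνapp : ∀ g, ν g = (μ g).map (algebraMap A B) := fun g => rfl
  have hmm : ∀ g, (ν g).map j = (μ g).map (fun a => j (algebraMap A B a)) := by
    intro g
    rw [hνapp, Matrix.map_map]
    rfl
  have hν : ∀ g, ∀ u ∈ U, ((ν g).map j).mulVec u ∈ U := by
    intro g u hu
    rw [hmm]
    exact hstab g u hu
  have hfree : Module.Free B (latticeIn j U) := latticeIn_free j U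
  have hfin : Module.Finite B (latticeIn j U) := latticeIn_finite j U
  have hrank : Module.finrank B (latticeIn j U) = Module.finrank Ω U :=
    finrank_latticeIn j U hj hspan
  -- the quadratic relations on the lattice
  have hrelΛ : ∀ (g : G) (t : A),
      μ g * μ g - t • μ g + ((ε g : Aˣ) : A) • (1 : Matrix (Fin r) (Fin r) A) = 0 →
      ad_latRep j U ν hν g * ad_latRep j U ν hν g - algebraMap A B t • ad_latRep j U ν hν g
        + algebraMap A B ((ε g : Aˣ) : A) • (1 : Module.End B (latticeIn j U)) = 0 := by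
    intro g t hrel
    exact ad_latRep_rel j U ν hν _ _ (ad_map_rel (algebraMap A B) (μ g) t _ hrel)
  -- continuity on the lattice
  have hcontΛ : ∀ (g : G) (n : ℕ), (∀ i k, (μ g - 1) i k ∈ maximalIdeal A ^ n) →
      ∀ v : latticeIn j U, ad_latRep j U ν hν g v - v
        ∈ (maximalIdeal B ^ n) • (⊤ : Submodule B (latticeIn j U)) := by
    intro g n hμ v
    obtain ⟨π, hπ⟩ := IsDiscreteValuationRing.exists_irreducible A
    have hmax : maximalIdeal A ^ n = Ideal.span {π ^ n} := by
      rw [hπ.maximalIdeal_eq, Ideal.span_singleton_pow]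
    have hdvd : ∀ i k, π ^ n ∣ (μ g - 1) i k := by
      intro i k
      have := hμ i k
      rw [hmax, Ideal.mem_span_singleton] at this
      exact this
    choose a₀ ha₀ using hdvd
    have hg : ν g - 1 = algebraMap A B (π ^ n) • (Matrix.of a₀).map (algebraMap A B) := by
      have h1 : ν g - 1 = (μ g - 1).map (algebraMap A B) := by
        rw [hνapp, Matrix.map_sub (algebraMap A B) (map_sub (algebraMap A B)),
          Matrix.map_one (algebraMap A B) (map_zero _) (map_one _)]
      rw [h1]
      ext i k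
      rw [Matrix.map_apply, ha₀ i k, map_mul, Matrix.smul_apply, Matrix.map_apply, Matrix.of_apply,
        smul_eq_mul]
    have hπmem : π ^ n ∈ maximalIdeal A ^ n := by
      rw [hmax]
      exact Ideal.mem_span_singleton_self _
    have hc0 : algebraMap A B (π ^ n) ≠ 0 := by
      rw [Ne, map_eq_zero_iff _ hAB]
      exact pow_ne_zero n hπ.ne_zero
    obtain ⟨w, hw⟩ := ad_latRep_sub_eq_smul j U ν hν hj hc0 _ hg v
    rw [hw]
    exact Submodule.smul_mem_smul (ad_algebraMap_mem_pow hπmem) Submodule.mem_top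
  have honeΛ : ∀ g : G, μ g = 1 → ad_latRep j U ν hν g = 1 := by
    intro g hg
    apply ad_latRep_eq_one
    rw [hνapp, hg, Matrix.map_one (algebraMap A B) (map_zero _) (map_one _)]
  rcases hd with h1 | ⟨h2, hch⟩
  · -- rank one: twist
    let e : G →* B := (algebraMap A B : A →* B).comp ((Units.coeHom A).comp ε)
    have he : ∀ g, e g = algebraMap A B ((ε g : Aˣ) : A) := fun g => rfl
    obtain ⟨V, i1, i2, i3, i4, ρ', hfr, hcp, hct, hon⟩ :=
      ad1_exists_twist (hrank.trans h1) (ad_latRep j U ν hν) e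
    refine ⟨V, i1, i2, i3, i4, ρ', hfr, ?_, ?_, ?_⟩
    · intro g t hrel
      exact hcp g (algebraMap A B t) (hrelΛ g t hrel)
    · intro g n hμ hε
      refine hct g (maximalIdeal B ^ n) (hcontΛ g n hμ) ?_
      have := ad_algebraMap_mem_pow (B := B) hε
      rw [map_sub, map_one] at this
      exact this
    · intro g hμ hε
      refine hon g (honeΛ g hμ) ?_
      rw [he, hε, Units.val_one, map_one]
  · -- rank two
    refine ⟨latticeIn j U, inferInstance, inferInstance, hfree, hfin, ad_latRep j U ν hν,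
      hrank.trans h2, ?_, ?_, ?_⟩
    · intro g t hrel
      let F : Module.End Ω U :=
        (Matrix.toLin' ((μ g).map (fun a => j (algebraMap A B a)))).restrict (p := U) (q := U)
          (fun u hu => by
            rw [Matrix.toLin'_apply]
            exact hstab g u hu)
      have hF : ∀ u : U, ((F u : U) : Fin r → Ω) =
          ((μ g).map (fun a => j (algebraMap A B a))).mulVec (u : Fin r → Ω) := by
        intro u
        change (Matrix.toLin' ((μ g).map (fun a => j (algebraMap A B a)))) (u : Fin r → Ω) = _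
        rw [Matrix.toLin'_apply]
      have h3 := charpoly_latticeIn j U hj hspan (ν g) (ad_latRep j U ν hν g)
        (fun v => ad_latRep_coe j U ν hν g v) F (by
          intro u
          rw [hmm]
          exact hF u)
      have h4 := hch g t F hrel hF
      apply Polynomial.map_injective j hj
      rw [h3, h4]
      simp only [Polynomial.map_add, Polynomial.map_sub, Polynomial.map_mul, Polynomial.map_pow,
        Polynomial.map_X, Polynomial.map_C]
    · intro g n hμ _
      exact hcontΛ g n hμ
    · intro g hμ _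
      exact honeΛ g hμ

end Core

section Span

/-- If `U` is spanned by vectors whose coordinates are fractions of elements of `B`, then `U`
is spanned by the lattice of `B`-integral vectors of `U`. -/
theorem ad_le_span {B Ω : Type} [CommRing B] [Field Ω] (j : B →+* Ω) {r : ℕ}
    (U : Submodule Ω (Fin r → Ω)) (T : Set (Fin r → Ω)) (hTU : ∀ u ∈ T, u ∈ U)
    (hT : U ≤ Submodule.span Ω T)
    (hfrac : ∀ u ∈ T, ∀ i, ∃ b c : B, j c ≠ 0 ∧ u i * j c = j b) :
    U ≤ Submodule.span Ω
      ((fun v : Fin r → B => fun i => j (v i)) '' (latticeIn j U : Set (Fin r → B))) := by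
  classical
  refine hT.trans (Submodule.span_le.2 ?_)
  intro u hu
  choose b c hc hbc using hfrac u hu
  have hd : j (∏ i, c i) ≠ 0 := by
    rw [map_prod]
    exact Finset.prod_ne_zero_iff.2 (fun i _ => hc i)
  have hv : (fun i => j (b i * ∏ k ∈ Finset.univ.erase i, c k)) = j (∏ i, c i) • u := by
    funext i
    rw [Pi.smul_apply, smul_eq_mul, map_mul, ← hbc i,
      ← Finset.mul_prod_erase Finset.univ c (Finset.mem_univ i), map_mul]
    ring
  have hvΛ : (fun i => b i * ∏ k ∈ Finset.univ.erase i, c k) ∈ latticeIn j U := by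
    rw [mem_latticeIn, hv]
    exact U.smul_mem _ (hTU u hu)
  have hu2 : u = (j (∏ i, c i))⁻¹ • (fun i => j (b i * ∏ k ∈ Finset.univ.erase i, c k)) := by
    rw [hv, smul_smul, inv_mul_cancel₀ hd, one_smul]
  rw [SetLike.mem_coe, hu2]
  exact Submodule.smul_mem _ _ (Submodule.subset_span ⟨_, hvΛ, rfl⟩)

end Span

section Concrete

variable (A : Type) [CommRing A] [IsDomain A]

local notation "K'" => FractionRing A
local notation "Ω" => AlgebraicClosure (FractionRing A)

/-- The inclusion of the integral closure of `A` in an intermediate field into the algebraic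
closure. -/
noncomputable def ad_incl (K'' : IntermediateField K' Ω) : integralClosure A K'' →+* Ω :=
  (algebraMap K'' Ω).comp (algebraMap (integralClosure A K'') K'')

theorem ad_incl_injective (K'' : IntermediateField K' Ω) :
    Function.Injective (ad_incl A K'') := by
  intro x y h
  exact Subtype.ext (Subtype.ext h)

theorem ad_incl_algebraMap (K'' : IntermediateField K' Ω) (a : A) :
    ad_incl A K'' (algebraMap A (integralClosure A K'') a) = algebraMap A Ω a := rfl

theorem ad_algebraMap_injective : Function.Injective (algebraMap A Ω) := by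
  rw [IsScalarTower.algebraMap_eq A K' Ω]
  exact (algebraMap K' Ω).injective.comp (IsFractionRing.injective A K')

/-- The matrix form of the descent theorem. -/
theorem ad_matrix_main [IsDiscreteValuationRing A]
    [IsAdicComplete (maximalIdeal A) A] [Finite (ResidueField A)] [CharZero A]
    {G : Type} [Group G] {r : ℕ} [NeZero r] (μ : G →* Matrix (Fin r) (Fin r) A) (ε : G →* Aˣ)
    (hQ : ∀ g : G, ∃ t : A,
      μ g * μ g - t • μ g + ((ε g : Aˣ) : A) • (1 : Matrix (Fin r) (Fin r) A) = 0) :
    ∃ (B : Type) (_ : CommRing B) (_ : IsDomain B) (_ : IsDiscreteValuationRing B)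
      (_ : IsAdicComplete (maximalIdeal B) B) (_ : Finite (ResidueField B)) (_ : CharZero B)
      (_ : Algebra A B) (_ : Module.Finite A B) (_ : IsLocalHom (algebraMap A B))
      (V : Type) (_ : AddCommGroup V) (_ : Module B V) (_ : Module.Free B V)
      (_ : Module.Finite B V) (ρ' : G →* Module.End B V),
      Function.Injective (algebraMap A B) ∧ Module.finrank B V = 2 ∧
      (∀ (g : G) (t : A),
        μ g * μ g - t • μ g + ((ε g : Aˣ) : A) • (1 : Matrix (Fin r) (Fin r) A) = 0 →
        LinearMap.charpoly (ρ' g) =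
          X ^ 2 - C (algebraMap A B t) * X + C (algebraMap A B ((ε g : Aˣ) : A))) ∧
      (∀ (g : G) (n : ℕ), (∀ i k, (μ g - 1) i k ∈ maximalIdeal A ^ n) →
        ((ε g : Aˣ) : A) - 1 ∈ maximalIdeal A ^ n →
        ∀ v : V, ρ' g v - v ∈ (maximalIdeal B ^ n) • (⊤ : Submodule B V)) ∧
      (∀ g : G, μ g = 1 → ε g = 1 → ρ' g = 1) := by
  classical
  -- the representation over the algebraic closure
  let ρΩ : G →* Module.End Ω (Fin r → Ω) :=
    (Matrix.toLinAlgEquiv' : Matrix (Fin r) (Fin r) Ω ≃ₐ[Ω] _).toAlgHom.toRingHom.toMonoidHom.comp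
      ((RingHom.mapMatrix (algebraMap A Ω)).toMonoidHom.comp μ)
  have hρΩ : ∀ g, ρΩ g = Matrix.toLin' ((μ g).map (algebraMap A Ω)) := fun g => rfl
  let εΩ : G →* Ωˣ := (Units.map (algebraMap A Ω : A →* Ω)).comp ε
  have hεΩ : ∀ g, ((εΩ g : Ωˣ) : Ω) = algebraMap A Ω ((ε g : Aˣ) : A) := fun g => rfl
  have hrelΩ : ∀ (g : G) (t : A),
      μ g * μ g - t • μ g + ((ε g : Aˣ) : A) • (1 : Matrix (Fin r) (Fin r) A) = 0 →
      ρΩ g * ρΩ g - algebraMap A Ω t • ρΩ g
        + ((εΩ g : Ωˣ) : Ω) • (1 : Module.End Ω (Fin r → Ω)) = 0 := by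
    intro g t ht
    rw [hρΩ, hεΩ]
    exact ad_toLin_rel _ _ _ (ad_map_rel (algebraMap A Ω) (μ g) t _ ht)
  have hQΩ : ∀ g : G, ∃ t : Ω, ρΩ g * ρΩ g - t • ρΩ g
      + ((εΩ g : Ωˣ) : Ω) • (1 : Module.End Ω (Fin r → Ω)) = 0 := by
    intro g
    obtain ⟨t, ht⟩ := hQ g
    exact ⟨algebraMap A Ω t, hrelΩ g t ht⟩
  have hne : Nonempty (Fin r) := ⟨⟨0, Nat.pos_of_ne_zero (NeZero.ne r)⟩⟩
  have hnt : Nontrivial (Fin r → Ω) := Function.nontrivial
  obtain ⟨U, hUstab, hUd⟩ := exists_stable_subspace ρΩ εΩ hQΩ
  -- the finite extension generated by the coordinates of a basis of `U`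
  let bU := Module.finBasis Ω U
  let S : Set Ω := Set.range
    (fun p : Fin (Module.finrank Ω U) × Fin r => ((bU p.1 : U) : Fin r → Ω) p.2)
  have hSfin : Finite S := (Set.finite_range _).to_subtype
  let K'' : IntermediateField K' Ω := IntermediateField.adjoin K' S
  have hK''fd : FiniteDimensional K' K'' :=
    IntermediateField.finiteDimensional_adjoin (fun x _ => Algebra.IsIntegral.isIntegral x)
  have hcoord : ∀ (s : Fin (Module.finrank Ω U)) (i : Fin r),
      ((bU s : U) : Fin r → Ω) i ∈ K'' := fun s i =>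
    IntermediateField.subset_adjoin K' S ⟨(s, i), rfl⟩
  obtain ⟨hDVR, hcomp, hres, hmodfin, hloc, hfrac, hinj⟩ := exists_dvr_package A K''
  have hchar : CharZero (integralClosure A K'') := charZero_of_injective_algebraMap hinj
  have hj : Function.Injective (ad_incl A K'') := ad_incl_injective A K''
  have hfun : (fun a => ad_incl A K'' (algebraMap A (integralClosure A K'') a))
      = ⇑(algebraMap A Ω) := rfl
  -- the lattice spans
  have hspan : U ≤ Submodule.span Ω
      ((fun v : Fin r → integralClosure A K'' => fun i => ad_incl A K'' (v i)) ''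
        (latticeIn (ad_incl A K'') U : Set (Fin r → integralClosure A K''))) := by
    refine ad_le_span (ad_incl A K'') U (Set.range fun s => ((bU s : U) : Fin r → Ω)) ?_ ?_ ?_
    · rintro _ ⟨s, rfl⟩
      exact (bU s).2
    · intro u hu
      have h1 : (⟨u, hu⟩ : U) ∈ Submodule.span Ω (Set.range bU) := by
        rw [bU.span_eq]
        exact Submodule.mem_top
      have h2 := Submodule.apply_mem_span_image_of_mem_span U.subtype h1
      rw [← Set.range_comp] at h2
      exact h2
    · rintro _ ⟨s, rfl⟩ i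
      obtain ⟨⟨b, c⟩, hbc⟩ := IsLocalization.surj (nonZeroDivisors (integralClosure A K''))
        (⟨((bU s : U) : Fin r → Ω) i, hcoord s i⟩ : K'')
      refine ⟨b, c, ?_, ?_⟩
      · exact (map_ne_zero_iff _ hj).2 (nonZeroDivisors.coe_ne_zero c)
      · exact congrArg (fun x : K'' => (x : Ω)) hbc
  -- stability and the rank-two clause, in the form needed by `ad_core`
  have hstab : ∀ g, ∀ u ∈ U, ((μ g).map
      (fun a => ad_incl A K'' (algebraMap A (integralClosure A K'') a))).mulVec u ∈ U := by
    intro g u hu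
    have h1 := hUstab g u hu
    rw [hρΩ, Matrix.toLin'_apply] at h1
    rw [hfun]
    exact h1
  have hd : Module.finrank Ω U = 1 ∨ (Module.finrank Ω U = 2 ∧
      ∀ (g : G) (t : A) (F : Module.End Ω U),
        μ g * μ g - t • μ g + ((ε g : Aˣ) : A) • (1 : Matrix (Fin r) (Fin r) A) = 0 →
        (∀ u : U, ((F u : U) : Fin r → Ω) =
          ((μ g).map (fun a => ad_incl A K'' (algebraMap A (integralClosure A K'') a))).mulVec
            (u : Fin r → Ω)) →
        LinearMap.charpoly F =
          X ^ 2 - C (ad_incl A K'' (algebraMap A (integralClosure A K'') t)) * X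
            + C (ad_incl A K'' (algebraMap A (integralClosure A K'') ((ε g : Aˣ) : A)))) := by
    rcases hUd with h1 | ⟨h2, hch⟩
    · exact Or.inl h1
    · refine Or.inr ⟨h2, ?_⟩
      intro g t F hrel hF
      rw [ad_incl_algebraMap, ad_incl_algebraMap, ← hεΩ]
      refine hch g (algebraMap A Ω t) F (hrelΩ g t hrel) ?_
      intro u
      rw [hF u, hfun, hρΩ, Matrix.toLin'_apply]
  obtain ⟨V, i1, i2, i3, i4, ρ', h1, h2, h3, h4⟩ :=
    ad_core A (integralClosure A K'') hinj Ω (ad_incl A K'') hj μ ε U hstab hspan hd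
  exact ⟨integralClosure A K'', inferInstance, inferInstance, hDVR, hcomp, hres, hchar,
    inferInstance, hmodfin, hloc, V, i1, i2, i3, i4, ρ', hinj, h1, h2, h3, h4⟩

end Concrete

/-- **Descent to a lattice.** A representation `ρ` of `G` on a nonzero finite free module over
the complete discrete valuation ring `𝒪'`, each `ρ g` satisfying a quadratic relation
`ρ g ^ 2 - t • ρ g + ε g = 0`, yields a representation of rank `2` over a finite extension
`𝒪''` of `𝒪'` (a complete discrete valuation ring with finite residue field), with characteristic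
polynomials `X ^ 2 - t X + ε g`, and which is trivial modulo `𝔪'' ^ n` (resp. trivial) wherever
`ρ` and `ε` are trivial modulo `𝔪' ^ n` (resp. trivial). -/
theorem exists_lattice_rep
    (𝒪' : Type) [CommRing 𝒪'] [IsDomain 𝒪'] [IsDiscreteValuationRing 𝒪']
    [IsAdicComplete (maximalIdeal 𝒪') 𝒪'] [Finite (ResidueField 𝒪')] [CharZero 𝒪']
    {G : Type} [Group G] {Y : Type} [AddCommGroup Y] [Module 𝒪' Y] [Module.Finite 𝒪' Y]
    [Module.Free 𝒪' Y] [Nontrivial Y]
    (ρ : G →* Module.End 𝒪' Y) (ε : G →* 𝒪'ˣ)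
    (hQ : ∀ g : G, ∃ t : 𝒪',
      ρ g * ρ g - t • ρ g + ((ε g : 𝒪'ˣ) : 𝒪') • (1 : Module.End 𝒪' Y) = 0) :
    ∃ (𝒪'' : Type) (_ : CommRing 𝒪'') (_ : IsDomain 𝒪'') (_ : IsDiscreteValuationRing 𝒪'')
      (_ : IsAdicComplete (maximalIdeal 𝒪'') 𝒪'')
      (_ : Finite (ResidueField 𝒪'')) (_ : CharZero 𝒪'')
      (_ : Algebra 𝒪' 𝒪'') (_ : Module.Finite 𝒪' 𝒪'') (_ : IsLocalHom (algebraMap 𝒪' 𝒪''))
      (V : Type) (_ : AddCommGroup V) (_ : Module 𝒪'' V) (_ : Module.Free 𝒪'' V)
      (_ : Module.Finite 𝒪'' V) (ρ' : G →* Module.End 𝒪'' V),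
      Function.Injective (algebraMap 𝒪' 𝒪'') ∧ Module.finrank 𝒪'' V = 2 ∧
      (∀ (g : G) (t : 𝒪'),
        ρ g * ρ g - t • ρ g + ((ε g : 𝒪'ˣ) : 𝒪') • (1 : Module.End 𝒪' Y) = 0 →
        LinearMap.charpoly (ρ' g) =
          X ^ 2 - C (algebraMap 𝒪' 𝒪'' t) * X + C (algebraMap 𝒪' 𝒪'' ((ε g : 𝒪'ˣ) : 𝒪'))) ∧
      (∀ (g : G) (n : ℕ),
        (∀ y : Y, ρ g y - y ∈ (maximalIdeal 𝒪' ^ n) • (⊤ : Submodule 𝒪' Y)) →
        ((ε g : 𝒪'ˣ) : 𝒪') - 1 ∈ maximalIdeal 𝒪' ^ n →
        ∀ v : V, ρ' g v - v ∈ (maximalIdeal 𝒪'' ^ n) • (⊤ : Submodule 𝒪'' V)) ∧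
      (∀ g : G, ρ g = 1 → ε g = 1 → ρ' g = 1) := by
  classical
  have hr : NeZero (Module.finrank 𝒪' Y) := ⟨(Module.finrank_pos (R := 𝒪') (M := Y)).ne'⟩
  obtain ⟨B, i1, i2, i3, i4, i5, i6, i7, i8, i9, V, i10, i11, i12, i13, ρ', h0, h1, h2, h3, h4⟩ :=
    ad_matrix_main 𝒪' (ad_matHom (Module.finBasis 𝒪' Y) ρ) ε (fun g => by
      obtain ⟨t, ht⟩ := hQ g
      exact ⟨t, ad_toMatrix_rel (Module.finBasis 𝒪' Y) (ρ g) t _ ht⟩)
  refine ⟨B, i1, i2, i3, i4, i5, i6, i7, i8, i9, V, i10, i11, i12, i13, ρ', h0, h1, ?_, ?_, ?_⟩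
  · intro g t hrel
    exact h2 g t (ad_toMatrix_rel (Module.finBasis 𝒪' Y) (ρ g) t _ hrel)
  · intro g n hy hε
    exact h3 g n (ad_matHom_sub_one_mem (Module.finBasis 𝒪' Y) ρ g _ hy) hε
  · intro g hg hε
    exact h4 g (by rw [ad_matHom_apply, hg, LinearMap.toMatrix_one]) hε

end Fermat.Agent.S30
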