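import Mathlib
import Fermat.Prelude.Def_FLTPrelim_Ramification
import Fermat.Prelude.Def_EllipticCurve_FrobeniusTrace
import Fermat.Agent.S54.Frobenius
import Fermat.Agent.S37.FrobBasic
import Fermat.Agent.S42.Cyclo

set_option autoImplicit false

/-!
# P15 (S30), part (B′), module D2: the `p`-adic cyclotomic character of `Gal(ℚ̄/ℚ)`

* `cycloPadic p : (ℚ̄ ≃ₐ[ℚ] ℚ̄) →* ℤ_[p]ˣ`, Mathlib's `cyclotomicCharacter` of `ℚ̄`, characterised
  by `cya_apply`: `σ t = t ^ (toZModPow n (cycloPadic p σ)).val` for every `t` with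
  `t ^ p ^ n = 1`;
* `cycloPadic_frobenius`: a Frobenius element at a prime `ℓ ≠ p` is sent to `ℓ`;
* `cycloPadic_inertia`: the inertia groups at the primes `ℓ ≠ p` are in the kernel;
* `exists_finiteLevel_cycloPadic`: modulo `p ^ n` the character factors through a finite level.

Auxiliary declarations carry the prefix `cya_`. Among them:

* `cya_valuation_one_sub`, `cya_eq_of_sub_mem_nonunits`: reduction modulo a valuation subring of
  residue characteristic `ℓ` is injective on the `m`-th roots of unity when `ℓ ∤ m` (any field);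
* `cya_frobenius_apply`, `cya_inertia_apply`: `σ t = t ^ ℓ`, resp. `τ t = t`, for `t ^ p ^ n = 1`;
* `cya_toZModPow_eq_natCast`: the character modulo `p ^ n` from the action on one primitive
  `p ^ n`-th root of unity;
* `cya_cycloPadic_frobenius_pow`, `cya_cycloPadic_sub_mem_of_eqOn`: powers of Frobenius elements;
  the character modulo `p ^ n` only depends on the restriction to a finite level;
* `cya_charTo p φ : (ℚ̄ ≃ₐ[ℚ] ℚ̄) →* Rˣ` for `φ : ℤ_[p] →+* R`, with `cya_charTo_frobenius`,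
  `cya_charTo_frobenius_pow`, `cya_charTo_inertia`, `cya_charTo_finiteLevel` (modulo `p ^ n`) and
  `cya_charTo_finiteLevel_of_mem` (modulo `I ^ n` for an ideal `I` containing `p`).
-/

namespace Fermat.Agent.S30

open Fermat.Agent.S42

local notation "Γℚ" => (AlgebraicClosure ℚ ≃ₐ[ℚ] AlgebraicClosure ℚ)

/-! ### Roots of unity modulo a valuation subring of residue characteristic prime to the order -/

section General

variable {Ω : Type*} [Field Ω]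

/-- If the prime `ℓ` is a non-unit of the valuation subring `A`, `ℓ ∤ m` and `ζ` is a primitive
`m`-th root of unity with `2 ≤ m`, then `1 - ζ` is a unit of `A`. -/
theorem cya_valuation_one_sub (A : ValuationSubring Ω) {ℓ m : ℕ} (hℓ : ℓ.Prime) (hm : 2 ≤ m)
    (hℓm : ¬ ℓ ∣ m) (hA : (ℓ : Ω) ∈ A.nonunits) {ζ : Ω} (hζ : IsPrimitiveRoot ζ m) :
    A.valuation (1 - ζ) = 1 := by
  have hζA : ζ ∈ A := cy_mem_of_pow_eq_one A (lt_of_lt_of_le Nat.zero_lt_two hm) hζ.pow_eq_one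
  have hmem : ∀ k : ℕ, 1 - ζ ^ k ∈ A := fun k => A.sub_mem A.one_mem (A.pow_mem hζA k)
  have hle : A.valuation (1 - ζ) ≤ 1 := by
    have h := hmem 1
    rw [pow_one] at h
    exact (A.valuation_le_one_iff _).mpr h
  refine le_antisymm hle (not_lt.mp fun hlt => hℓm ?_)
  obtain ⟨m', rfl⟩ : ∃ m', m = m' + 1 + 1 := ⟨m - 2, by omega⟩
  have hprod := hζ.prod_one_sub_pow_eq_order
  rw [Finset.prod_range_succ'] at hprod
  have h1 : (∏ k ∈ Finset.range m', (1 - ζ ^ (k + 1 + 1))) ∈ A :=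
    Subring.prod_mem A.toSubring fun k _ => hmem _
  have h2 : A.valuation (((m' + 1 + 1 : ℕ) : ℤ) : Ω) < 1 := by
    have h3 : (((m' + 1 + 1 : ℕ) : ℤ) : Ω) =
        (∏ k ∈ Finset.range m', (1 - ζ ^ (k + 1 + 1))) * (1 - ζ ^ (0 + 1)) := by
      rw [hprod]; push_cast; ring
    rw [h3, map_mul, zero_add, pow_one]
    exact lt_of_le_of_lt (mul_le_of_le_one_left' ((A.valuation_le_one_iff _).mpr h1)) hlt
  have h4 : (ℓ : ℤ) ∣ ((m' + 1 + 1 : ℕ) : ℤ) :=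
    Fermat.Agent.S54.dvd_of_valuation_intCast_lt_one A hℓ hA _ h2
  exact Int.natCast_dvd_natCast.mp h4

/-- Reduction modulo the maximal ideal of a valuation subring of residue characteristic `ℓ` is
injective on the `m`-th roots of unity when `ℓ ∤ m`. -/
theorem cya_eq_of_sub_mem_nonunits (A : ValuationSubring Ω) {ℓ m : ℕ} (hℓ : ℓ.Prime)
    (hm : 0 < m) (hℓm : ¬ ℓ ∣ m) (hA : (ℓ : Ω) ∈ A.nonunits) {x y : Ω} (hx : x ^ m = 1)
    (hy : y ^ m = 1) (hxy : x - y ∈ A.nonunits) : x = y := by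
  classical
  by_contra hne
  have hx0 : x ≠ 0 := by
    rintro rfl
    rw [zero_pow hm.ne'] at hx
    exact zero_ne_one hx
  have hz : (y * x⁻¹) ^ m = 1 := by rw [mul_pow, inv_pow, hx, hy, inv_one, mul_one]
  have hz1 : y * x⁻¹ ≠ 1 := by
    intro h
    apply hne
    field_simp at h
    exact h.symm
  have hd : orderOf (y * x⁻¹) ∣ m := orderOf_dvd_of_pow_eq_one hz
  have hd0 : orderOf (y * x⁻¹) ≠ 0 := fun h0 => hm.ne' (Nat.eq_zero_of_zero_dvd (h0 ▸ hd))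
  have hd1 : orderOf (y * x⁻¹) ≠ 1 := fun h1 => hz1 (orderOf_eq_one_iff.mp h1)
  have hd2 : 2 ≤ orderOf (y * x⁻¹) := by omega
  have hprim : IsPrimitiveRoot (y * x⁻¹) (orderOf (y * x⁻¹)) := IsPrimitiveRoot.orderOf _
  have h1 := cya_valuation_one_sub A hℓ hd2 (fun h => hℓm (h.trans hd)) hA hprim
  have hxinv : x⁻¹ ∈ A :=
    cy_mem_of_pow_eq_one A hm (by rw [inv_pow, hx, inv_one])
  have h2 : 1 - y * x⁻¹ = x⁻¹ * (x - y) := by field_simp
  rw [h2, map_mul] at h1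
  have h3 : A.valuation x⁻¹ * A.valuation (x - y) < 1 :=
    lt_of_le_of_lt (mul_le_of_le_one_left' ((A.valuation_le_one_iff _).mpr hxinv))
      (A.mem_nonunits_iff.mp hxy)
  rw [h1] at h3
  exact lt_irrefl _ h3

end General

/-! ### The character -/

/-- The `p`-adic cyclotomic character of `Gal(ℚ̄/ℚ)`. -/
noncomputable def cycloPadic (p : ℕ) [Fact p.Prime] : Γℚ →* ℤ_[p]ˣ :=
  (cyclotomicCharacter (AlgebraicClosure ℚ) p).comp
    (MulSemiringAction.toRingAut Γℚ (AlgebraicClosure ℚ))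

/-- There is a primitive `p ^ n`-th root of unity in `ℚ̄`. -/
theorem cya_exists_primitiveRoot (p : ℕ) [Fact p.Prime] (n : ℕ) :
    ∃ ζ : AlgebraicClosure ℚ, IsPrimitiveRoot ζ (p ^ n) :=
  HasEnoughRootsOfUnity.exists_primitiveRoot (AlgebraicClosure ℚ) (p ^ n)

/-- The characterising property of the `p`-adic cyclotomic character. -/
theorem cya_apply (p : ℕ) [Fact p.Prime] (σ : Γℚ) {n : ℕ} {t : AlgebraicClosure ℚ}
    (ht : t ^ p ^ n = 1) :
    σ t = t ^ (PadicInt.toZModPow n ((cycloPadic p σ : ℤ_[p]ˣ) : ℤ_[p])).val :=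
  cyclotomicCharacter.spec p (MulSemiringAction.toRingAut Γℚ (AlgebraicClosure ℚ) σ) t ht

/-- If `σ ζ = ζ ^ m` for one primitive `p ^ n`-th root of unity `ζ`, then the cyclotomic character
of `σ` is congruent to `m` modulo `p ^ n`. -/
theorem cya_toZModPow_eq_natCast (p : ℕ) [Fact p.Prime] (σ : Γℚ) {n : ℕ}
    {ζ : AlgebraicClosure ℚ} (hζ : IsPrimitiveRoot ζ (p ^ n)) {m : ℕ} (h : σ ζ = ζ ^ m) :
    PadicInt.toZModPow n ((cycloPadic p σ : ℤ_[p]ˣ) : ℤ_[p]) = (m : ZMod (p ^ n)) := by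
  have hp : p.Prime := Fact.out
  have hpn : p ^ n ≠ 0 := pow_ne_zero _ hp.ne_zero
  rw [cya_apply p σ hζ.pow_eq_one, (hζ.isOfFinOrder hpn).pow_eq_pow_iff_modEq,
    ← hζ.eq_orderOf, ← ZMod.natCast_eq_natCast_iff, ZMod.natCast_zmod_val] at h
  exact h

/-! ### Frobenius elements and inertia groups -/

/-- A Frobenius element at a prime `ℓ ≠ p` raises every `p`-power root of unity to the power
`ℓ`. -/
theorem cya_frobenius_apply {p : ℕ} (hp : p.Prime) {ℓ : ℕ} (hℓ : ℓ.Prime) (hℓp : ℓ ≠ p)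
    {A : ValuationSubring (AlgebraicClosure ℚ)} (hA : A.LiesOverPrime ℓ)
    {σ : Γℚ} (hσ : A.IsFrobeniusAt σ ℓ) {n : ℕ} {t : AlgebraicClosure ℚ}
    (ht : t ^ p ^ n = 1) : σ t = t ^ ℓ := by
  have hpn : 0 < p ^ n := pow_pos hp.pos n
  have hℓpn : ¬ ℓ ∣ p ^ n := fun h =>
    hℓp ((Nat.prime_dvd_prime_iff_eq hℓ hp).mp (hℓ.dvd_of_dvd_pow h))
  refine cya_eq_of_sub_mem_nonunits A hℓ hpn hℓpn hA ?_ ?_
    (cy_frobenius_sub_mem_nonunits hσ (cy_mem_of_pow_eq_one A hpn ht))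
  · rw [← map_pow, ht, map_one]
  · rw [← pow_mul, mul_comm, pow_mul, ht, one_pow]

/-- An element of the inertia group at a prime `ℓ ≠ p` fixes every `p`-power root of unity. -/
theorem cya_inertia_apply {p : ℕ} (hp : p.Prime) {ℓ : ℕ} (hℓ : ℓ.Prime) (hℓp : ℓ ≠ p)
    {A : ValuationSubring (AlgebraicClosure ℚ)} (hA : A.LiesOverPrime ℓ)
    {τ : Γℚ} (hτ : τ ∈ A.inertiaSubgroupIn ℚ) {n : ℕ} {t : AlgebraicClosure ℚ}
    (ht : t ^ p ^ n = 1) : τ t = t := by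
  have hpn : 0 < p ^ n := pow_pos hp.pos n
  have hℓpn : ¬ ℓ ∣ p ^ n := fun h =>
    hℓp ((Nat.prime_dvd_prime_iff_eq hℓ hp).mp (hℓ.dvd_of_dvd_pow h))
  refine cya_eq_of_sub_mem_nonunits A hℓ hpn hℓpn hA ?_ ht
    (cy_inertia_sub_mem_nonunits hτ (cy_mem_of_pow_eq_one A hpn ht))
  rw [← map_pow, ht, map_one]

theorem cycloPadic_frobenius (p : ℕ) [Fact p.Prime] {ℓ : ℕ} (hℓ : ℓ.Prime) (hℓp : ℓ ≠ p)
    {A : ValuationSubring (AlgebraicClosure ℚ)} (hA : A.LiesOverPrime ℓ)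
    {σ : Γℚ} (hσ : A.IsFrobeniusAt σ ℓ) :
    ((cycloPadic p σ : ℤ_[p]ˣ) : ℤ_[p]) = (ℓ : ℤ_[p]) := by
  have hp : p.Prime := Fact.out
  refine PadicInt.ext_of_toZModPow.mp fun n => ?_
  obtain ⟨ζ, hζ⟩ := cya_exists_primitiveRoot p n
  rw [cya_toZModPow_eq_natCast p σ hζ (cya_frobenius_apply hp hℓ hℓp hA hσ hζ.pow_eq_one),
    map_natCast]

theorem cycloPadic_inertia (p : ℕ) [Fact p.Prime] {ℓ : ℕ} (hℓ : ℓ.Prime) (hℓp : ℓ ≠ p)
    {A : ValuationSubring (AlgebraicClosure ℚ)} (hA : A.LiesOverPrime ℓ)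
    {τ : Γℚ} (hτ : τ ∈ A.inertiaSubgroupIn ℚ) : cycloPadic p τ = 1 := by
  have hp : p.Prime := Fact.out
  apply Units.ext
  rw [Units.val_one]
  refine PadicInt.ext_of_toZModPow.mp fun n => ?_
  obtain ⟨ζ, hζ⟩ := cya_exists_primitiveRoot p n
  have h1 : τ ζ = ζ ^ 1 := by
    rw [pow_one]
    exact cya_inertia_apply hp hℓ hℓp hA hτ hζ.pow_eq_one
  rw [cya_toZModPow_eq_natCast p τ hζ h1, Nat.cast_one, map_one]

/-! ### Finite level -/

theorem exists_finiteLevel_cycloPadic (p : ℕ) [Fact p.Prime] (n : ℕ) :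
    ∃ L : IntermediateField ℚ (AlgebraicClosure ℚ), FiniteDimensional ℚ L ∧
      ∀ σ : Γℚ, (∀ y ∈ L, σ y = y) →
        ((cycloPadic p σ : ℤ_[p]ˣ) : ℤ_[p]) - 1 ∈ Ideal.span {(p : ℤ_[p]) ^ n} := by
  have hp : p.Prime := Fact.out
  obtain ⟨ζ, hζ⟩ := cya_exists_primitiveRoot p n
  refine ⟨IntermediateField.adjoin ℚ {ζ},
    IntermediateField.adjoin.finiteDimensional (hζ.isIntegral (pow_pos hp.pos n)).tower_top,
    fun σ hσ => ?_⟩
  have h1 : σ ζ = ζ ^ 1 := by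
    rw [pow_one]
    exact hσ ζ (IntermediateField.mem_adjoin_simple_self ℚ ζ)
  rw [← PadicInt.ker_toZModPow, RingHom.mem_ker, map_sub, map_one,
    cya_toZModPow_eq_natCast p σ hζ h1, Nat.cast_one, sub_self]

/-! ### Convenience forms (extras for the assembly) -/

/-- The cyclotomic character of a power of a Frobenius element at `ℓ ≠ p`. -/
theorem cya_cycloPadic_frobenius_pow (p : ℕ) [Fact p.Prime] {ℓ : ℕ} (hℓ : ℓ.Prime) (hℓp : ℓ ≠ p)
    {A : ValuationSubring (AlgebraicClosure ℚ)} (hA : A.LiesOverPrime ℓ)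
    {σ : Γℚ} (hσ : A.IsFrobeniusAt σ ℓ) (j : ℕ) :
    ((cycloPadic p (σ ^ j) : ℤ_[p]ˣ) : ℤ_[p]) = (ℓ : ℤ_[p]) ^ j := by
  rw [map_pow, Units.val_pow_eq_pow_val, cycloPadic_frobenius p hℓ hℓp hA hσ]

/-- Modulo `p ^ n`, the cyclotomic character only depends on the restriction to a finite
level. -/
theorem cya_cycloPadic_sub_mem_of_eqOn (p : ℕ) [Fact p.Prime] (n : ℕ) :
    ∃ L : IntermediateField ℚ (AlgebraicClosure ℚ), FiniteDimensional ℚ L ∧
      ∀ σ τ : Γℚ, (∀ y ∈ L, σ y = τ y) →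
        ((cycloPadic p σ : ℤ_[p]ˣ) : ℤ_[p]) - ((cycloPadic p τ : ℤ_[p]ˣ) : ℤ_[p]) ∈
          Ideal.span {(p : ℤ_[p]) ^ n} := by
  obtain ⟨L, hL, h⟩ := exists_finiteLevel_cycloPadic p n
  refine ⟨L, hL, fun σ τ hστ => ?_⟩
  have h1 : ((cycloPadic p (τ⁻¹ * σ) : ℤ_[p]ˣ) : ℤ_[p]) - 1 ∈ Ideal.span {(p : ℤ_[p]) ^ n} := by
    refine h _ fun y hy => ?_
    rw [AlgEquiv.mul_apply, hστ y hy]
    exact τ.symm_apply_apply y
  have h2 : ((cycloPadic p σ : ℤ_[p]ˣ) : ℤ_[p]) - ((cycloPadic p τ : ℤ_[p]ˣ) : ℤ_[p]) =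
      ((cycloPadic p τ : ℤ_[p]ˣ) : ℤ_[p]) * (((cycloPadic p (τ⁻¹ * σ) : ℤ_[p]ˣ) : ℤ_[p]) - 1) := by
    rw [map_mul, map_inv, Units.val_mul, mul_sub, mul_one, ← mul_assoc, Units.mul_inv, one_mul]
  rw [h2]
  exact Ideal.mul_mem_left _ _ h1

/-- The `p`-adic cyclotomic character pushed forward along a ring homomorphism `ℤ_[p] →+* R`. -/
noncomputable def cya_charTo (p : ℕ) [Fact p.Prime] {R : Type*} [Semiring R] (φ : ℤ_[p] →+* R) :
    Γℚ →* Rˣ :=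
  (Units.map (φ : ℤ_[p] →* R)).comp (cycloPadic p)

theorem cya_charTo_apply (p : ℕ) [Fact p.Prime] {R : Type*} [Semiring R] (φ : ℤ_[p] →+* R)
    (σ : Γℚ) : ((cya_charTo p φ σ : Rˣ) : R) = φ ((cycloPadic p σ : ℤ_[p]ˣ) : ℤ_[p]) :=
  rfl

theorem cya_charTo_frobenius (p : ℕ) [Fact p.Prime] {R : Type*} [Semiring R] (φ : ℤ_[p] →+* R)
    {ℓ : ℕ} (hℓ : ℓ.Prime) (hℓp : ℓ ≠ p) {A : ValuationSubring (AlgebraicClosure ℚ)}
    (hA : A.LiesOverPrime ℓ) {σ : Γℚ} (hσ : A.IsFrobeniusAt σ ℓ) :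
    ((cya_charTo p φ σ : Rˣ) : R) = (ℓ : R) := by
  rw [cya_charTo_apply, cycloPadic_frobenius p hℓ hℓp hA hσ, map_natCast]

theorem cya_charTo_frobenius_pow (p : ℕ) [Fact p.Prime] {R : Type*} [Semiring R]
    (φ : ℤ_[p] →+* R) {ℓ : ℕ} (hℓ : ℓ.Prime) (hℓp : ℓ ≠ p)
    {A : ValuationSubring (AlgebraicClosure ℚ)} (hA : A.LiesOverPrime ℓ) {σ : Γℚ}
    (hσ : A.IsFrobeniusAt σ ℓ) (j : ℕ) :
    ((cya_charTo p φ (σ ^ j) : Rˣ) : R) = (ℓ : R) ^ j := by
  rw [cya_charTo_apply, cya_cycloPadic_frobenius_pow p hℓ hℓp hA hσ, map_pow, map_natCast]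

theorem cya_charTo_inertia (p : ℕ) [Fact p.Prime] {R : Type*} [Semiring R] (φ : ℤ_[p] →+* R)
    {ℓ : ℕ} (hℓ : ℓ.Prime) (hℓp : ℓ ≠ p) {A : ValuationSubring (AlgebraicClosure ℚ)}
    (hA : A.LiesOverPrime ℓ) {τ : Γℚ} (hτ : τ ∈ A.inertiaSubgroupIn ℚ) :
    cya_charTo p φ τ = 1 := by
  rw [cya_charTo, MonoidHom.comp_apply, cycloPadic_inertia p hℓ hℓp hA hτ, map_one]

/-- Finite level of the pushed-forward character, modulo `p ^ n`. -/
theorem cya_charTo_finiteLevel (p : ℕ) [Fact p.Prime] {R : Type*} [CommRing R]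
    (φ : ℤ_[p] →+* R) (n : ℕ) :
    ∃ L : IntermediateField ℚ (AlgebraicClosure ℚ), FiniteDimensional ℚ L ∧
      ∀ σ : Γℚ, (∀ y ∈ L, σ y = y) →
        ((cya_charTo p φ σ : Rˣ) : R) - 1 ∈ Ideal.span {(p : R) ^ n} := by
  obtain ⟨L, hL, h⟩ := exists_finiteLevel_cycloPadic p n
  refine ⟨L, hL, fun σ hσ => ?_⟩
  obtain ⟨c, hc⟩ := Ideal.mem_span_singleton.mp (h σ hσ)
  rw [cya_charTo_apply, Ideal.mem_span_singleton]
  refine ⟨φ c, ?_⟩
  have h1 := congrArg φ hc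
  rw [map_sub, map_one, map_mul, map_pow, map_natCast] at h1
  exact h1

/-- Finite level of the pushed-forward character, modulo the `n`-th power of an ideal containing
`p` (for instance the maximal ideal of a local ring of residue characteristic `p`). -/
theorem cya_charTo_finiteLevel_of_mem (p : ℕ) [Fact p.Prime] {R : Type*} [CommRing R]
    (φ : ℤ_[p] →+* R) {I : Ideal R} (hI : (p : R) ∈ I) (n : ℕ) :
    ∃ L : IntermediateField ℚ (AlgebraicClosure ℚ), FiniteDimensional ℚ L ∧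
      ∀ σ : Γℚ, (∀ y ∈ L, σ y = y) → ((cya_charTo p φ σ : Rˣ) : R) - 1 ∈ I ^ n := by
  obtain ⟨L, hL, h⟩ := cya_charTo_finiteLevel p φ n
  refine ⟨L, hL, fun σ hσ => ?_⟩
  have h1 : Ideal.span {(p : R) ^ n} ≤ I ^ n := by
    rw [Ideal.span_singleton_le_iff_mem]
    exact Ideal.pow_mem_pow hI n
  exact h1 (h σ hσ)

end Fermat.Agent.S30
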