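import Mathlib

/-!
# The common eigen-submodule of a family of operators (P15, module E)

For a family `T : ℕ → Module.End R M` of operators, scalars `a : ℕ → R` and a predicate `P` on
indices, `eigenSub T a P` is the submodule of vectors `x` with `T ℓ x = a ℓ • x` for all `ℓ` with
`P ℓ`.  A monoid representation `ρ₀ : G →* Module.End R M` commuting with the `T ℓ` (`P ℓ`)
restricts to `eigenRep T a P ρ₀ hcomm : G →* Module.End R (eigenSub T a P)`.

We prove: saturation of `eigenSub` (torsion-free case), the formula for `eigenRep`, transfer of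
the relations `ρ₀ σ = 1` and `ρ₀ σ ^ 2 - T ℓ * ρ₀ σ + c = 0`, transfer of the congruences
`ρ₀ σ ≡ 1 mod 𝔪 ^ n` over a discrete valuation ring, and freeness / finiteness of `eigenSub` over
a principal ideal domain.
-/

set_option autoImplicit false

namespace Fermat.Agent.S30

open IsLocalRing

section EigenSub

variable {R M : Type*} [CommRing R] [AddCommGroup M] [Module R M]
  (T : ℕ → Module.End R M) (a : ℕ → R) (P : ℕ → Prop)

/-- The common eigen-submodule: vectors with `T ℓ x = a ℓ • x` for all `ℓ` with `P ℓ`. -/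
def eigenSub : Submodule R M := ⨅ (ℓ : ℕ) (_ : P ℓ), LinearMap.ker (T ℓ - a ℓ • (1 : Module.End R M))

theorem mem_eigenSub {x : M} : x ∈ eigenSub T a P ↔ ∀ ℓ, P ℓ → T ℓ x = a ℓ • x := by
  simp only [eigenSub, Submodule.mem_iInf, LinearMap.mem_ker, LinearMap.sub_apply,
    LinearMap.smul_apply, Module.End.one_apply, sub_eq_zero]

theorem eigenSub_saturated [IsDomain R] [Module.IsTorsionFree R M] {c : R} (hc : c ≠ 0) {x : M}
    (h : c • x ∈ eigenSub T a P) : x ∈ eigenSub T a P := by
  rw [mem_eigenSub] at h ⊢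
  intro ℓ hℓ
  have h1 : c • (T ℓ x - a ℓ • x) = 0 := by
    rw [smul_sub, ← map_smul, h ℓ hℓ, smul_comm, sub_self]
  rcases smul_eq_zero.mp h1 with h2 | h2
  · exact absurd h2 hc
  · exact sub_eq_zero.mp h2

variable {G : Type*} [Monoid G] (ρ₀ : G →* Module.End R M)
  (hcomm : ∀ ℓ, P ℓ → ∀ σ : G, T ℓ * ρ₀ σ = ρ₀ σ * T ℓ)

include hcomm in
/-- The eigen-submodule is stable under a representation commuting with the operators. -/
theorem es_map_mem (σ : G) {x : M} (hx : x ∈ eigenSub T a P) : ρ₀ σ x ∈ eigenSub T a P := by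
  rw [mem_eigenSub] at hx ⊢
  intro ℓ hℓ
  have h1 : T ℓ (ρ₀ σ x) = ρ₀ σ (T ℓ x) := by
    have h2 := congrArg (fun f : Module.End R M => f x) (hcomm ℓ hℓ σ)
    simpa only [Module.End.mul_apply] using h2
  rw [h1, hx ℓ hℓ, map_smul]

/-- The restriction of `ρ₀` to the eigen-submodule. -/
noncomputable def eigenRep : G →* Module.End R (eigenSub T a P) where
  toFun σ := (ρ₀ σ).restrict (fun _ hx => es_map_mem T a P ρ₀ hcomm σ hx)
  map_one' := by
    ext x
    simp only [LinearMap.coe_restrict_apply, map_one, Module.End.one_apply]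
  map_mul' σ τ := by
    ext x
    simp only [LinearMap.coe_restrict_apply, map_mul, Module.End.mul_apply]

theorem coe_eigenRep_apply (σ : G) (x : eigenSub T a P) :
    ((eigenRep T a P ρ₀ hcomm σ x : eigenSub T a P) : M) = ρ₀ σ (x : M) :=
  rfl

theorem eigenRep_eq_one {σ : G} (h : ρ₀ σ = 1) : eigenRep T a P ρ₀ hcomm σ = 1 := by
  ext x
  rw [coe_eigenRep_apply, h, Module.End.one_apply, Module.End.one_apply]

theorem eigenRep_quadratic {σ : G} {ℓ : ℕ} (hℓ : P ℓ) {c : R}
    (h : ρ₀ σ * ρ₀ σ - T ℓ * ρ₀ σ + c • (1 : Module.End R M) = 0) :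
    eigenRep T a P ρ₀ hcomm σ * eigenRep T a P ρ₀ hcomm σ - a ℓ • eigenRep T a P ρ₀ hcomm σ
      + c • (1 : Module.End R (eigenSub T a P)) = 0 := by
  ext x
  have h1 := congrArg (fun f : Module.End R M => f (x : M)) h
  simp only [LinearMap.add_apply, LinearMap.sub_apply, Module.End.mul_apply, LinearMap.smul_apply,
    Module.End.one_apply, LinearMap.zero_apply] at h1
  have h2 : T ℓ (ρ₀ σ (x : M)) = a ℓ • ρ₀ σ (x : M) :=
    (mem_eigenSub T a P).mp (es_map_mem T a P ρ₀ hcomm σ x.2) ℓ hℓ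
  simp only [LinearMap.add_apply, LinearMap.sub_apply, Module.End.mul_apply, LinearMap.smul_apply,
    Module.End.one_apply, LinearMap.zero_apply, Submodule.coe_add, Submodule.coe_sub,
    Submodule.coe_smul, coe_eigenRep_apply, ZeroMemClass.coe_zero]
  rw [← h2]
  exact h1

/-- Over a discrete valuation ring, `𝔪 ^ n • ⊤` is the set of multiples of `ϖ ^ n`. -/
theorem es_mem_maximalIdeal_pow_smul_top [IsDomain R] [IsDiscreteValuationRing R] {ϖ : R}
    (hϖ : Irreducible ϖ) {N : Type*} [AddCommGroup N] [Module R N] (n : ℕ) (y : N) :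
    y ∈ (maximalIdeal R ^ n) • (⊤ : Submodule R N) ↔ ∃ w : N, ϖ ^ n • w = y := by
  rw [hϖ.maximalIdeal_eq, Ideal.span_singleton_pow, Submodule.ideal_span_singleton_smul,
    Submodule.mem_smul_pointwise_iff_exists]
  constructor
  · rintro ⟨w, -, hw⟩
    exact ⟨w, hw⟩
  · rintro ⟨w, hw⟩
    exact ⟨w, Submodule.mem_top, hw⟩

theorem eigenRep_sub_mem [IsDomain R] [IsDiscreteValuationRing R] [Module.IsTorsionFree R M]
    {σ : G} {n : ℕ}
    (h : ∀ v : M, ρ₀ σ v - v ∈ (maximalIdeal R ^ n) • (⊤ : Submodule R M)) :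
    ∀ v : eigenSub T a P, eigenRep T a P ρ₀ hcomm σ v - v ∈
      (maximalIdeal R ^ n) • (⊤ : Submodule R (eigenSub T a P)) := by
  intro v
  obtain ⟨ϖ, hϖ⟩ := IsDiscreteValuationRing.exists_irreducible R
  obtain ⟨w, hw⟩ := (es_mem_maximalIdeal_pow_smul_top hϖ n _).mp (h (v : M))
  have hmem : ϖ ^ n • w ∈ eigenSub T a P := by
    rw [hw]
    exact (eigenSub T a P).sub_mem (es_map_mem T a P ρ₀ hcomm σ v.2) v.2
  have hw' : w ∈ eigenSub T a P :=
    eigenSub_saturated T a P (pow_ne_zero n hϖ.ne_zero) hmem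
  refine (es_mem_maximalIdeal_pow_smul_top hϖ n _).mpr ⟨⟨w, hw'⟩, ?_⟩
  apply Subtype.ext
  rw [Submodule.coe_smul, Submodule.coe_sub, coe_eigenRep_apply]
  exact hw

theorem eigenSub_free [IsDomain R] [IsPrincipalIdealRing R] [Module.Finite R M] [Module.Free R M] :
    Module.Free R (eigenSub T a P) :=
  inferInstance

theorem eigenSub_finite [IsDomain R] [IsPrincipalIdealRing R] [Module.Finite R M] :
    Module.Finite R (eigenSub T a P) :=
  inferInstance

end EigenSub

end Fermat.Agent.S30
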