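import Mathlib

/-!
# P15 (S30), part (B′), module D1: the structure map `ℤ_[p] →+* R`

Let `R` be a local ring which is complete for the topology of its maximal ideal `𝔪`, and let `p`
be a prime number with `(p : R) ∈ 𝔪`.  Then there is a ring homomorphism `ℤ_[p] →+* R`
(`exists_padicInt_ringHom`), and it is unique (`pa_ringHom_ext`).

The map is obtained from the universal property of adic completeness
(`IsAdicComplete.liftRingHom`) applied to the compatible family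
`ℤ_[p] → ZMod (p ^ n) → R ⧸ 𝔪 ^ n`.

Extras (prefix `pa_`), valid for every ring homomorphism `ι : ℤ_[p] →+* R` with `(p : R) ∈ 𝔪`:
`ι (p ^ n * z) ∈ 𝔪 ^ n`, `Ideal.map ι (span {p ^ n}) ≤ 𝔪 ^ n`, `ι z ≡ z.appr n` modulo `𝔪 ^ n`,
`ι` is a local homomorphism, and `ι` is injective as soon as `R` has characteristic zero.
-/

set_option autoImplicit false

namespace Fermat.Agent.S30

open IsLocalRing

/-- `p ^ n` vanishes in `R ⧸ 𝔪 ^ n` when `p ∈ 𝔪`. -/
theorem pa_natCast_pow_eq_zero (p : ℕ) (R : Type*) [CommRing R] [IsLocalRing R]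
    (hp : (p : R) ∈ maximalIdeal R) (n : ℕ) :
    ((p ^ n : ℕ) : R ⧸ maximalIdeal R ^ n) = 0 := by
  have h : ((p ^ n : ℕ) : R) ∈ maximalIdeal R ^ n := by
    rw [Nat.cast_pow]
    exact Ideal.pow_mem_pow hp n
  rw [← map_natCast (Ideal.Quotient.mk (maximalIdeal R ^ n))]
  exact Ideal.Quotient.eq_zero_iff_mem.mpr h

/-- The ring homomorphism `ZMod (p ^ n) →+* R ⧸ 𝔪 ^ n`, for `p ∈ 𝔪`. -/
noncomputable def pa_zmodHom (p : ℕ) (R : Type*) [CommRing R] [IsLocalRing R]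
    (hp : (p : R) ∈ maximalIdeal R) (n : ℕ) : ZMod (p ^ n) →+* R ⧸ maximalIdeal R ^ n :=
  ZMod.castHom (ringChar.dvd (pa_natCast_pow_eq_zero p R hp n)) (R ⧸ maximalIdeal R ^ n)

/-- The ring homomorphism `ℤ_[p] →+* R ⧸ 𝔪 ^ n`, for `p ∈ 𝔪`. -/
noncomputable def pa_levelHom (p : ℕ) [Fact p.Prime] (R : Type*) [CommRing R] [IsLocalRing R]
    (hp : (p : R) ∈ maximalIdeal R) (n : ℕ) : ℤ_[p] →+* R ⧸ maximalIdeal R ^ n :=
  (pa_zmodHom p R hp n).comp (PadicInt.toZModPow n)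

/-- The maps `pa_levelHom` are compatible with the transition maps `R ⧸ 𝔪 ^ n → R ⧸ 𝔪 ^ m`. -/
theorem pa_levelHom_compat (p : ℕ) [Fact p.Prime] (R : Type*) [CommRing R] [IsLocalRing R]
    (hp : (p : R) ∈ maximalIdeal R) {m n : ℕ} (hle : m ≤ n) :
    (Ideal.Quotient.factorPow (maximalIdeal R) hle).comp (pa_levelHom p R hp n) =
      pa_levelHom p R hp m := by
  unfold pa_levelHom
  rw [← PadicInt.zmod_cast_comp_toZModPow m n hle, ← RingHom.comp_assoc, ← RingHom.comp_assoc]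
  congr 1
  exact RingHom.ext_zmod _ _

/-- **The structure map `ℤ_[p] →+* R`** of a local ring `R`, complete for its maximal ideal `𝔪`,
with `p ∈ 𝔪`. -/
theorem exists_padicInt_ringHom (p : ℕ) [Fact p.Prime] (R : Type*) [CommRing R] [IsLocalRing R]
    [IsAdicComplete (maximalIdeal R) R] (hp : (p : R) ∈ maximalIdeal R) :
    Nonempty (ℤ_[p] →+* R) :=
  ⟨IsAdicComplete.liftRingHom (maximalIdeal R) (pa_levelHom p R hp)
    (fun hle => pa_levelHom_compat p R hp hle)⟩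

/-! ### Properties of an arbitrary ring homomorphism `ℤ_[p] →+* R` -/

/-- A ring homomorphism `ℤ_[p] →+* R` sends `p ^ n * z` into `𝔪 ^ n`. -/
theorem pa_map_pow_mul_mem {p : ℕ} [Fact p.Prime] {R : Type*} [CommRing R] [IsLocalRing R]
    (ι : ℤ_[p] →+* R) (hp : (p : R) ∈ maximalIdeal R) (n : ℕ) (z : ℤ_[p]) :
    ι ((p : ℤ_[p]) ^ n * z) ∈ maximalIdeal R ^ n := by
  rw [map_mul, map_pow, map_natCast]
  exact Ideal.mul_mem_right _ _ (Ideal.pow_mem_pow hp n)

/-- A ring homomorphism `ℤ_[p] →+* R` sends `p ^ n` into `𝔪 ^ n`. -/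
theorem pa_map_pow_mem {p : ℕ} [Fact p.Prime] {R : Type*} [CommRing R] [IsLocalRing R]
    (ι : ℤ_[p] →+* R) (hp : (p : R) ∈ maximalIdeal R) (n : ℕ) :
    ι ((p : ℤ_[p]) ^ n) ∈ maximalIdeal R ^ n := by
  have h := pa_map_pow_mul_mem ι hp n 1
  rwa [mul_one] at h

/-- A ring homomorphism `ℤ_[p] →+* R` maps the ideal `(p ^ n)` into `𝔪 ^ n`. -/
theorem pa_map_span_le {p : ℕ} [Fact p.Prime] {R : Type*} [CommRing R] [IsLocalRing R]
    (ι : ℤ_[p] →+* R) (hp : (p : R) ∈ maximalIdeal R) (n : ℕ) :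
    Ideal.map ι (Ideal.span {(p : ℤ_[p]) ^ n}) ≤ maximalIdeal R ^ n := by
  rw [Ideal.map_span, Set.image_singleton, Ideal.span_singleton_le_iff_mem]
  exact pa_map_pow_mem ι hp n

/-- A ring homomorphism `ℤ_[p] →+* R` maps every element of the ideal `(p ^ n)` into `𝔪 ^ n`. -/
theorem pa_map_mem_of_mem_span {p : ℕ} [Fact p.Prime] {R : Type*} [CommRing R] [IsLocalRing R]
    (ι : ℤ_[p] →+* R) (hp : (p : R) ∈ maximalIdeal R) {n : ℕ} {z : ℤ_[p]}
    (hz : z ∈ Ideal.span {(p : ℤ_[p]) ^ n}) : ι z ∈ maximalIdeal R ^ n :=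
  pa_map_span_le ι hp n (Ideal.mem_map_of_mem ι hz)

/-- A ring homomorphism `ℤ_[p] →+* R` agrees modulo `𝔪 ^ n` with the `n`-th approximation. -/
theorem pa_map_sub_appr_mem {p : ℕ} [Fact p.Prime] {R : Type*} [CommRing R] [IsLocalRing R]
    (ι : ℤ_[p] →+* R) (hp : (p : R) ∈ maximalIdeal R) (n : ℕ) (z : ℤ_[p]) :
    ι z - ((z.appr n : ℕ) : R) ∈ maximalIdeal R ^ n := by
  have h := pa_map_mem_of_mem_span ι hp (PadicInt.appr_spec n z)
  rwa [map_sub, map_natCast] at h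

/-- Two ring homomorphisms `ℤ_[p] →+* R` agree modulo `𝔪 ^ n` for every `n`. -/
theorem pa_map_sub_map_mem {p : ℕ} [Fact p.Prime] {R : Type*} [CommRing R] [IsLocalRing R]
    (ι ι' : ℤ_[p] →+* R) (hp : (p : R) ∈ maximalIdeal R) (n : ℕ) (z : ℤ_[p]) :
    ι z - ι' z ∈ maximalIdeal R ^ n := by
  have h := Ideal.sub_mem _ (pa_map_sub_appr_mem ι hp n z) (pa_map_sub_appr_mem ι' hp n z)
  rwa [sub_sub_sub_cancel_right] at h

/-- **Uniqueness of the structure map**: if `R` is `𝔪`-adically separated and `p ∈ 𝔪`, any two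
ring homomorphisms `ℤ_[p] →+* R` are equal. -/
theorem pa_ringHom_ext {p : ℕ} [Fact p.Prime] {R : Type*} [CommRing R] [IsLocalRing R]
    [IsHausdorff (maximalIdeal R) R] (hp : (p : R) ∈ maximalIdeal R) (ι ι' : ℤ_[p] →+* R) :
    ι = ι' := by
  ext z
  rw [← sub_eq_zero]
  refine IsHausdorff.haus' (I := maximalIdeal R) _ fun n => ?_
  rw [SModEq.zero, smul_eq_mul, Ideal.mul_top]
  exact pa_map_sub_map_mem ι ι' hp n z

/-- If `R` is `𝔪`-adically separated and `p ∈ 𝔪`, there is at most one ring homomorphism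
`ℤ_[p] →+* R`. -/
theorem pa_subsingleton_ringHom (p : ℕ) [Fact p.Prime] (R : Type*) [CommRing R] [IsLocalRing R]
    [IsHausdorff (maximalIdeal R) R] (hp : (p : R) ∈ maximalIdeal R) :
    Subsingleton (ℤ_[p] →+* R) :=
  ⟨fun ι ι' => pa_ringHom_ext hp ι ι'⟩

/-- A ring homomorphism `ℤ_[p] →+* R` with `p ∈ 𝔪` is a local homomorphism. -/
theorem pa_isLocalHom {p : ℕ} [Fact p.Prime] {R : Type*} [CommRing R] [IsLocalRing R]
    (ι : ℤ_[p] →+* R) (hp : (p : R) ∈ maximalIdeal R) : IsLocalHom ι := by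
  refine ⟨fun z hz => ?_⟩
  by_contra hnu
  have hz' : z ∈ maximalIdeal ℤ_[p] := (IsLocalRing.mem_maximalIdeal z).mpr hnu
  rw [PadicInt.maximalIdeal_eq_span_p, ← pow_one (p : ℤ_[p])] at hz'
  have h1 : ι z ∈ maximalIdeal R ^ 1 := pa_map_mem_of_mem_span ι hp hz'
  rw [pow_one] at h1
  exact (IsLocalRing.mem_maximalIdeal _).mp h1 hz

/-- A ring homomorphism from `ℤ_[p]` to a ring of characteristic zero is injective. -/
theorem pa_injective {p : ℕ} [Fact p.Prime] {R : Type*} [CommRing R] [CharZero R]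
    (ι : ℤ_[p] →+* R) : Function.Injective ι := by
  rw [RingHom.injective_iff_ker_eq_bot]
  by_contra hker
  obtain ⟨n, hn⟩ := PadicInt.ideal_eq_span_pow_p hker
  have hmem : (p : ℤ_[p]) ^ n ∈ RingHom.ker ι := by
    rw [hn]
    exact Ideal.mem_span_singleton_self _
  rw [RingHom.mem_ker, map_pow, map_natCast, ← Nat.cast_pow, Nat.cast_eq_zero] at hmem
  exact (pow_ne_zero n (Fact.out : p.Prime).ne_zero) hmem

end Fermat.Agent.S30
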