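import Mathlib
import Fermat.Prelude.Def_FLTPrelim_Ramification
import Fermat.Prelude.Def_EllipticCurve_FrobeniusTrace
import Fermat.Agent.S42.FrobQbar
import Fermat.Agent.S42.Extraction
import Fermat.Agent.S42.Cyclo

/-!
# P15 (S30), part (B′), module Q: the quadratic relation for every element of the Galois group

Let `𝒪'` be a complete discrete valuation ring with maximal ideal `𝔪`, `Y` a finite free
`𝒪'`-module, `ρ : Gal(ℚ̄/ℚ) →* End Y` and `ε : Gal(ℚ̄/ℚ) →* 𝒪'ˣ`, both continuous (trivial modulo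
`𝔪 ^ n` on the absolute Galois group of a number field, for every `n`), such that every Frobenius
lift `σ` at a prime `ℓ ∉ S'` satisfies `σ² - a_ℓ σ + ℓ = 0` on `Y` and `ε σ = ℓ`.  Then
(`exists_quadratic_of_frobenius`) every `g` satisfies a relation `g² - t g + ε(g) = 0` on `Y` for
some `t : 𝒪'`.

Proof: for every `n` the Frobenius density theorem (`exists_frobenius_pow_eq_on`) gives a
Frobenius lift `σ` and an exponent `j` such that `σ ^ j` and `g` agree on a finite Galois level
field for `𝔪 ^ n`; the power relation (`ex_pow_quadratic_alg`) for `σ ^ j` then gives the relation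
for `g` modulo `𝔪 ^ n` with some `t_n` (`qa_rel_of_perturb`).  The element
`(ρ g * ρ g + ε g) * ρ g⁻¹` is thus a scalar modulo `𝔪 ^ n` for every `n`, hence a scalar
(`qa_limit`: read off the scalar from one matrix coefficient and use that `⋂ₙ 𝔪 ^ n • Y = 0`).

All auxiliary declarations carry the prefix `qa_`.
-/

set_option autoImplicit false

namespace Fermat.Agent.S30

open Polynomial IsLocalRing

local notation "Γℚ" => (AlgebraicClosure ℚ ≃ₐ[ℚ] AlgebraicClosure ℚ)

/-! ### Endomorphisms with values in `J • Y` -/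

section Abstract

variable {R : Type*} [CommRing R] {Y : Type*} [AddCommGroup Y] [Module R Y]

/-- The endomorphisms of `Y` with values in `J • Y` (a two-sided ideal of `End Y`). -/
def qa_small (J : Ideal R) (Y : Type*) [AddCommGroup Y] [Module R Y] :
    Submodule R (Module.End R Y) where
  carrier := {f | ∀ v : Y, f v ∈ J • (⊤ : Submodule R Y)}
  add_mem' := fun hf hg v => Submodule.add_mem _ (hf v) (hg v)
  zero_mem' := fun _ => Submodule.zero_mem _
  smul_mem' := fun c _ hf v => Submodule.smul_mem _ c (hf v)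

theorem qa_mem_small {J : Ideal R} {f : Module.End R Y} :
    f ∈ qa_small J Y ↔ ∀ v : Y, f v ∈ J • (⊤ : Submodule R Y) :=
  Iff.rfl

/-- A linear map preserves `J • Y`. -/
theorem qa_map_mem (J : Ideal R) (k : Module.End R Y) {y : Y}
    (hy : y ∈ J • (⊤ : Submodule R Y)) : k y ∈ J • (⊤ : Submodule R Y) := by
  refine Submodule.smul_induction_on hy (fun r hr m _ => ?_) (fun a b ha hb => ?_)
  · rw [map_smul]
    exact Submodule.smul_mem_smul hr Submodule.mem_top
  · rw [map_add]
    exact Submodule.add_mem _ ha hb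

theorem qa_small_mul_right {J : Ideal R} {f : Module.End R Y} (hf : f ∈ qa_small J Y)
    (k : Module.End R Y) : f * k ∈ qa_small J Y :=
  fun v => hf (k v)

theorem qa_small_mul_left {J : Ideal R} {f : Module.End R Y} (hf : f ∈ qa_small J Y)
    (k : Module.End R Y) : k * f ∈ qa_small J Y :=
  fun v => qa_map_mem J k (hf v)

theorem qa_small_smul_one {J : Ideal R} {c : R} (hc : c ∈ J) :
    c • (1 : Module.End R Y) ∈ qa_small J Y :=
  fun _ => Submodule.smul_mem_smul hc Submodule.mem_top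

/-- If `x * u` satisfies a quadratic relation with constant term `e * w`, where `u ≡ 1` and
`w ≡ 1` modulo `J`, then `x` satisfies the relation with constant term `e` modulo `J`. -/
theorem qa_rel_of_perturb (J : Ideal R) {x u : Module.End R Y} {t e w : R}
    (hu : u - 1 ∈ qa_small J Y) (hw : w - 1 ∈ J)
    (hP : (x * u) * (x * u) - t • (x * u) + (e * w) • (1 : Module.End R Y) = 0) :
    x * x - t • x + e • (1 : Module.End R Y) ∈ qa_small J Y := by
  have key : x * x - t • x + e • (1 : Module.End R Y) =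
      -(x * ((u - 1) * x)) - x * (u * (x * (u - 1))) + t • (x * (u - 1))
        - (e * (w - 1)) • (1 : Module.End R Y)
        + ((x * u) * (x * u) - t • (x * u) + (e * w) • (1 : Module.End R Y)) := by
    simp only [mul_sub, sub_mul, mul_one, one_mul, smul_sub, sub_smul, mul_assoc]
    abel
  rw [key, hP, add_zero]
  refine Submodule.sub_mem _ (Submodule.add_mem _ (Submodule.sub_mem _
    (Submodule.neg_mem _ ?_) ?_) ?_) ?_
  · exact qa_small_mul_left (qa_small_mul_right hu x) x
  · exact qa_small_mul_left (qa_small_mul_left (qa_small_mul_left hu x) u) x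
  · exact Submodule.smul_mem _ t (qa_small_mul_left hu x)
  · exact qa_small_smul_one (J.mul_mem_left e hw)

/-- The coordinates of an element of `J • Y` lie in `J`. -/
theorem qa_coord_mem (J : Ideal R) {ι : Type*} (b : Module.Basis ι R Y) {y : Y}
    (hy : y ∈ J • (⊤ : Submodule R Y)) (i : ι) : b.repr y i ∈ J := by
  refine Submodule.smul_induction_on hy (fun r hr m _ => ?_) (fun a c ha hc => ?_)
  · rw [map_smul, Finsupp.smul_apply, smul_eq_mul]
    exact J.mul_mem_right _ hr
  · rw [map_add, Finsupp.add_apply]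
    exact J.add_mem ha hc

/-- An element of a Hausdorff ring lying in all powers of the ideal vanishes. -/
theorem qa_eq_zero_of_forall_mem_pow (I : Ideal R) [hI : IsHausdorff I R] {r : R}
    (hr : ∀ n : ℕ, r ∈ I ^ n) : r = 0 := by
  refine hI.haus r fun n => ?_
  rw [SModEq.zero]
  have h := Submodule.smul_mem_smul (hr n) (Submodule.mem_top (x := (1 : R)))
  have h' : r • (1 : R) = r := mul_one r
  rwa [h'] at h

/-- In a free module over a Hausdorff ring, `⋂ₙ I ^ n • Y = 0`. -/
theorem qa_eq_zero_of_forall_mem [Module.Free R Y] (I : Ideal R) [IsHausdorff I R] {y : Y}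
    (hy : ∀ n : ℕ, y ∈ I ^ n • (⊤ : Submodule R Y)) : y = 0 := by
  have h : (Module.Free.chooseBasis R Y).repr y = 0 := by
    ext i
    rw [Finsupp.zero_apply]
    exact qa_eq_zero_of_forall_mem_pow I fun n => qa_coord_mem (I ^ n) _ (hy n) i
  exact (LinearEquiv.map_eq_zero_iff _).mp h

/-- **The limit argument.** If an invertible endomorphism `x` of a free module over a Hausdorff
ring satisfies `x² - t_n x + e ≡ 0` modulo `I ^ n` for every `n` (with `t_n` depending on `n`),
then `x² - t x + e = 0` for some `t`. -/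
theorem qa_limit [Module.Free R Y] (I : Ideal R) [IsHausdorff I R] {x x' : Module.End R Y}
    (hxx' : x * x' = 1) (hx'x : x' * x = 1) (e : R)
    (h : ∀ n : ℕ, ∃ t : R, x * x - t • x + e • (1 : Module.End R Y) ∈ qa_small (I ^ n) Y) :
    ∃ t : R, x * x - t • x + e • (1 : Module.End R Y) = 0 := by
  rcases subsingleton_or_nontrivial Y with hY | hY
  · exact ⟨0, Subsingleton.elim _ _⟩
  · set b := Module.Free.chooseBasis R Y with hb
    obtain ⟨i₀⟩ : Nonempty (Module.Free.ChooseBasisIndex R Y) := b.index_nonempty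
    set C : Module.End R Y := (x * x + e • (1 : Module.End R Y)) * x' with hC
    set t : R := b.repr (C (b i₀)) i₀ with ht
    -- `C - t_n • 1` is small
    have h1 : ∀ n : ℕ, ∃ s : R, C - s • (1 : Module.End R Y) ∈ qa_small (I ^ n) Y := by
      intro n
      obtain ⟨s, hs⟩ := h n
      refine ⟨s, ?_⟩
      have h2 : C - s • (1 : Module.End R Y) =
          (x * x - s • x + e • (1 : Module.End R Y)) * x' := by
        rw [hC, add_mul, add_mul, sub_mul, smul_mul_assoc, smul_mul_assoc, hxx']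
        abel
      rw [h2]
      exact qa_small_mul_right hs x'
    -- hence `C - t • 1` is small
    have h3 : ∀ n : ℕ, C - t • (1 : Module.End R Y) ∈ qa_small (I ^ n) Y := by
      intro n
      obtain ⟨s, hs⟩ := h1 n
      have h4 : t - s ∈ I ^ n := by
        have h5 := qa_coord_mem (I ^ n) b (hs (b i₀)) i₀
        have h6 : b.repr ((C - s • (1 : Module.End R Y)) (b i₀)) i₀ = t - s := by
          rw [LinearMap.sub_apply, LinearMap.smul_apply, Module.End.one_apply, map_sub,
            map_smul, Finsupp.sub_apply, Finsupp.smul_apply, Module.Basis.repr_self,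
            Finsupp.single_eq_same, smul_eq_mul, mul_one]
        rwa [h6] at h5
      have h7 : C - t • (1 : Module.End R Y) =
          (C - s • (1 : Module.End R Y)) - (t - s) • (1 : Module.End R Y) := by
        rw [sub_smul]
        abel
      rw [h7]
      exact Submodule.sub_mem _ hs (qa_small_smul_one h4)
    -- so `C = t • 1`
    have h8 : C = t • (1 : Module.End R Y) := by
      rw [← sub_eq_zero]
      ext v
      rw [LinearMap.zero_apply]
      exact qa_eq_zero_of_forall_mem I fun n => h3 n v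
    refine ⟨t, ?_⟩
    have h9 : C * x = x * x + e • (1 : Module.End R Y) := by
      rw [hC, mul_assoc, hx'x, mul_one]
    rw [h8, smul_mul_assoc, one_mul] at h9
    rw [h9]
    abel

end Abstract

/-! ### The main statement -/

/-- **Every element of the Galois group satisfies a quadratic relation** with constant term
`ε g`, provided the Frobenius lifts at almost all primes `ℓ` do (with constant term `ℓ = ε σ`) and
`ρ`, `ε` are continuous. -/
theorem exists_quadratic_of_frobenius
    (𝒪' : Type) [CommRing 𝒪'] [IsDomain 𝒪'] [IsDiscreteValuationRing 𝒪']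
    [IsAdicComplete (maximalIdeal 𝒪') 𝒪']
    {Y : Type} [AddCommGroup Y] [Module 𝒪' Y] [Module.Finite 𝒪' Y] [Module.Free 𝒪' Y]
    (ρ : Γℚ →* Module.End 𝒪' Y) (ε : Γℚ →* 𝒪'ˣ) (S' : Finset ℕ) (a : ℕ → 𝒪')
    (hfrob : ∀ ℓ : ℕ, ℓ.Prime → ℓ ∉ S' →
      ∀ A : ValuationSubring (AlgebraicClosure ℚ), A.LiesOverPrime ℓ →
        ∀ σ : Γℚ, A.IsFrobeniusAt σ ℓ →
          ρ σ * ρ σ - a ℓ • ρ σ + (ℓ : 𝒪') • (1 : Module.End 𝒪' Y) = 0)
    (hεfrob : ∀ ℓ : ℕ, ℓ.Prime → ℓ ∉ S' →
      ∀ A : ValuationSubring (AlgebraicClosure ℚ), A.LiesOverPrime ℓ →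
        ∀ σ : Γℚ, A.IsFrobeniusAt σ ℓ → ((ε σ : 𝒪'ˣ) : 𝒪') = (ℓ : 𝒪'))
    (hcont : ∀ n : ℕ, ∃ L : IntermediateField ℚ (AlgebraicClosure ℚ), FiniteDimensional ℚ L ∧
      ∀ σ : Γℚ, (∀ y ∈ L, σ y = y) →
        ∀ v : Y, ρ σ v - v ∈ (maximalIdeal 𝒪' ^ n) • (⊤ : Submodule 𝒪' Y))
    (hεcont : ∀ n : ℕ, ∃ L : IntermediateField ℚ (AlgebraicClosure ℚ), FiniteDimensional ℚ L ∧
      ∀ σ : Γℚ, (∀ y ∈ L, σ y = y) → ((ε σ : 𝒪'ˣ) : 𝒪') - 1 ∈ maximalIdeal 𝒪' ^ n) :
    ∀ g : Γℚ, ∃ t : 𝒪',
      ρ g * ρ g - t • ρ g + ((ε g : 𝒪'ˣ) : 𝒪') • (1 : Module.End 𝒪' Y) = 0 := by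
  intro g
  have hH : IsHausdorff (maximalIdeal 𝒪') 𝒪' := inferInstance
  refine qa_limit (maximalIdeal 𝒪') (x := ρ g) (x' := ρ g⁻¹) ?_ ?_ _ (fun n => ?_)
  · rw [← map_mul, mul_inv_cancel, map_one]
  · rw [← map_mul, inv_mul_cancel, map_one]
  · obtain ⟨L₁, hL₁fd, hL₁⟩ := hcont n
    obtain ⟨L₂, hL₂fd, hL₂⟩ := hεcont n
    obtain ⟨L, hL₁L, hL₂L, hLfd, hLgal⟩ := Fermat.Agent.S42.cy_exists_finite_galois_ge_sup L₁ L₂
    obtain ⟨ℓ, A, σ, j, hℓ, hℓS, hA, hσ, hj⟩ :=
      Fermat.Agent.S42.exists_frobenius_pow_eq_on L g S'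
    -- `g⁻¹ * σ ^ j` fixes `L`
    have hfix : ∀ y ∈ L, (g⁻¹ * σ ^ j) y = y := by
      intro y hy
      show g⁻¹ ((σ ^ j) y) = y
      rw [hj y hy]
      exact g.symm_apply_apply y
    obtain ⟨t', ht'⟩ := Fermat.Agent.S42.ex_pow_quadratic_alg (hfrob ℓ hℓ hℓS A hA σ hσ) j
    refine ⟨t', qa_rel_of_perturb (maximalIdeal 𝒪' ^ n) (u := ρ (g⁻¹ * σ ^ j))
      (w := ((ε (g⁻¹ * σ ^ j) : 𝒪'ˣ) : 𝒪')) ?_ ?_ ?_⟩
    · intro v
      exact hL₁ _ (fun y hy => hfix y (hL₁L hy)) v
    · exact hL₂ _ (fun y hy => hfix y (hL₂L hy))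
    · have h1 : ρ g * ρ (g⁻¹ * σ ^ j) = ρ σ ^ j := by
        rw [← map_mul, mul_inv_cancel_left, map_pow]
      have h2 : ((ε g : 𝒪'ˣ) : 𝒪') * ((ε (g⁻¹ * σ ^ j) : 𝒪'ˣ) : 𝒪') = (ℓ : 𝒪') ^ j := by
        rw [← Units.val_mul, ← map_mul, mul_inv_cancel_left, map_pow, Units.val_pow_eq_pow_val,
          hεfrob ℓ hℓ hℓS A hA σ hσ]
      rw [h1, h2]
      exact ht'

end Fermat.Agent.S30
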