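import Mathlib
import Fermat.Statements.S30
import Fermat.Prelude.Def_FLTPrelim_Ramification
import Fermat.Prelude.Def_EllipticCurve_FrobeniusTrace
import Fermat.Agent.S30.PadicAlg
import Fermat.Agent.S30.CycloAdic
import Fermat.Agent.S30.EigenSub
import Fermat.Agent.S30.QuadAdic
import Fermat.Agent.S30.AdicDescent

/-!
# P15 (S30), part (B′): the abstract core

`exists_adicRep_of_eigenvector`: let `𝒪'` be a complete discrete valuation ring of characteristic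
zero with finite residue field of characteristic `p`, and `M` a finite free `𝒪'`-module with an
adically continuous action `ρ₀` of `Gal(ℚ̄/ℚ)` and operators `T ℓ` commuting with it, such that
every Frobenius lift at a prime `ℓ ∉ S`, `ℓ ∤ N` satisfies `σ² - T_ℓ σ + ℓ = 0`, inertia at the
primes `q ∤ Np` acts trivially, and `x ≠ 0` is a common eigenvector, `T ℓ x = a ℓ • x`.  Then there
are a finite extension `𝒪''` of `𝒪'` (again a complete discrete valuation ring) and a continuous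
representation on a free `𝒪''`-module of rank two, unramified outside `Np`, with
`charpoly (ρ σ) = X² - a_ℓ X + ℓ` for every Frobenius lift at every prime `ℓ ∉ S`, `ℓ ∤ N`.

Ingredients: the eigen-submodule (`EigenSub`), the `p`-adic cyclotomic character (`CycloAdic`,
`PadicAlg`), Frobenius density in the limit (`QuadAdic`) and the descent to a lattice over a
finite extension (`AdicDescent`).
-/

set_option autoImplicit false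

namespace Fermat.Agent.S30

open Polynomial IsLocalRing

local notation "Γℚ" => (AlgebraicClosure ℚ ≃ₐ[ℚ] AlgebraicClosure ℚ)

/-- **Abstract core of S30.**  See the module docstring. -/
theorem exists_adicRep_of_eigenvector
    (p : ℕ) [Fact p.Prime] (N : ℕ) [NeZero N] (S : Finset ℕ) (hpS : p ∈ S)
    (𝒪' : Type) [CommRing 𝒪'] [IsDomain 𝒪'] [IsDiscreteValuationRing 𝒪']
    [IsAdicComplete (maximalIdeal 𝒪') 𝒪'] [Finite (ResidueField 𝒪')]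
    [CharZero 𝒪'] (hp𝒪' : (p : 𝒪') ∈ maximalIdeal 𝒪')
    {M : Type} [AddCommGroup M] [Module 𝒪' M] [Module.Finite 𝒪' M] [Module.Free 𝒪' M]
    (ρ₀ : Γℚ →* Module.End 𝒪' M) (T : ℕ → Module.End 𝒪' M) (a : ℕ → 𝒪') (x : M) (hx : x ≠ 0)
    (heig : ∀ ℓ : ℕ, ℓ.Prime → ¬ ℓ ∣ N → ℓ ∉ S → T ℓ x = a ℓ • x)
    (hcomm : ∀ ℓ : ℕ, ℓ.Prime → ¬ ℓ ∣ N → ℓ ∉ S → ∀ σ : Γℚ, T ℓ * ρ₀ σ = ρ₀ σ * T ℓ)
    (hfrob : ∀ ℓ : ℕ, ℓ.Prime → ¬ ℓ ∣ N → ℓ ∉ S →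
      ∀ A : ValuationSubring (AlgebraicClosure ℚ), A.LiesOverPrime ℓ →
        ∀ σ : Γℚ, A.IsFrobeniusAt σ ℓ →
          ρ₀ σ * ρ₀ σ - T ℓ * ρ₀ σ + (ℓ : 𝒪') • (1 : Module.End 𝒪' M) = 0)
    (hinert : ∀ q : ℕ, q.Prime → ¬ q ∣ N → q ≠ p →
      ∀ A : ValuationSubring (AlgebraicClosure ℚ), A.LiesOverPrime q →
        ∀ τ ∈ A.inertiaSubgroupIn ℚ, ρ₀ τ = 1)
    (hcont : ∀ n : ℕ, ∃ L : IntermediateField ℚ (AlgebraicClosure ℚ), FiniteDimensional ℚ L ∧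
      ∀ σ : Γℚ, (∀ y ∈ L, σ y = y) →
        ∀ v : M, ρ₀ σ v - v ∈ (maximalIdeal 𝒪' ^ n) • (⊤ : Submodule 𝒪' M)) :
    ∃ (𝒪'' : Type) (_ : CommRing 𝒪'') (_ : IsDomain 𝒪'') (_ : IsDiscreteValuationRing 𝒪'')
        (_ : IsAdicComplete (IsLocalRing.maximalIdeal 𝒪'') 𝒪'')
        (_ : Finite (IsLocalRing.ResidueField 𝒪'')) (_ : CharZero 𝒪'')
        (_ : Algebra 𝒪' 𝒪'') (_ : Module.Finite 𝒪' 𝒪'') (_ : IsLocalHom (algebraMap 𝒪' 𝒪'')),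
      Function.Injective (algebraMap 𝒪' 𝒪'') ∧
      ∃ ρ : GaloisRepAdic 𝒪'',
        (∀ ℓ : ℕ, ℓ.Prime → ¬ ℓ ∣ N → ℓ ∉ S →
          ∀ A : ValuationSubring (AlgebraicClosure ℚ), A.LiesOverPrime ℓ →
            ∀ σ : AlgebraicClosure ℚ ≃ₐ[ℚ] AlgebraicClosure ℚ, A.IsFrobeniusAt σ ℓ →
              LinearMap.charpoly (ρ.ρ σ) =
                X ^ 2 - C (algebraMap 𝒪' 𝒪'' (a ℓ)) * X + C ((ℓ : 𝒪''))) ∧
        (∀ q : ℕ, q.Prime → ¬ q ∣ N → q ≠ p → ρ.IsUnramifiedAt q) := by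
  classical
  -- the eigen-submodule
  let P : ℕ → Prop := fun ℓ => ℓ.Prime ∧ ¬ ℓ ∣ N ∧ ℓ ∉ S
  have hcommP : ∀ ℓ, P ℓ → ∀ σ : Γℚ, T ℓ * ρ₀ σ = ρ₀ σ * T ℓ :=
    fun ℓ h σ => hcomm ℓ h.1 h.2.1 h.2.2 σ
  have hfreeY : Module.Free 𝒪' (eigenSub T a P) := eigenSub_free T a P
  have hfinY : Module.Finite 𝒪' (eigenSub T a P) := eigenSub_finite T a P
  have hxY : x ∈ eigenSub T a P :=
    (mem_eigenSub T a P).2 fun ℓ h => heig ℓ h.1 h.2.1 h.2.2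
  have hntY : Nontrivial (eigenSub T a P) :=
    ⟨⟨⟨x, hxY⟩, 0, fun h => hx (congrArg Subtype.val h)⟩⟩
  -- the cyclotomic character with values in `𝒪'`
  obtain ⟨ι⟩ := exists_padicInt_ringHom p 𝒪' hp𝒪'
  let ε : Γℚ →* 𝒪'ˣ := (Units.map (ι : ℤ_[p] →* 𝒪')).comp (cycloPadic p)
  have hεval : ∀ σ : Γℚ, ((ε σ : 𝒪'ˣ) : 𝒪') = ι ((cycloPadic p σ : ℤ_[p]ˣ) : ℤ_[p]) :=
    fun σ => rfl
  have hεfrob : ∀ ℓ : ℕ, ℓ.Prime → ℓ ≠ p →
      ∀ A : ValuationSubring (AlgebraicClosure ℚ), A.LiesOverPrime ℓ →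
        ∀ σ : Γℚ, A.IsFrobeniusAt σ ℓ → ((ε σ : 𝒪'ˣ) : 𝒪') = (ℓ : 𝒪') := by
    intro ℓ hℓ hℓp A hA σ hσ
    rw [hεval, cycloPadic_frobenius p hℓ hℓp hA hσ, map_natCast]
  have hεinert : ∀ q : ℕ, q.Prime → q ≠ p →
      ∀ A : ValuationSubring (AlgebraicClosure ℚ), A.LiesOverPrime q →
        ∀ τ ∈ A.inertiaSubgroupIn ℚ, ε τ = 1 := by
    intro q hq hqp A hA τ hτ
    show (Units.map (ι : ℤ_[p] →* 𝒪')) (cycloPadic p τ) = 1
    rw [cycloPadic_inertia p hq hqp hA hτ, map_one]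
  have hεcont : ∀ n : ℕ, ∃ L : IntermediateField ℚ (AlgebraicClosure ℚ),
      FiniteDimensional ℚ L ∧
      ∀ σ : Γℚ, (∀ y ∈ L, σ y = y) → ((ε σ : 𝒪'ˣ) : 𝒪') - 1 ∈ maximalIdeal 𝒪' ^ n := by
    intro n
    obtain ⟨L, hL, h⟩ := exists_finiteLevel_cycloPadic p n
    refine ⟨L, hL, fun σ hσ => ?_⟩
    obtain ⟨z, hz⟩ := Ideal.mem_span_singleton'.1 (h σ hσ)
    rw [hεval, ← map_one ι, ← map_sub, ← hz, map_mul, map_pow, map_natCast]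
    exact Ideal.mul_mem_left _ _ (Ideal.pow_mem_pow hp𝒪' n)
  -- the exceptional set
  let S' : Finset ℕ := S ∪ N.primeFactors
  have hS' : ∀ ℓ : ℕ, ℓ.Prime → ℓ ∉ S' → P ℓ ∧ ℓ ≠ p := by
    intro ℓ hℓ hℓS'
    have h1 : ℓ ∉ S := fun h => hℓS' (Finset.mem_union_left _ h)
    have h2 : ¬ ℓ ∣ N := fun h => hℓS' (Finset.mem_union_right _
      (Nat.mem_primeFactors.mpr ⟨hℓ, h, NeZero.ne N⟩))
    exact ⟨⟨hℓ, h2, h1⟩, fun h => h1 (h ▸ hpS)⟩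
  -- the quadratic relations on the eigen-submodule
  have hQ : ∀ g : Γℚ, ∃ t : 𝒪',
      eigenRep T a P ρ₀ hcommP g * eigenRep T a P ρ₀ hcommP g
        - t • eigenRep T a P ρ₀ hcommP g
        + ((ε g : 𝒪'ˣ) : 𝒪') • (1 : Module.End 𝒪' (eigenSub T a P)) = 0 := by
    refine exists_quadratic_of_frobenius 𝒪' (eigenRep T a P ρ₀ hcommP) ε S' a ?_ ?_ ?_ hεcont
    · intro ℓ hℓ hℓS' A hA σ hσ
      obtain ⟨hP, -⟩ := hS' ℓ hℓ hℓS'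
      exact eigenRep_quadratic T a P ρ₀ hcommP hP (hfrob ℓ hP.1 hP.2.1 hP.2.2 A hA σ hσ)
    · intro ℓ hℓ hℓS' A hA σ hσ
      exact hεfrob ℓ hℓ (hS' ℓ hℓ hℓS').2 A hA σ hσ
    · intro n
      obtain ⟨L, hL, h⟩ := hcont n
      exact ⟨L, hL, fun σ hσ => eigenRep_sub_mem T a P ρ₀ hcommP (h σ hσ)⟩
  -- descent to a lattice over a finite extension
  obtain ⟨𝒪'', i1, i2, i3, i4, i5, i6, i7, i8, i9, V, j1, j2, j3, j4, ρ', hinj, hfr, hchar,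
    hcontV, hone⟩ := exists_lattice_rep 𝒪' (eigenRep T a P ρ₀ hcommP) ε hQ
  refine ⟨𝒪'', i1, i2, i3, i4, i5, i6, i7, i8, i9, hinj,
    { V := V, finrank_eq := hfr, ρ := ρ', isAdicContinuous := ?_ }, ?_, ?_⟩
  · -- continuity
    intro n
    obtain ⟨L₁, hL₁, h₁⟩ := hcont n
    obtain ⟨L₂, hL₂, h₂⟩ := hεcont n
    refine ⟨L₁ ⊔ L₂, inferInstance, fun σ hσ => ?_⟩
    refine hcontV σ n ?_ ?_
    · exact eigenRep_sub_mem T a P ρ₀ hcommP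
        (h₁ σ fun y hy => hσ y ((le_sup_left : L₁ ≤ L₁ ⊔ L₂) hy))
    · exact h₂ σ fun y hy => hσ y ((le_sup_right : L₂ ≤ L₁ ⊔ L₂) hy)
  · -- Frobenius characteristic polynomials
    intro ℓ hℓ hℓN hℓS A hA σ hσ
    have hP : P ℓ := ⟨hℓ, hℓN, hℓS⟩
    have hℓp : ℓ ≠ p := fun h => hℓS (h ▸ hpS)
    have hε := hεfrob ℓ hℓ hℓp A hA σ hσ
    have hrel := eigenRep_quadratic T a P ρ₀ hcommP hP (hfrob ℓ hℓ hℓN hℓS A hA σ hσ)
    rw [← hε] at hrel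
    have := hchar σ (a ℓ) hrel
    rw [hε, map_natCast] at this
    exact this
  · -- unramified outside `Np`
    intro q hq hqN hqp A hA τ hτ
    exact hone τ (eigenRep_eq_one T a P ρ₀ hcommP (hinert q hq hqN hqp A hA τ hτ))
      (hεinert q hq hqp A hA τ hτ)

end Fermat.Agent.S30
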