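import Mathlib
import Fermat.Prelude.Def_CuspForm_HeckeGaloisRepDatum
import Fermat.Prelude.Def_FLTPrelim_Ramification
import Fermat.Prelude.Def_EllipticCurve_FrobeniusTrace
import Fermat.Agent.S30.AdicCore

set_option autoImplicit false

/-!
# P15 (S30), part (B′), module BC: base change of a `ℤ_[p]`-lattice datum to `𝒪′`

`exists_adicRep_of_padic_datum`: a finite free `ℤ_[p]`-module `T` with a Galois action `gal` and
Hecke operators `hecke ℓ` (commuting with Galois, Eichler–Shimura relation at Frobenius elements,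
trivial inertia, `p`-adic continuity) together with a nonzero eigenvector `x ∈ 𝒪′ ⊗[ℤ_[p]] T` of
the base-changed Hecke operators yields the hypotheses of the abstract core
`exists_adicRep_of_eigenvector` for `M := 𝒪′ ⊗[ℤ_[p]] T`.

The base-change bookkeeping (`abc_*`) is done for an arbitrary algebra `R → B` and an arbitrary
`R`-module `T`.
-/

namespace Fermat.Agent.S30

open Polynomial IsLocalRing TensorProduct

local notation "Γℚ" => (AlgebraicClosure ℚ ≃ₐ[ℚ] AlgebraicClosure ℚ)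

section Generic

variable {G : Type*} [Monoid G] {R : Type*} [CommRing R] (B : Type*) [CommRing B] [Algebra R B]
  {T : Type*} [AddCommGroup T] [Module R T]

/-- Base change to `B` of a monoid action by `R`-linear endomorphisms. -/
noncomputable def abc_rep (gal : G →* Module.End R T) : G →* Module.End B (B ⊗[R] T) where
  toFun σ := (gal σ).baseChange B
  map_one' := by rw [map_one, LinearMap.baseChange_one]
  map_mul' σ τ := by rw [map_mul, LinearMap.baseChange_mul]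

theorem abc_rep_apply (gal : G →* Module.End R T) (σ : G) :
    abc_rep B gal σ = (gal σ).baseChange B :=
  rfl

/-- Commuting endomorphisms have commuting base changes. -/
theorem abc_comm (f g : Module.End R T) (h : f * g = g * f) :
    f.baseChange B * g.baseChange B = g.baseChange B * f.baseChange B := by
  rw [← LinearMap.baseChange_mul, ← LinearMap.baseChange_mul, h]

/-- Base change of a quadratic relation `f² - t f + ℓ = 0`. -/
theorem abc_frob (f t : Module.End R T) (ℓ : ℕ)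
    (h : f * f - t * f + (ℓ : R) • (1 : Module.End R T) = 0) :
    f.baseChange B * f.baseChange B - t.baseChange B * f.baseChange B
      + (ℓ : B) • (1 : Module.End B (B ⊗[R] T)) = 0 := by
  have h1 := congrArg (LinearMap.baseChange B) h
  rw [LinearMap.baseChange_add, LinearMap.baseChange_sub, LinearMap.baseChange_mul,
    LinearMap.baseChange_mul, LinearMap.baseChange_smul, LinearMap.baseChange_one,
    LinearMap.baseChange_zero, Nat.cast_smul_eq_nsmul] at h1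
  rw [Nat.cast_smul_eq_nsmul]
  exact h1

/-- If `f φ - φ ∈ r T` for all `φ` and the image of `r` lies in the ideal `I` of `B`, then the
base change of `f` is congruent to the identity modulo `I`. -/
theorem abc_cont (I : Ideal B) (r : R) (hr : algebraMap R B r ∈ I) (f : Module.End R T)
    (h : ∀ φ : T, ∃ θ : T, f φ - φ = r • θ) (v : B ⊗[R] T) :
    f.baseChange B v - v ∈ I • (⊤ : Submodule B (B ⊗[R] T)) := by
  induction v using TensorProduct.induction_on with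
  | zero =>
    rw [map_zero, sub_zero]
    exact Submodule.zero_mem _
  | tmul c φ =>
    obtain ⟨θ, hθ⟩ := h φ
    rw [LinearMap.baseChange_tmul, ← TensorProduct.tmul_sub, hθ, TensorProduct.tmul_smul,
      ← algebraMap_smul B r (c ⊗ₜ[R] θ)]
    exact Submodule.smul_mem_smul hr Submodule.mem_top
  | add x y hx hy =>
    rw [map_add, add_sub_add_comm]
    exact Submodule.add_mem _ hx hy

end Generic

theorem exists_adicRep_of_padic_datum
    (p : ℕ) [Fact p.Prime] (N : ℕ) [NeZero N] (S : Finset ℕ) (hpS : p ∈ S)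
    (𝒪' : Type) [CommRing 𝒪'] [IsDomain 𝒪'] [IsDiscreteValuationRing 𝒪']
    [IsAdicComplete (maximalIdeal 𝒪') 𝒪'] [Finite (ResidueField 𝒪')]
    [CharZero 𝒪'] (hp𝒪' : (p : 𝒪') ∈ maximalIdeal 𝒪') [Algebra ℤ_[p] 𝒪']
    {T : Type} [AddCommGroup T] [Module ℤ_[p] T] [Module.Finite ℤ_[p] T] [Module.Free ℤ_[p] T]
    (gal : Γℚ →* Module.End ℤ_[p] T) (hecke : ℕ → Module.End ℤ_[p] T) (a : ℕ → 𝒪')
    (x : 𝒪' ⊗[ℤ_[p]] T) (hx : x ≠ 0)
    (heig : ∀ ℓ : ℕ, ℓ.Prime → ¬ ℓ ∣ N → ℓ ∉ S → (hecke ℓ).baseChange 𝒪' x = a ℓ • x)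
    (hcomm : ∀ ℓ : ℕ, ℓ.Prime → ¬ ℓ ∣ N → ℓ ∉ S → ∀ σ : Γℚ, hecke ℓ * gal σ = gal σ * hecke ℓ)
    (hfrob : ∀ ℓ : ℕ, ℓ.Prime → ¬ ℓ ∣ N → ℓ ∉ S →
      ∀ A : ValuationSubring (AlgebraicClosure ℚ), A.LiesOverPrime ℓ →
        ∀ σ : Γℚ, A.IsFrobeniusAt σ ℓ →
          gal σ * gal σ - hecke ℓ * gal σ + (ℓ : ℤ_[p]) • (1 : Module.End ℤ_[p] T) = 0)
    (hinert : ∀ q : ℕ, q.Prime → ¬ q ∣ N → q ≠ p →
      ∀ A : ValuationSubring (AlgebraicClosure ℚ), A.LiesOverPrime q →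
        ∀ τ ∈ A.inertiaSubgroupIn ℚ, gal τ = 1)
    (hcont : ∀ n : ℕ, ∃ L : IntermediateField ℚ (AlgebraicClosure ℚ), FiniteDimensional ℚ L ∧
      ∀ σ : Γℚ, (∀ y ∈ L, σ y = y) →
        ∀ φ : T, ∃ θ : T, gal σ φ - φ = (p : ℤ_[p]) ^ n • θ) :
    ∃ (𝒪'' : Type) (_ : CommRing 𝒪'') (_ : IsDomain 𝒪'') (_ : IsDiscreteValuationRing 𝒪'')
        (_ : IsAdicComplete (IsLocalRing.maximalIdeal 𝒪'') 𝒪'')
        (_ : Finite (IsLocalRing.ResidueField 𝒪'')) (_ : CharZero 𝒪'')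
        (_ : Algebra 𝒪' 𝒪'') (_ : Module.Finite 𝒪' 𝒪'') (_ : IsLocalHom (algebraMap 𝒪' 𝒪'')),
      Function.Injective (algebraMap 𝒪' 𝒪'') ∧
      ∃ ρ : GaloisRepAdic 𝒪'',
        (∀ ℓ : ℕ, ℓ.Prime → ¬ ℓ ∣ N → ℓ ∉ S →
          ∀ A : ValuationSubring (AlgebraicClosure ℚ), A.LiesOverPrime ℓ →
            ∀ σ : AlgebraicClosure ℚ ≃ₐ[ℚ] AlgebraicClosure ℚ, A.IsFrobeniusAt σ ℓ →
              LinearMap.charpoly (ρ.ρ σ) =
                X ^ 2 - C (algebraMap 𝒪' 𝒪'' (a ℓ)) * X + C ((ℓ : 𝒪''))) ∧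
        (∀ q : ℕ, q.Prime → ¬ q ∣ N → q ≠ p → ρ.IsUnramifiedAt q) := by
  have hpn : ∀ n : ℕ, algebraMap ℤ_[p] 𝒪' ((p : ℤ_[p]) ^ n) ∈ maximalIdeal 𝒪' ^ n := by
    intro n
    rw [map_pow, map_natCast]
    exact Ideal.pow_mem_pow hp𝒪' n
  refine exists_adicRep_of_eigenvector p N S hpS 𝒪' hp𝒪' (abc_rep 𝒪' gal)
    (fun ℓ => (hecke ℓ).baseChange 𝒪') a x hx heig ?_ ?_ ?_ ?_
  · intro ℓ hℓ hℓN hℓS σ
    exact abc_comm 𝒪' (hecke ℓ) (gal σ) (hcomm ℓ hℓ hℓN hℓS σ)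
  · intro ℓ hℓ hℓN hℓS A hA σ hσ
    exact abc_frob 𝒪' (gal σ) (hecke ℓ) ℓ (hfrob ℓ hℓ hℓN hℓS A hA σ hσ)
  · intro q hq hqN hqp A hA τ hτ
    rw [abc_rep_apply, hinert q hq hqN hqp A hA τ hτ, LinearMap.baseChange_one]
  · intro n
    obtain ⟨L, hL, h⟩ := hcont n
    exact ⟨L, hL, fun σ hσ v => abc_cont 𝒪' _ _ (hpn n) (gal σ) (h σ hσ) v⟩

end Fermat.Agent.S30
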