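import Fermat.Agent.S42.HeckeCosets
import Fermat.Agent.S42.AssemblyACore

/-!
# P15 (S30), part (A′): shared definitions

* `Hp N p`      : the `ℤ_p`-module of cuspidal additive characters `Γ₀(N) → ℤ_p` (the lattice `T`),
                  as a submodule of the functions `Γ₀(N) → ℤ_p`; `Hp.hom φ` is the corresponding
                  additive map `Additive Γ₀(N) →+ ℤ_p`, `Hp.ofHom` the converse;
* `redHom N p n`: reduction of a character modulo `p ^ n`;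
* `heckeFun`    : the Hecke transform `T_ℓ` (`ℓ ∤ N`) of an additive character of `Γ₀(N)`;
* `heckeHp`     : the Hecke operator `T_ℓ` on `Hp N p`;
* `IsTateDatum` : interface (I1) — a Galois action on `Hp N p` with the Eichler–Shimura relation,
                  trivial inertia and adic continuity;
* `EigenTensor` : interface (I2) — an eigenvector for a character `χ` of the Hecke algebra in
                  `𝒪' ⊗ Hp N p`.
-/

set_option autoImplicit false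

namespace Fermat.Agent.S30

open Fermat.Agent.S42 CongruenceSubgroup TensorProduct
open scoped MatrixGroups

/-- The `ℤ_p`-module of cuspidal additive characters `Γ₀(N) → ℤ_p`, as a submodule of the module
of all functions `Γ₀(N) → ℤ_p`. -/
def Hp (N p : ℕ) [Fact p.Prime] : Submodule ℤ_[p] (↥(Gamma0 N) → ℤ_[p]) where
  carrier := {f | (∀ a b : ↥(Gamma0 N), f (a * b) = f a + f b) ∧
    ∀ γ : ↥(Gamma0 N), ((γ : SL(2, ℤ)) : Matrix (Fin 2) (Fin 2) ℤ).trace ^ 2 ≤ 4 → f γ = 0}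
  add_mem' := by
    rintro f g ⟨hf, hf'⟩ ⟨hg, hg'⟩
    refine ⟨fun a b => ?_, fun γ hγ => ?_⟩
    · show f (a * b) + g (a * b) = f a + g a + (f b + g b)
      rw [hf, hg]; abel
    · show f γ + g γ = 0
      rw [hf' γ hγ, hg' γ hγ, add_zero]
  zero_mem' := ⟨fun _ _ => (add_zero (0 : ℤ_[p])).symm, fun _ _ => rfl⟩
  smul_mem' := by
    rintro c f ⟨hf, hf'⟩
    refine ⟨fun a b => ?_, fun γ hγ => ?_⟩
    · show c * f (a * b) = c * f a + c * f b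
      rw [hf, mul_add]
    · show c * f γ = 0
      rw [hf' γ hγ, mul_zero]

namespace Hp

variable {N p : ℕ} [Fact p.Prime]

/-- The additive map `Additive Γ₀(N) →+ ℤ_p` underlying an element of `Hp N p`. -/
noncomputable def hom (φ : Hp N p) : Additive ↥(Gamma0 N) →+ ℤ_[p] where
  toFun γ := (φ : ↥(Gamma0 N) → ℤ_[p]) (Additive.toMul γ)
  map_zero' := by
    have h := φ.2.1 1 1
    rw [mul_one] at h
    have h2 : (φ : ↥(Gamma0 N) → ℤ_[p]) 1 = 0 := by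
      have := congrArg (fun x => x - (φ : ↥(Gamma0 N) → ℤ_[p]) 1) h
      simpa using this.symm
    exact h2
  map_add' a b := φ.2.1 (Additive.toMul a) (Additive.toMul b)

@[simp] theorem hom_apply (φ : Hp N p) (γ : Additive ↥(Gamma0 N)) :
    hom φ γ = (φ : ↥(Gamma0 N) → ℤ_[p]) (Additive.toMul γ) := rfl

theorem isCuspidalHom_hom (φ : Hp N p) : IsCuspidalHom N (hom φ) :=
  fun γ hγ => φ.2.2 γ hγ

theorem hom_injective : Function.Injective (hom : Hp N p → Additive ↥(Gamma0 N) →+ ℤ_[p]) := by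
  intro φ ψ h
  apply Subtype.ext
  funext γ
  exact DFunLike.congr_fun h (Additive.ofMul γ)

@[simp] theorem hom_add (φ ψ : Hp N p) : hom (φ + ψ) = hom φ + hom ψ := rfl

@[simp] theorem hom_zero : hom (0 : Hp N p) = 0 := rfl

@[simp] theorem hom_sub (φ ψ : Hp N p) : hom (φ - ψ) = hom φ - hom ψ := rfl

@[simp] theorem hom_neg (φ : Hp N p) : hom (-φ) = -hom φ := rfl

theorem hom_smul (c : ℤ_[p]) (φ : Hp N p) :
    hom (c • φ) = (AddMonoidHom.mulLeft c).comp (hom φ) := rfl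

/-- A cuspidal additive character `Γ₀(N) → ℤ_p` as an element of `Hp N p`. -/
noncomputable def ofHom (ψ : Additive ↥(Gamma0 N) →+ ℤ_[p]) (h : IsCuspidalHom N ψ) : Hp N p :=
  ⟨fun γ => ψ (Additive.ofMul γ), fun a b => map_add ψ (Additive.ofMul a) (Additive.ofMul b),
    fun γ hγ => h γ hγ⟩

@[simp] theorem hom_ofHom (ψ : Additive ↥(Gamma0 N) →+ ℤ_[p]) (h : IsCuspidalHom N ψ) :
    hom (ofHom ψ h) = ψ := rfl

@[simp] theorem ofHom_hom (φ : Hp N p) : ofHom (hom φ) (isCuspidalHom_hom φ) = φ := rfl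

end Hp

/-- Reduction of an additive character `Γ₀(N) → ℤ_p` modulo `p ^ n`. -/
noncomputable def redHom (N p : ℕ) [Fact p.Prime] (n : ℕ) (φ : Additive ↥(Gamma0 N) →+ ℤ_[p]) :
    Additive ↥(Gamma0 N) →+ ZMod (p ^ n) :=
  (PadicInt.toZModPow n).toAddMonoidHom.comp φ

@[simp] theorem redHom_apply (N p : ℕ) [Fact p.Prime] (n : ℕ)
    (φ : Additive ↥(Gamma0 N) →+ ℤ_[p]) (γ : Additive ↥(Gamma0 N)) :
    redHom N p n φ γ = PadicInt.toZModPow n (φ γ) := rfl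

/-- The Hecke transform of an additive character of `Γ₀(N)` with values in any abelian group. -/
noncomputable def heckeFun (N ℓ : ℕ) (hℓ : ℓ.Prime) (hℓN : ¬ ℓ ∣ N) {A : Type*} [AddCommGroup A]
    (φ : Additive ↥(Gamma0 N) →+ A) : Additive ↥(Gamma0 N) →+ A :=
  Classical.choose (exists_isHeckeTransform hℓ hℓN φ)

theorem isHeckeTransform_heckeFun (N ℓ : ℕ) (hℓ : ℓ.Prime) (hℓN : ¬ ℓ ∣ N) {A : Type*}
    [AddCommGroup A] (φ : Additive ↥(Gamma0 N) →+ A) :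
    IsHeckeTransform N ℓ φ (heckeFun N ℓ hℓ hℓN φ) :=
  Classical.choose_spec (exists_isHeckeTransform hℓ hℓN φ)

theorem heckeFun_eq {N ℓ : ℕ} (hℓ : ℓ.Prime) (hℓN : ¬ ℓ ∣ N) {A : Type*} [AddCommGroup A]
    {φ φ' : Additive ↥(Gamma0 N) →+ A} (h : IsHeckeTransform N ℓ φ φ') :
    heckeFun N ℓ hℓ hℓN φ = φ' :=
  isHeckeTransform_unique hℓ hℓN (isHeckeTransform_heckeFun N ℓ hℓ hℓN φ) h

theorem heckeFun_add {N ℓ : ℕ} (hℓ : ℓ.Prime) (hℓN : ¬ ℓ ∣ N) {A : Type*} [AddCommGroup A]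
    (φ ψ : Additive ↥(Gamma0 N) →+ A) :
    heckeFun N ℓ hℓ hℓN (φ + ψ) = heckeFun N ℓ hℓ hℓN φ + heckeFun N ℓ hℓ hℓN ψ :=
  heckeFun_eq hℓ hℓN (AssemblyA.isHeckeTransform_add (isHeckeTransform_heckeFun N ℓ hℓ hℓN φ)
    (isHeckeTransform_heckeFun N ℓ hℓ hℓN ψ))

/-- The Hecke transform commutes with post-composition by an additive map. -/
theorem heckeFun_comp {N ℓ : ℕ} (hℓ : ℓ.Prime) (hℓN : ¬ ℓ ∣ N) {A B : Type*} [AddCommGroup A]
    [AddCommGroup B] (f : A →+ B) (φ : Additive ↥(Gamma0 N) →+ A) :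
    heckeFun N ℓ hℓ hℓN (f.comp φ) = f.comp (heckeFun N ℓ hℓ hℓN φ) :=
  heckeFun_eq hℓ hℓN (AssemblyA.isHeckeTransform_comp f (isHeckeTransform_heckeFun N ℓ hℓ hℓN φ))

/-- The reduction modulo `p ^ n` of the Hecke transform is the Hecke transform of the
reduction. -/
theorem redHom_heckeFun (N p ℓ : ℕ) [Fact p.Prime] (hℓ : ℓ.Prime) (hℓN : ¬ ℓ ∣ N) (n : ℕ)
    (φ : Additive ↥(Gamma0 N) →+ ℤ_[p]) :
    redHom N p n (heckeFun N ℓ hℓ hℓN φ) = heckeFun N ℓ hℓ hℓN (redHom N p n φ) :=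
  (heckeFun_comp hℓ hℓN (PadicInt.toZModPow n).toAddMonoidHom φ).symm

/-- The Hecke operator `T_ℓ` on `Hp N p`: `Hp.hom (heckeHp … φ) = heckeFun … (Hp.hom φ)`
(`hom_heckeHp_of`; the Hecke transform preserves cuspidal characters, `HeckeCusp.lean`). -/
noncomputable def heckeHp (N p ℓ : ℕ) [Fact p.Prime] (hℓ : ℓ.Prime) (hℓN : ¬ ℓ ∣ N) :
    Module.End ℤ_[p] (Hp N p) :=
  open Classical in
  if h : ∀ φ : Hp N p, IsCuspidalHom N (heckeFun N ℓ hℓ hℓN (Hp.hom φ)) then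
    { toFun := fun φ => Hp.ofHom _ (h φ)
      map_add' := by
        intro φ ψ
        apply Hp.hom_injective
        show heckeFun N ℓ hℓ hℓN (Hp.hom (φ + ψ))
          = heckeFun N ℓ hℓ hℓN (Hp.hom φ) + heckeFun N ℓ hℓ hℓN (Hp.hom ψ)
        rw [Hp.hom_add, heckeFun_add]
      map_smul' := by
        intro c φ
        apply Hp.hom_injective
        show heckeFun N ℓ hℓ hℓN (Hp.hom (c • φ))
          = (AddMonoidHom.mulLeft c).comp (heckeFun N ℓ hℓ hℓN (Hp.hom φ))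
        rw [Hp.hom_smul, heckeFun_comp] }
  else 0

theorem hom_heckeHp_of {N p ℓ : ℕ} [Fact p.Prime] (hℓ : ℓ.Prime) (hℓN : ¬ ℓ ∣ N)
    (h : ∀ φ : Hp N p, IsCuspidalHom N (heckeFun N ℓ hℓ hℓN (Hp.hom φ))) (φ : Hp N p) :
    Hp.hom (heckeHp N p ℓ hℓ hℓN φ) = heckeFun N ℓ hℓ hℓN (Hp.hom φ) := by
  unfold heckeHp
  rw [dif_pos h]
  rfl

/-- Interface (I1): `gal` is a Galois action on the lattice `Hp N p` commuting with the Hecke
operators, satisfying the Eichler–Shimura relation at every Frobenius lift at `ℓ ∤ N p`, trivial on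
inertia at `q ∤ N p`, and adically continuous. -/
def IsTateDatum (N p : ℕ) [NeZero N] [Fact p.Prime]
    (gal : (AlgebraicClosure ℚ ≃ₐ[ℚ] AlgebraicClosure ℚ) →* Module.End ℤ_[p] (Hp N p)) : Prop :=
  (∀ (ℓ : ℕ) (hℓ : ℓ.Prime) (hℓN : ¬ ℓ ∣ N), ¬ ℓ ∣ N * p →
      ∀ σ : AlgebraicClosure ℚ ≃ₐ[ℚ] AlgebraicClosure ℚ,
        gal σ * heckeHp N p ℓ hℓ hℓN = heckeHp N p ℓ hℓ hℓN * gal σ) ∧
  (∀ (ℓ : ℕ) (hℓ : ℓ.Prime) (hℓN : ¬ ℓ ∣ N), ¬ ℓ ∣ N * p →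
      ∀ A : ValuationSubring (AlgebraicClosure ℚ), A.LiesOverPrime ℓ →
        ∀ σ : AlgebraicClosure ℚ ≃ₐ[ℚ] AlgebraicClosure ℚ, A.IsFrobeniusAt σ ℓ →
          gal σ * gal σ - heckeHp N p ℓ hℓ hℓN * gal σ
            + (ℓ : ℤ_[p]) • (1 : Module.End ℤ_[p] (Hp N p)) = 0) ∧
  (∀ q : ℕ, q.Prime → ¬ q ∣ N * p →
      ∀ A : ValuationSubring (AlgebraicClosure ℚ), A.LiesOverPrime q →
        ∀ τ ∈ A.inertiaSubgroupIn ℚ, gal τ = 1) ∧
  (∀ n : ℕ, ∃ L : IntermediateField ℚ (AlgebraicClosure ℚ), FiniteDimensional ℚ L ∧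
      ∀ σ : AlgebraicClosure ℚ ≃ₐ[ℚ] AlgebraicClosure ℚ, (∀ y ∈ L, σ y = y) →
        ∀ φ : Hp N p, ∃ θ : Hp N p, gal σ φ - φ = (p : ℤ_[p]) ^ n • θ)

/-- Interface (I2): the eigensystem `χ` occurs in `𝒪' ⊗ Hp N p`. -/
def EigenTensor (N p : ℕ) [NeZero N] [Fact p.Prime] (S : Set ℕ)
    (𝒪' : Type) [CommRing 𝒪'] [Algebra ℤ_[p] 𝒪']
    (χ : CuspForm.heckeAlgebra N 2 S →+* 𝒪') : Prop :=
  ∃ x : 𝒪' ⊗[ℤ_[p]] (Hp N p), x ≠ 0 ∧
    ∀ (ℓ : ℕ) (hℓ : ℓ.Prime) (hℓN : ¬ ℓ ∣ N) (hℓS : ℓ ∉ S),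
      ((heckeHp N p ℓ hℓ hℓN).baseChange 𝒪') x = χ (CuspForm.heckeAlgebra.T hℓ hℓN hℓS) • x

end Fermat.Agent.S30
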