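import Fermat.Agent.S30.TateDefs
import Fermat.Agent.S42.GammaFG

/-!
# P15 (S30), part (A′): finiteness and freeness of the lattice `Hp N p`

`Γ₀(N)` is finitely generated, so an additive character of `Γ₀(N)` is determined by its values
on a finite generating set. Hence

* `finite_hom_zmod` : there are finitely many additive characters `Γ₀(N) → ℤ/m`;
* `instFiniteHp`    : `Hp N p` is a finitely generated `ℤ_p`-module (it embeds into a finite
                      power of the Noetherian ring `ℤ_p`);
* `instFreeHp`      : `Hp N p` is free (finitely generated and torsion-free over a PID).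
-/

set_option autoImplicit false

namespace Fermat.Agent.S30

open Fermat.Agent.S42 CongruenceSubgroup
open scoped MatrixGroups

namespace TateFree

/-- Two additive characters of a group which agree on a generating set are equal. -/
theorem hom_eq_of_closure {G : Type*} [Group G] {A : Type*} [AddCommGroup A] {S : Set G}
    (hS : Subgroup.closure S = ⊤) {φ ψ : Additive G →+ A}
    (h : ∀ g ∈ S, φ (Additive.ofMul g) = ψ (Additive.ofMul g)) : φ = ψ := by
  have h0 : φ - ψ = 0 :=
    AssemblyA.hom_eq_zero_of_closure hS (φ - ψ) (fun g hg => by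
      rw [AddMonoidHom.sub_apply, h g hg, sub_self])
  exact sub_eq_zero.mp h0

/-- Restriction of the elements of `Hp N p` to a subset of `Γ₀(N)`, as a linear map. -/
noncomputable def resLin (N p : ℕ) [Fact p.Prime] (S₀ : Set ↥(Gamma0 N)) :
    Hp N p →ₗ[ℤ_[p]] (↥S₀ → ℤ_[p]) where
  toFun φ := fun g => (φ : ↥(Gamma0 N) → ℤ_[p]) (g : ↥(Gamma0 N))
  map_add' _ _ := rfl
  map_smul' _ _ := rfl

theorem resLin_apply (N p : ℕ) [Fact p.Prime] (S₀ : Set ↥(Gamma0 N)) (φ : Hp N p) (g : ↥S₀) :
    resLin N p S₀ φ g = (φ : ↥(Gamma0 N) → ℤ_[p]) (g : ↥(Gamma0 N)) := rfl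

/-- Restriction to a generating set is injective on `Hp N p`. -/
theorem resLin_injective (N p : ℕ) [Fact p.Prime] {S₀ : Set ↥(Gamma0 N)}
    (hS₀ : Subgroup.closure S₀ = ⊤) : Function.Injective (resLin N p S₀) := by
  intro φ ψ h
  apply Hp.hom_injective
  apply hom_eq_of_closure hS₀
  intro g hg
  exact congrFun h ⟨g, hg⟩

end TateFree

/-- There are finitely many additive characters `Γ₀(N) → ℤ/m`. -/
theorem finite_hom_zmod (N m : ℕ) [NeZero N] [NeZero m] :
    Finite (Additive ↥(Gamma0 N) →+ ZMod m) := by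
  obtain ⟨S₀, hS₀, hfin⟩ := Group.fg_iff.mp (gamma0_fg N)
  have : Finite ↥S₀ := hfin.to_subtype
  let ev : (Additive ↥(Gamma0 N) →+ ZMod m) → (↥S₀ → ZMod m) :=
    fun φ g => φ (Additive.ofMul (g : ↥(Gamma0 N)))
  have hev : Function.Injective ev := by
    intro φ ψ h
    apply TateFree.hom_eq_of_closure hS₀
    intro g hg
    exact congrFun h ⟨g, hg⟩
  exact Finite.of_injective ev hev

/-- `Hp N p` is a finitely generated `ℤ_p`-module. -/
instance instFiniteHp (N p : ℕ) [NeZero N] [Fact p.Prime] : Module.Finite ℤ_[p] (Hp N p) := by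
  obtain ⟨S₀, hS₀, hfin⟩ := Group.fg_iff.mp (gamma0_fg N)
  have : Finite ↥S₀ := hfin.to_subtype
  exact Module.Finite.of_injective (TateFree.resLin N p S₀) (TateFree.resLin_injective N p hS₀)

/-- `Hp N p` is a free `ℤ_p`-module. -/
instance instFreeHp (N p : ℕ) [NeZero N] [Fact p.Prime] : Module.Free ℤ_[p] (Hp N p) :=
  Module.free_of_finite_type_torsion_free'

end Fermat.Agent.S30
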