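import Mathlib
import Fermat.Statements.S30
import Fermat.Agent.S30.PadicAlg
import Fermat.Agent.S30.AdicBC
import Fermat.Agent.S30.TateDefs
import Fermat.Agent.S30.TateFree

/-!
# P15 (S30): the frozen conclusion from the interface (I1) + (I2)

`s30_of_interface`: given a Galois action on the lattice `Hp N p` of cuspidal characters
`Γ₀(N) → ℤ_p` which is a Tate datum (`IsTateDatum`, interface (I1) of part (A′)), and the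
occurrence of the eigensystem `χ` in `𝒪' ⊗ Hp N p` (`EigenTensor`, interface (I2)), the conclusion
of the frozen statement S30 holds.  The proof applies `exists_adicRep_of_padic_datum` (`AdicBC`)
to `T := Hp N p`, after choosing the structure map `ℤ_[p] →+* 𝒪'` (`PadicAlg`).
-/

set_option autoImplicit false

namespace Fermat.Agent.S30

open Polynomial IsLocalRing TensorProduct

local notation "Γℚ" => (AlgebraicClosure ℚ ≃ₐ[ℚ] AlgebraicClosure ℚ)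

/-- A prime `ℓ ∉ S` not dividing `N` does not divide `N * p` when `p ∈ S`. -/
theorem fin_not_dvd_mul {p N ℓ : ℕ} [Fact p.Prime] {S : Finset ℕ} (hpS : p ∈ S) (hℓ : ℓ.Prime)
    (hℓN : ¬ ℓ ∣ N) (hℓS : ℓ ∉ S) : ¬ ℓ ∣ N * p := by
  intro hd
  rcases (Nat.Prime.dvd_mul hℓ).mp hd with h | h
  · exact hℓN h
  · have hℓp : ℓ = p := (Nat.prime_dvd_prime_iff_eq hℓ Fact.out).mp h
    exact hℓS (hℓp ▸ hpS)

/-- A prime `q ≠ p` not dividing `N` does not divide `N * p`. -/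
theorem fin_not_dvd_mul' {p N q : ℕ} [Fact p.Prime] (hq : q.Prime) (hqN : ¬ q ∣ N)
    (hqp : q ≠ p) : ¬ q ∣ N * p := by
  intro hd
  rcases (Nat.Prime.dvd_mul hq).mp hd with h | h
  · exact hqN h
  · exact hqp ((Nat.prime_dvd_prime_iff_eq hq Fact.out).mp h)

/-- **S30 from the interface of part (A′).** -/
theorem s30_of_interface
    (p : ℕ) [Fact p.Prime] (N : ℕ) [NeZero N] (S : Finset ℕ) (hpS : p ∈ S)
    (𝒪' : Type) [CommRing 𝒪'] [IsDomain 𝒪'] [IsDiscreteValuationRing 𝒪']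
    [IsAdicComplete (maximalIdeal 𝒪') 𝒪'] [Finite (ResidueField 𝒪')]
    [CharZero 𝒪'] (hp𝒪' : (p : 𝒪') ∈ maximalIdeal 𝒪')
    (χ : CuspForm.heckeAlgebra N 2 (↑S : Set ℕ) →+* 𝒪')
    (gal : Γℚ →* Module.End ℤ_[p] (Hp N p)) (hgal : IsTateDatum N p gal)
    (heig : ∀ (_ : Algebra ℤ_[p] 𝒪'), EigenTensor N p (↑S : Set ℕ) 𝒪' χ) :
    ∃ (𝒪'' : Type) (_ : CommRing 𝒪'') (_ : IsDomain 𝒪'') (_ : IsDiscreteValuationRing 𝒪'')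
        (_ : IsAdicComplete (IsLocalRing.maximalIdeal 𝒪'') 𝒪'')
        (_ : Finite (IsLocalRing.ResidueField 𝒪'')) (_ : CharZero 𝒪'')
        (_ : Algebra 𝒪' 𝒪'') (_ : Module.Finite 𝒪' 𝒪'') (_ : IsLocalHom (algebraMap 𝒪' 𝒪'')),
      Function.Injective (algebraMap 𝒪' 𝒪'') ∧
      ∃ ρ : GaloisRepAdic 𝒪'',
        (∀ (ℓ : ℕ) (hℓ : ℓ.Prime) (hℓN : ¬ ℓ ∣ N) (hℓS : ℓ ∉ (↑S : Set ℕ)),
          ∀ A : ValuationSubring (AlgebraicClosure ℚ), A.LiesOverPrime ℓ →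
            ∀ σ : AlgebraicClosure ℚ ≃ₐ[ℚ] AlgebraicClosure ℚ, A.IsFrobeniusAt σ ℓ →
              LinearMap.charpoly (ρ.ρ σ) =
                X ^ 2 - C (algebraMap 𝒪' 𝒪'' (χ (CuspForm.heckeAlgebra.T hℓ hℓN hℓS))) * X
                  + C ((ℓ : 𝒪''))) ∧
        (∀ q : ℕ, q.Prime → ¬ q ∣ N → q ≠ p → ρ.IsUnramifiedAt q) := by
  classical
  obtain ⟨ι⟩ := exists_padicInt_ringHom p 𝒪' hp𝒪'
  letI : Algebra ℤ_[p] 𝒪' := ι.toAlgebra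
  obtain ⟨x, hx, hxe⟩ := heig inferInstance
  obtain ⟨hcomm, hfrob, hinert, hcont⟩ := hgal
  -- the Hecke operators and eigenvalues as total functions of `ℓ`
  let hecke : ℕ → Module.End ℤ_[p] (Hp N p) := fun ℓ =>
    if h : ℓ.Prime ∧ ¬ ℓ ∣ N then heckeHp N p ℓ h.1 h.2 else 0
  let a : ℕ → 𝒪' := fun ℓ =>
    if h : ℓ.Prime ∧ ¬ ℓ ∣ N ∧ ℓ ∉ (↑S : Set ℕ) then
      χ (CuspForm.heckeAlgebra.T h.1 h.2.1 h.2.2) else 0
  have hhecke : ∀ (ℓ : ℕ) (hℓ : ℓ.Prime) (hℓN : ¬ ℓ ∣ N), hecke ℓ = heckeHp N p ℓ hℓ hℓN :=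
    fun ℓ hℓ hℓN => dif_pos ⟨hℓ, hℓN⟩
  have ha : ∀ (ℓ : ℕ) (hℓ : ℓ.Prime) (hℓN : ¬ ℓ ∣ N) (hℓS : ℓ ∉ (↑S : Set ℕ)),
      a ℓ = χ (CuspForm.heckeAlgebra.T hℓ hℓN hℓS) :=
    fun ℓ hℓ hℓN hℓS => dif_pos ⟨hℓ, hℓN, hℓS⟩
  obtain ⟨𝒪'', i1, i2, i3, i4, i5, i6, i7, i8, i9, hinj, ρ, hρ, hunr⟩ :=
    exists_adicRep_of_padic_datum p N S hpS 𝒪' hp𝒪' gal hecke a x hx
      (fun ℓ hℓ hℓN hℓS => by
        have hℓS' : ℓ ∉ (↑S : Set ℕ) := fun h => hℓS (Finset.mem_coe.mp h)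
        rw [hhecke ℓ hℓ hℓN, ha ℓ hℓ hℓN hℓS']
        exact hxe ℓ hℓ hℓN hℓS')
      (fun ℓ hℓ hℓN hℓS σ => by
        rw [hhecke ℓ hℓ hℓN]
        exact (hcomm ℓ hℓ hℓN (fin_not_dvd_mul hpS hℓ hℓN hℓS) σ).symm)
      (fun ℓ hℓ hℓN hℓS A hA σ hσ => by
        rw [hhecke ℓ hℓ hℓN]
        exact hfrob ℓ hℓ hℓN (fin_not_dvd_mul hpS hℓ hℓN hℓS) A hA σ hσ)
      (fun q hq hqN hqp A hA τ hτ => hinert q hq (fin_not_dvd_mul' hq hqN hqp) A hA τ hτ)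
      hcont
  refine ⟨𝒪'', i1, i2, i3, i4, i5, i6, i7, i8, i9, hinj, ρ, ?_, hunr⟩
  intro ℓ hℓ hℓN hℓS A hA σ hσ
  have hℓS' : ℓ ∉ S := fun h => hℓS (Finset.mem_coe.mpr h)
  rw [hρ ℓ hℓ hℓN hℓS' A hA σ hσ, ha ℓ hℓ hℓN hℓS]

end Fermat.Agent.S30
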