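import Fermat.Agent.S30.RootQ
import Fermat.Agent.S42.KummerBasic

/-!
# P15 (S30), part (A′): every torsion class is a Kummer class (core)

Let `c ∈ J₀(N)(ℚ̄)` be killed by `m ≠ 0`.  Write `c = [D]`; then `m D = div u` for a function
`u ∈ ℚ̄(X₀(N))`, all of whose place-orders are divisible by `m`, so the analytic realisation of
`u` has an `m`-th root `f` among the meromorphic functions of level `N`
(`exists_root_of_dvd_ord_gen`).  For `γ ∈ Γ₀(N)` the function `f ∘ γ` is again an `m`-th root of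
`u`, hence `f ∘ γ = ζ_m ^ φ(γ) f` for a unique `φ(γ) ∈ ℤ/m`, and `φ` is an additive character of
`Γ₀(N)` (`KummerConverse.exists_char`): `c` is the Kummer class of `φ`.

This is `KummerConverse.exists_isKummer_of_torsion_weak`.  The character `φ` is cuspidal as soon
as `m`-th roots of such functions `u` are invariant under the elements of `Γ₀(N)` of trace square
`≤ 4`; this input (module `CuspConverse`) is a hypothesis of
`KummerConverse.exists_isKummer_of_torsion_of` and is plugged in by `KummerConverse.lean`.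
-/

set_option autoImplicit false

namespace Fermat.Agent.S30

open Fermat.Agent.S24 Fermat.Agent.S42 AlgebraicCurve ModularCurve CongruenceSubgroup
open scoped MatrixGroups

namespace KummerConverse

open Fermat.Agent.S42.KummerBasic

/-- `a ↦ zetaP m ^ a.val` is injective on `ZMod m`. -/
theorem zetaP_pow_val_injective (m : ℕ) [NeZero m] {a b : ZMod m}
    (h : zetaP m ^ a.val = zetaP m ^ b.val) : a = b :=
  ZMod.val_injective m
    ((isPrimitiveRoot_zetaP m (NeZero.ne m)).pow_inj (ZMod.val_lt a) (ZMod.val_lt b) h)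

theorem zetaP_pow_val_natCast (m : ℕ) [NeZero m] (k : ℕ) :
    zetaP m ^ ((k : ZMod m).val) = zetaP m ^ k := by
  rw [ZMod.val_natCast, ← pow_eq_pow_mod _ (zetaP_pow m (NeZero.ne m))]

/-- An `m`-th root of a nonzero function is nonzero. -/
theorem root_ne_zero (N m : ℕ) [NeZero N] [NeZero m] {L : Type*} [Field L] [Algebra ℚ L]
    (ι : L →+* ℂ) (u : FFL L N) (hu : u ≠ 0) (f : MerN N) (hf : f ^ m = realHom N ι u) :
    f ≠ 0 := by
  rintro rfl
  rw [zero_pow (NeZero.ne m)] at hf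
  exact hu ((map_eq_zero (realHom N ι)).mp hf.symm)

/-- An element of `Γ₀(N)` multiplies an `m`-th root of a modular function by an `m`-th root of
unity. -/
theorem exists_mult (N m : ℕ) [NeZero N] [NeZero m] {L : Type*} [Field L] [Algebra ℚ L]
    (ι : L →+* ℂ) (u : FFL L N) (hu : u ≠ 0) (f : MerN N) (hf : f ^ m = realHom N ι u)
    (γ : ↥(Gamma0 N)) :
    ∃ a : ZMod m, act N (γ : SL(2, ℤ)) f = cM N (zetaP m ^ a.val) * f := by
  have hf0 : f ≠ 0 := root_ne_zero N m ι u hu f hf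
  have h : (act N (γ : SL(2, ℤ)) f) ^ m = f ^ m := by
    rw [← map_pow, hf, act_realHom_of_mem N ι _ γ.2]
  obtain ⟨k, hk⟩ := exists_eq_zeta_mul_of_pow_eq m (cMHom N) (NeZero.ne m) hf0 h
  exact ⟨(k : ZMod m), by rw [zetaP_pow_val_natCast, hk, cMHom_apply]⟩

/-- The multipliers of an `m`-th root of a modular function form an additive character of
`Γ₀(N)` with values in `ℤ/m`. -/
theorem exists_char (N m : ℕ) [NeZero N] [NeZero m] {L : Type*} [Field L] [Algebra ℚ L]
    (ι : L →+* ℂ) (u : FFL L N) (hu : u ≠ 0) (f : MerN N) (hf : f ^ m = realHom N ι u) :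
    ∃ φ : Additive ↥(Gamma0 N) →+ ZMod m, ∀ γ : ↥(Gamma0 N),
      act N (γ : SL(2, ℤ)) f = cM N (zetaP m ^ (φ (Additive.ofMul γ)).val) * f := by
  have hf0 : f ≠ 0 := root_ne_zero N m ι u hu f hf
  choose a ha using exists_mult N m ι u hu f hf
  have hadd : ∀ γ₁ γ₂ : ↥(Gamma0 N), a (γ₁ * γ₂) = a γ₁ + a γ₂ := by
    intro γ₁ γ₂
    apply zetaP_pow_val_injective m
    apply cM_injective N
    apply mul_right_cancel₀ hf0
    rw [← ha, Subgroup.coe_mul, act_mul, ha γ₁, map_mul, act_cM, ha γ₂, zetaP_pow_val_add,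
      cM_mul, mul_assoc]
  exact ⟨AddMonoidHom.mk' (fun x => a (Additive.toMul x)) (fun x y => hadd _ _), fun γ => ha γ⟩

/-- Every `m`-torsion class of `J₀(N)(ℚ̄)` is the Kummer class of a character `φ` of `Γ₀(N)`
with values in `ℤ/m`, and `φ` is cuspidal as soon as `m`-th roots of modular functions with
divisor divisible by `m` are invariant under the elements of trace square `≤ 4`. -/
theorem exists_isKummer_of_torsion_aux (N m : ℕ) [NeZero N] [NeZero m]
    (c : JZero N) (hc : c ∈ Jp N m) :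
    ∃ φ : Additive ↥(Gamma0 N) →+ ZMod m, IsKummer N m φ c ∧
      ((∀ u : FFL (AlgebraicClosure ℚ) N, u ≠ 0 →
        (∀ P : Place (AlgebraicClosure ℚ) (FFL (AlgebraicClosure ℚ) N), (m : ℤ) ∣ P.ord u) →
        ∀ f : MerN N, f ^ m = realHom N embQ u → ∀ γ : ↥(Gamma0 N),
          ((γ : SL(2, ℤ)) : Matrix (Fin 2) (Fin 2) ℤ).trace ^ 2 ≤ 4 →
            act N (γ : SL(2, ℤ)) f = f) → IsCuspidalHom N φ) := by
  have hm : 0 < m := Nat.pos_of_ne_zero (NeZero.ne m)
  obtain ⟨⟨D, hD⟩, rfl⟩ := Pic0.mk_surjective c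
  rw [mem_Jp] at hc
  have h1 : (m : ℤ) • Pic0.mk (⟨D, hD⟩ : Divisor.degZero (K := AlgebraicClosure ℚ)
      (F := FFL (AlgebraicClosure ℚ) N)) = Pic0.mk ((m : ℤ) • ⟨D, hD⟩) := rfl
  rw [h1, pic0_mk_eq_zero_iff] at hc
  obtain ⟨u, hu, hord⟩ := hc
  have hord' : ∀ v : Place (AlgebraicClosure ℚ) (FFL (AlgebraicClosure ℚ) N),
      (m : ℤ) * D v = v.ord u := fun v => hord v
  have hdiv : ∀ P : Place (AlgebraicClosure ℚ) (FFL (AlgebraicClosure ℚ) N),
      (m : ℤ) ∣ P.ord u := fun P => ⟨D P, (hord' P).symm⟩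
  obtain ⟨f, hf⟩ := exists_root_of_dvd_ord_gen N embQ m hm u hu hdiv
  obtain ⟨φ, hφ⟩ := exists_char N m embQ u hu f hf
  refine ⟨φ, ⟨D, hD, u, f, hu, hord', rfl, hf, hφ⟩, fun hcusp γ hγ => ?_⟩
  have hf0 : f ≠ 0 := root_ne_zero N m embQ u hu f hf
  have h2 := hφ γ
  rw [hcusp u hu hdiv f hf γ hγ] at h2
  apply eq_zero_of_zetaP_pow_val_eq_one m
  apply cM_injective N
  rw [cM_one]
  exact mul_right_cancel₀ hf0 (h2.symm.trans (one_mul f).symm)

/-- Every `m`-torsion class of `J₀(N)(ℚ̄)` is the Kummer class of a character of `Γ₀(N)` with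
values in `ℤ/m` (without the cuspidality of the character). -/
theorem exists_isKummer_of_torsion_weak (N m : ℕ) [NeZero N] [NeZero m]
    (c : JZero N) (hc : c ∈ Jp N m) :
    ∃ φ : Additive ↥(Gamma0 N) →+ ZMod m, IsKummer N m φ c := by
  obtain ⟨φ, h, -⟩ := exists_isKummer_of_torsion_aux N m c hc
  exact ⟨φ, h⟩

/-- Every `m`-torsion class of `J₀(N)(ℚ̄)` is the Kummer class of a cuspidal character of
`Γ₀(N)` with values in `ℤ/m` (with the invariance of roots under the elements of trace square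
`≤ 4` as a hypothesis). -/
theorem exists_isKummer_of_torsion_of (N m : ℕ) [NeZero N] [NeZero m]
    (hcusp : ∀ u : FFL (AlgebraicClosure ℚ) N, u ≠ 0 →
      (∀ P : Place (AlgebraicClosure ℚ) (FFL (AlgebraicClosure ℚ) N), (m : ℤ) ∣ P.ord u) →
      ∀ f : MerN N, f ^ m = realHom N embQ u → ∀ γ : ↥(Gamma0 N),
        ((γ : SL(2, ℤ)) : Matrix (Fin 2) (Fin 2) ℤ).trace ^ 2 ≤ 4 →
          act N (γ : SL(2, ℤ)) f = f)
    (c : JZero N) (hc : c ∈ Jp N m) :
    ∃ φ : Additive ↥(Gamma0 N) →+ ZMod m, IsCuspidalHom N φ ∧ IsKummer N m φ c := by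
  obtain ⟨φ, h, hc'⟩ := exists_isKummer_of_torsion_aux N m c hc
  exact ⟨φ, hc' hcusp, h⟩

end KummerConverse

end Fermat.Agent.S30
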