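import Fermat.Agent.S30.TateDefs
import Fermat.Agent.S30.TateFree
import Fermat.Agent.S30.KummerConverseCore
import Fermat.Agent.S42.FinLevel
import Fermat.Agent.S42.KummerUnique

/-!
# P15 (S30), part (A′): finiteness of the torsion of `J₀(N)(ℚ̄)` and a common fixing field

* `finite_Jp`           : the `m`-torsion subgroup `J₀(N)(ℚ̄)[m]` is finite (`m ≠ 0`): sending a
  torsion class to a character of `Γ₀(N)` with values in `ℤ/m` of which it is the Kummer class is
  injective, and there are finitely many such characters;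
* `exists_fixing_field` : there is a finite extension `L / ℚ` such that `Gal(ℚ̄/L)` fixes every
  class of `J₀(N)(ℚ̄)[m]`.
-/

set_option autoImplicit false

namespace Fermat.Agent.S30

open Fermat.Agent.S24 Fermat.Agent.S42 AlgebraicCurve ModularCurve CongruenceSubgroup
open scoped MatrixGroups

namespace KummerFin

/-- A finite set of classes of `J₀(N)(ℚ̄)` is fixed by `Gal(ℚ̄/L)` for a common finite extension
`L / ℚ`. -/
theorem fixedFin_finset_class (N : ℕ) [NeZero N] (s : Finset (JZero N)) :
    ∃ L : IntermediateField ℚ (AlgebraicClosure ℚ), FiniteDimensional ℚ L ∧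
      ∀ σ : AlgebraicClosure ℚ ≃ₐ[ℚ] AlgebraicClosure ℚ, (∀ y ∈ L, σ y = y) →
        ∀ x ∈ s, σ • x = x := by
  classical
  induction s using Finset.induction_on with
  | empty => exact ⟨⊥, inferInstance, fun σ _ x hx => absurd hx (Finset.notMem_empty x)⟩
  | insert a s ha ih =>
    obtain ⟨L1, h1, hL1⟩ := ih
    obtain ⟨L2, h2, hL2⟩ := FinLevel.fixedFin_class N a
    refine ⟨L1 ⊔ L2, IntermediateField.finiteDimensional_sup L1 L2, fun σ hσ x hx => ?_⟩
    rcases Finset.mem_insert.mp hx with rfl | hx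
    · exact hL2 σ (fun z hz => hσ z ((le_sup_right : L2 ≤ L1 ⊔ L2) hz))
    · exact hL1 σ (fun z hz => hσ z ((le_sup_left : L1 ≤ L1 ⊔ L2) hz)) x hx

/-- A set of classes of `J₀(N)(ℚ̄)` each of which is the Kummer class of some character with
values in `ℤ/m`, the characters forming a finite type, is finite. -/
theorem finite_of_kummer (N m : ℕ) [NeZero N] (s : Set (JZero N))
    [Finite (Additive ↥(Gamma0 N) →+ ZMod m)]
    (hex : ∀ c ∈ s, ∃ φ : Additive ↥(Gamma0 N) →+ ZMod m, IsKummer N m φ c)
    (huniq : ∀ (φ : Additive ↥(Gamma0 N) →+ ZMod m) (c c' : JZero N),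
      IsKummer N m φ c → IsKummer N m φ c' → c = c') : s.Finite := by
  have h : ∀ c : s, ∃ φ : Additive ↥(Gamma0 N) →+ ZMod m, IsKummer N m φ (c : JZero N) :=
    fun c => hex c.1 c.2
  choose F hF using h
  have hinj : Function.Injective F := by
    intro c c' hcc
    apply Subtype.ext
    have h' := hF c'
    rw [← hcc] at h'
    exact huniq (F c) _ _ (hF c) h'
  exact Set.finite_coe_iff.mp (Finite.of_injective F hinj)

end KummerFin

/-- The `m`-torsion of `J₀(N)(ℚ̄)` is finite. -/
theorem finite_Jp (N m : ℕ) [NeZero N] [NeZero m] : (Jp N m : Set (JZero N)).Finite := by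
  have hfin : Finite (Additive ↥(Gamma0 N) →+ ZMod m) := finite_hom_zmod N m
  exact KummerFin.finite_of_kummer N m _
    (fun c hc => KummerConverse.exists_isKummer_of_torsion_weak N m c hc)
    (fun φ c c' h h' => isKummer_unique h h')

/-- There is a finite extension `L / ℚ` such that `Gal(ℚ̄/L)` fixes every `m`-torsion class of
`J₀(N)(ℚ̄)`. -/
theorem exists_fixing_field (N m : ℕ) [NeZero N] [NeZero m] :
    ∃ L : IntermediateField ℚ (AlgebraicClosure ℚ), FiniteDimensional ℚ L ∧
      ∀ σ : AlgebraicClosure ℚ ≃ₐ[ℚ] AlgebraicClosure ℚ, (∀ y ∈ L, σ y = y) →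
        ∀ x ∈ Jp N m, σ • x = x := by
  obtain ⟨L, hL, h⟩ := KummerFin.fixedFin_finset_class N (finite_Jp N m).toFinset
  exact ⟨L, hL, fun σ hσ x hx => h σ hσ x ((finite_Jp N m).mem_toFinset.mpr hx)⟩

end Fermat.Agent.S30
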