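import Fermat.Agent.S42.ADefs
import Fermat.Agent.S42.KummerBasic

/-!
# P15 (S30), part (A′): compatibility of Kummer classes with reduction

`isKummer_red` : if `c` is the Kummer class at modulus `p ^ (n + 1)` of the character `φ`, then
`p • c` is the Kummer class at modulus `p ^ n` of the reduction of `φ` modulo `p ^ n`.
-/

set_option autoImplicit false

namespace Fermat.Agent.S30

open Fermat.Agent.S24 Fermat.Agent.S42 AlgebraicCurve ModularCurve CongruenceSubgroup
  UpperHalfPlane TensorProduct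
open scoped MatrixGroups

namespace KummerCompat

/-- `ζ_{p^(n+1)} ^ p = ζ_{p^n}`. -/
theorem zetaP_pow_succ (p n : ℕ) (hp : p ≠ 0) : zetaP (p ^ (n + 1)) ^ p = zetaP (p ^ n) := by
  unfold zetaP
  rw [← Complex.exp_nat_mul]
  congr 1
  have hpC : (p : ℂ) ≠ 0 := by exact_mod_cast hp
  push_cast
  field_simp
  ring

/-- The value of the reduction modulo `p ^ n` of a class modulo `p ^ (n + 1)`. -/
theorem val_castHom (p n : ℕ) [NeZero p] (x : ZMod (p ^ (n + 1))) :
    (ZMod.castHom (pow_dvd_pow p (Nat.le_succ n)) (ZMod (p ^ n)) x).val = x.val % p ^ n := by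
  rw [ZMod.castHom_apply, ZMod.cast_eq_val, ZMod.val_natCast]

end KummerCompat

theorem isKummer_red (N p n : ℕ) [NeZero N] [NeZero p]
    {φ : Additive ↥(Gamma0 N) →+ ZMod (p ^ (n + 1))} {c : JZero N}
    (h : IsKummer N (p ^ (n + 1)) φ c) :
    IsKummer N (p ^ n)
      ((ZMod.castHom (pow_dvd_pow p (Nat.le_succ n)) (ZMod (p ^ n))).toAddMonoidHom.comp φ)
      ((p : ℤ) • c) := by
  obtain ⟨D, hD, u, f, hu, hord, rfl, hfp, hact⟩ := h
  have hp : p ≠ 0 := NeZero.ne p
  refine ⟨(p : ℤ) • D, zsmul_mem hD _, u, f ^ p, hu, fun v => ?_, rfl, ?_, fun γ => ?_⟩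
  · rw [Finsupp.smul_apply, smul_eq_mul, ← mul_assoc, ← hord v]
    push_cast
    ring
  · rw [← pow_mul, ← hfp, pow_succ']
  · rw [map_pow, hact γ, mul_pow, ← KummerBasic.cM_pow, pow_right_comm,
      KummerCompat.zetaP_pow_succ p n hp, AddMonoidHom.comp_apply,
      RingHom.toAddMonoidHom_eq_coe, AddMonoidHom.coe_coe, KummerCompat.val_castHom,
      ← pow_eq_pow_mod _ (KummerBasic.zetaP_pow (p ^ n) (pow_ne_zero n hp))]

end Fermat.Agent.S30
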