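import Fermat.Agent.S42.OrdDict
import Fermat.Agent.S42.RootDvd
import Fermat.Agent.S21.Parabolic

/-!
# P15 part (A′): the converse of `OrdDict`

If all place-orders of a modular function `u` of level `N` are divisible by `n`, then every
`n`-th root of `u` among the meromorphic functions of level `N` is invariant under the
elements of `Γ₀(N)` of trace square at most `4` (parabolic and elliptic elements and `± 1`).
-/

set_option autoImplicit false

namespace Fermat.Agent.S30

open Fermat.Agent.S24 Fermat.Agent.S42 AlgebraicCurve CongruenceSubgroup UpperHalfPlane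
open scoped MatrixGroups

namespace CuspConverse

open Filter Topology IntermediateField

/-! ### Constants -/

theorem cM_one_eq (N : ℕ) : cM N 1 = 1 := by
  apply toMer_injective N
  rw [RootDvd.toMer_cM, map_one, map_one]

/-- A root is nonzero. -/
theorem root_ne_zero (N : ℕ) [NeZero N] {L : Type*} [Field L] [Algebra ℚ L] (ι : L →+* ℂ)
    (n : ℕ) (hn : 0 < n) (u : FFL L N) (hu : u ≠ 0) (f : MerN N)
    (hf : f ^ n = realHom N ι u) : f ≠ 0 := by
  intro h0
  rw [h0, zero_pow hn.ne'] at hf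
  exact hu ((map_eq_zero (realHom N ι)).mp hf.symm)

/-- An element of `Γ₀(N)` multiplies a root by a constant root of unity. -/
theorem exists_const (N : ℕ) [NeZero N] {L : Type*} [Field L] [Algebra ℚ L] (ι : L →+* ℂ)
    (n : ℕ) (hn : 0 < n) (u : FFL L N) (hu : u ≠ 0) (f : MerN N)
    (hf : f ^ n = realHom N ι u) (γ : SL(2, ℤ)) (hγ : γ ∈ Gamma0 N) :
    ∃ c : ℂ, c ^ n = 1 ∧ act N γ f = cM N c * f := by
  have hf0 : f ≠ 0 := root_ne_zero N ι n hn u hu f hf
  have hx0 : toMer N f ≠ 0 := (map_ne_zero (toMer N)).mpr hf0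
  have hpow : (toMer N (act N γ f)) ^ n = (toMer N f) ^ n := by
    calc (toMer N (act N γ f)) ^ n = toMer N (act N γ (f ^ n)) := by rw [map_pow, map_pow]
      _ = toMer N (f ^ n) := by rw [hf, act_realHom_of_mem N ι γ hγ]
      _ = (toMer N f) ^ n := map_pow _ _ _
  obtain ⟨c, hc, hcx⟩ := RootDvd.exists_merC_of_pow_eq hn hx0 hpow
  refine ⟨c, hc, toMer_injective N ?_⟩
  rw [hcx, map_mul, RootDvd.toMer_cM]

/-- `-γ` acts as `γ`. -/
theorem act_neg (N : ℕ) (γ : SL(2, ℤ)) (x : MerN N) : act N (-γ) x = act N γ x := by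
  apply toMer_injective N
  rw [toMer_act, toMer_act, compSL_neg]

theorem neg_mem_Gamma0 {N : ℕ} {γ : SL(2, ℤ)} (h : γ ∈ Gamma0 N) : -γ ∈ Gamma0 N := by
  rw [Gamma0_mem] at h ⊢
  simpa using h

/-! ### Parabolic elements -/

/-- The constant by which `T ^ k` multiplies a function is read off from its order at `i∞`. -/
theorem const_eq_zpow (N : ℕ) [NeZero N] (F : MerN N) (hF : F ≠ 0) (k : ℕ) (c : ℂ)
    (h : act N (ModularGroup.T ^ k) F = cM N c * F) :
    c = (((zetaUnit N ^ k) ^ (qInfM N F).order : ℂˣ) : ℂ) := by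
  have hs0 : qInfM N F ≠ 0 := (map_ne_zero (qInfM N)).mpr hF
  have hq : laurentRot (zetaUnit N ^ k) (qInfM N F) = HahnSeries.C c * qInfM N F := by
    rw [← OrdDict.qInfM_act_T_pow, h, map_mul, RootDvd.qInfM_cM]
  have hcoef := congrArg (fun s : LaurentSeries ℂ => s.coeff (qInfM N F).order) hq
  simp only [laurentRot_coeff, HahnSeries.C_mul_eq_smul, HahnSeries.coeff_smul,
    smul_eq_mul] at hcoef
  have hlead : (qInfM N F).coeff (qInfM N F).order ≠ 0 :=
    HahnSeries.coeff_order_eq_zero.not.mpr hs0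
  exact (mul_right_cancel₀ hlead hcoef).symm

/-- Conjugates of nonnegative powers of `T`. -/
theorem act_conj_T_pow (N : ℕ) [NeZero N] {L : Type*} [Field L] [Algebra ℚ L]
    [IsAlgClosed L] [CharZero L] (ι : L →+* ℂ) (n : ℕ) (hn : 0 < n) (u : FFL L N) (hu : u ≠ 0)
    (hdiv : ∀ P : Place L (FFL L N), (n : ℤ) ∣ P.ord u) (f : MerN N)
    (hf : f ^ n = realHom N ι u) (g : SL(2, ℤ)) (k : ℕ)
    (hmem : g * ModularGroup.T ^ k * g⁻¹ ∈ Gamma0 N) :
    act N (g * ModularGroup.T ^ k * g⁻¹) f = f := by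
  obtain ⟨c, -, hc⟩ := exists_const N ι n hn u hu f hf _ hmem
  have hf0 : f ≠ 0 := root_ne_zero N ι n hn u hu f hf
  -- the translate `f ∘ g`
  have hh : act N (ModularGroup.T ^ k) (act N g f) = cM N c * act N g f := by
    have h1 : act N (g * ModularGroup.T ^ k * g⁻¹ * g) f = act N g (cM N c * f) := by
      rw [act_mul N (g * ModularGroup.T ^ k * g⁻¹) g, hc]
    rw [inv_mul_cancel_right, act_mul, map_mul, RootDvd.act_cM] at h1
    exact h1
  have hF0 : act N g f ≠ 0 := (map_ne_zero (act N g)).mpr hf0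
  have hcz := const_eq_zpow N (act N g f) hF0 k c hh
  -- the local family at infinity
  have hx : Transcendental L (jL L N) := transcendental_jL N L
  have : FiniteDimensional L⟮jL L N⟯ (FFL L N) := finiteDimensional_jL_of_emb N ι
  obtain ⟨P', -, -, -, -, hord⟩ := exists_place_of_localFamily (transcendental_inv hx)
    (adjoin_inv (jL L N)) (finrank_jL_of_emb N ι).symm (Nat.pos_of_ne_zero (NeZero.ne N))
    (isLocalFamily_infty N L ι)
  have h1 := hord (QuotientGroup.mk g⁻¹) u hu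
  rw [ordInf_apply, conj_mk_apply, inv_inv, ← hf, map_pow, map_pow, HahnSeries.order_pow,
    nsmul_eq_mul] at h1
  obtain ⟨a, ha⟩ := hdiv (P' (QuotientGroup.mk g⁻¹))
  rw [ha] at h1
  have hn0 : (n : ℤ) ≠ 0 := by exact_mod_cast hn.ne'
  have h2 : (qInfM N (act N g f)).order *
      (Function.minimalPeriod (MulAction.toPerm ModularGroup.T : Equiv.Perm (XX N))
        (QuotientGroup.mk g⁻¹ : XX N) : ℤ) = (N : ℤ) * a := by
    apply mul_left_cancel₀ hn0
    linear_combination h1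
  -- the period divides `k`
  have hfix : ModularGroup.T ^ k • (QuotientGroup.mk g⁻¹ : XX N) = QuotientGroup.mk g⁻¹ := by
    rw [smul_mk]
    refine (QuotientGroup.eq.mpr ?_).symm
    rw [inv_inv, ← mul_assoc]
    exact hmem
  obtain ⟨k', hk'⟩ := minimalPeriod_toPerm_dvd_of_pow_smul ModularGroup.T
    (QuotientGroup.mk g⁻¹ : XX N) k hfix
  -- conclusion
  have hc1 : c = 1 := by
    rw [hcz, ← zpow_natCast, ← zpow_mul]
    have h3 : ((k : ℤ) * (qInfM N (act N g f)).order) = (N : ℤ) * ((k' : ℤ) * a) := by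
      rw [hk']
      push_cast
      linear_combination (k' : ℤ) * h2
    rw [h3, ((isPrimitiveRoot_zetaUnit N).zpow_eq_one_iff_dvd _).mpr (dvd_mul_right _ _),
      Units.val_one]
  rw [hc, hc1, cM_one_eq, one_mul]

/-- Conjugates of integral powers of `T`. -/
theorem act_conj_T_zpow (N : ℕ) [NeZero N] {L : Type*} [Field L] [Algebra ℚ L]
    [IsAlgClosed L] [CharZero L] (ι : L →+* ℂ) (n : ℕ) (hn : 0 < n) (u : FFL L N) (hu : u ≠ 0)
    (hdiv : ∀ P : Place L (FFL L N), (n : ℤ) ∣ P.ord u) (f : MerN N)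
    (hf : f ^ n = realHom N ι u) (g : SL(2, ℤ)) (k : ℤ)
    (hmem : g * ModularGroup.T ^ k * g⁻¹ ∈ Gamma0 N) :
    act N (g * ModularGroup.T ^ k * g⁻¹) f = f := by
  obtain ⟨j, rfl | rfl⟩ := Int.eq_nat_or_neg k
  · rw [zpow_natCast] at hmem ⊢
    exact act_conj_T_pow N ι n hn u hu hdiv f hf g j hmem
  · have hinv : g * ModularGroup.T ^ (-(j : ℤ)) * g⁻¹ = (g * ModularGroup.T ^ j * g⁻¹)⁻¹ := by
      rw [zpow_neg, zpow_natCast]
      group
    rw [hinv] at hmem ⊢
    have hmem' : g * ModularGroup.T ^ j * g⁻¹ ∈ Gamma0 N := (Subgroup.inv_mem_iff _).mp hmem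
    have h := act_conj_T_pow N ι n hn u hu hdiv f hf g j hmem'
    have h2 := congrArg (act N (g * ModularGroup.T ^ j * g⁻¹)⁻¹) h
    rw [← act_mul, mul_inv_cancel, act_one] at h2
    exact h2.symm

/-- Elements of trace `± 2`. -/
theorem act_eq_self_of_trace_sq_eq (N : ℕ) [NeZero N] {L : Type*} [Field L] [Algebra ℚ L]
    [IsAlgClosed L] [CharZero L] (ι : L →+* ℂ) (n : ℕ) (hn : 0 < n) (u : FFL L N) (hu : u ≠ 0)
    (hdiv : ∀ P : Place L (FFL L N), (n : ℤ) ∣ P.ord u) (f : MerN N)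
    (hf : f ^ n = realHom N ι u) (γ : SL(2, ℤ)) (hγ : γ ∈ Gamma0 N)
    (htr : (γ : Matrix (Fin 2) (Fin 2) ℤ).trace ^ 2 = 4) : act N γ f = f := by
  obtain ⟨δ, k, h | h⟩ := Fermat.Agent.S21.exists_conj_T_zpow γ htr
  · rw [h] at hγ ⊢
    exact act_conj_T_zpow N ι n hn u hu hdiv f hf δ k hγ
  · have hmem : δ * ModularGroup.T ^ k * δ⁻¹ ∈ Gamma0 N := by
      have h' : δ * ModularGroup.T ^ k * δ⁻¹ = -γ := by rw [h, neg_neg]
      rw [h']
      exact neg_mem_Gamma0 hγ
    rw [h, act_neg]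
    exact act_conj_T_zpow N ι n hn u hu hdiv f hf δ k hmem

/-! ### Elliptic elements -/

/-- The multiplier lemma for semi-invariant functions: if a meromorphic function `m` of order
`n` at `t` satisfies `m ∘ G = c • m` for a map `G` fixing `t`, then `c` is the `n`-th power of
the derivative of `G` at `t`. -/
theorem mer_multiplier_const {m G : ℂ → ℂ} {t : ℂ} {n : ℤ} {c : ℂ} (hm : MeromorphicAt m t)
    (hn : meromorphicOrderAt m t = n) (hG : DifferentiableAt ℂ G t) (hGt : G t = t)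
    (hG' : deriv G t ≠ 0) (hinv : ∀ᶠ z in 𝓝[≠] t, m (G z) = c * m z) : deriv G t ^ n = c := by
  obtain ⟨g, hg, hg0, hgm⟩ := (meromorphicOrderAt_eq_int_iff hm).mp hn
  set s : ℂ → ℂ := dslope G t with hs
  have hsc : ContinuousAt s t := continuousAt_dslope_same.mpr hG
  have hst : s t = deriv G t := dslope_same G t
  have hGz : ∀ z, G z - t = (z - t) * s z := by
    intro z
    have h := sub_smul_dslope G t z
    rw [hGt] at h
    rw [← h, smul_eq_mul]
  have hs0 : ∀ᶠ z in 𝓝 t, s z ≠ 0 := hsc.eventually_ne (by rwa [hst])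
  have hGtend : Tendsto G (𝓝[≠] t) (𝓝[≠] t) := by
    rw [tendsto_nhdsWithin_iff]
    constructor
    · have h := hG.continuousAt.tendsto
      rw [hGt] at h
      exact h.mono_left nhdsWithin_le_nhds
    · filter_upwards [self_mem_nhdsWithin, hs0.filter_mono nhdsWithin_le_nhds] with z hz hsz
      intro h
      have h2 := hGz z
      rw [h, sub_self] at h2
      exact (mul_ne_zero (sub_ne_zero.mpr hz) hsz) h2.symm
  have hgm' : ∀ᶠ z in 𝓝[≠] t, m (G z) = (G z - t) ^ n • g (G z) := hGtend.eventually hgm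
  have hmain : (fun z => c * g z) =ᶠ[𝓝[≠] t] (fun z => s z ^ n * g (G z)) := by
    filter_upwards [hgm, hgm', hinv, self_mem_nhdsWithin] with z h1 h2 h3 hz
    have hz' : z - t ≠ 0 := sub_ne_zero.mpr hz
    rw [h1, h2, hGz z, mul_zpow, smul_eq_mul, smul_eq_mul, mul_assoc] at h3
    have h4 : (z - t) ^ n * (s z ^ n * g (G z)) = (z - t) ^ n * (c * g z) := by
      rw [h3]
      ring
    exact (mul_left_cancel₀ (zpow_ne_zero n hz') h4).symm
  have hc1 : ContinuousAt (fun z => c * g z) t := continuousAt_const.mul hg.continuousAt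
  have hc2 : ContinuousAt (fun z => s z ^ n * g (G z)) t := by
    apply ContinuousAt.mul
    · exact hsc.zpow₀ n (Or.inl (by rwa [hst]))
    · have h : ContinuousAt g (G t) := by
        rw [hGt]
        exact hg.continuousAt
      exact h.comp hG.continuousAt
  have heq : c * g t = s t ^ n * g (G t) :=
    ((hc1.eventuallyEq_nhds_iff_eventuallyEq_nhdsNE hc2).mp hmain).eq_of_nhds
  rw [hGt, hst] at heq
  have h0 : (deriv G t ^ n - c) * g t = 0 := by
    rw [sub_mul, ← heq, sub_self]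
  rcases mul_eq_zero.mp h0 with h | h
  · exact sub_eq_zero.mp h
  · exact absurd h hg0

/-- The elliptic multiplier for semi-invariant functions: if `γ` fixes `τ` and `x ≠ 0`
satisfies `x ∘ γ = c • x`, then `c * (cτ + d) ^ (2 * merOrd τ x) = 1`. -/
theorem merOrd_elliptic_const (γ : SL(2, ℤ)) (τ : ℍ) (hγ : γ • τ = τ) {x : Mer} (hx : x ≠ 0)
    (c : ℂ) (hinv : compSL γ x = RootDvd.merC c * x) :
    c * (((γ 1 0 : ℤ) : ℂ) * (τ : ℂ) + ((γ 1 1 : ℤ) : ℂ)) ^ (2 * merOrd τ x) = 1 := by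
  obtain ⟨a, b, hb, rfl⟩ := mer_exists_div x
  have ha : a ≠ 0 := (mer_div_ne_zero_iff hb).mp hx
  have hb' : compSLHol γ b ≠ 0 := fun h => hb (compSLHol_injective γ (h.trans (map_zero _).symm))
  rw [compSL_div] at hinv
  have key : compSLHol γ a * b = holC c * a * compSLHol γ b := by
    apply IsFractionRing.injective Hol Mer
    rw [map_mul, map_mul, map_mul]
    rw [RootDvd.merC_apply, ← mul_div_assoc,
      div_eq_div_iff (mer_algebraMap_ne_zero hb') (mer_algebraMap_ne_zero hb)] at hinv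
    exact hinv
  set g : GL (Fin 2) ℝ := Matrix.SpecialLinearGroup.mapGL ℝ γ with hg
  set G : ℂ → ℂ := fun z => ((g • ofComplex z : ℍ) : ℂ) with hG
  have hGt : G τ = τ := by
    simp only [hG, ofComplex_apply]
    exact congrArg _ hγ
  have hGd : HasStrictDerivAt G (g.val.det / denom g τ ^ 2) τ :=
    UpperHalfPlane.hasStrictDerivAt_smul (mer_det_pos γ) τ
  have hdet : ((g.val.det : ℝ) : ℂ) = 1 := by
    have h : (Matrix.SpecialLinearGroup.mapGL ℝ γ : GL (Fin 2) ℝ).val.det = 1 := by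
      rw [← Matrix.GeneralLinearGroup.val_det_apply, Matrix.SpecialLinearGroup.det_mapGL]
      rfl
    rw [hg, h, Complex.ofReal_one]
  have hderiv : deriv G τ = 1 / denom g τ ^ 2 := by
    rw [hGd.hasDerivAt.deriv, hdet]
  have hden : denom g τ = ((γ 1 0 : ℤ) : ℂ) * (τ : ℂ) + ((γ 1 1 : ℤ) : ℂ) := by
    simp [denom, hg]
  have hne : denom g τ ≠ 0 := denom_ne_zero g τ
  have hn : meromorphicOrderAt (merFun a b) (τ : ℂ) =
      ((merOrd τ (algebraMap Hol Mer a / algebraMap Hol Mer b) : ℤ) : WithTop ℤ) := by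
    rw [merOrd_div_eq τ a hb,
      WithTop.coe_untop₀_of_ne_top (mer_meromorphicOrderAt_ne_top ha hb τ)]
  have hinvF : ∀ᶠ z in 𝓝[≠] (τ : ℂ), merFun a b (G z) = c * merFun a b z := by
    filter_upwards [mer_eventually_ne hb τ, mer_eventually_ne hb' τ] with z h1 h2
    simp only [Function.comp_apply] at h1 h2
    have key' := congrArg (fun h : Hol => (h : ℍ → ℂ) (ofComplex z)) key
    simp only [Subring.coe_mul, Pi.mul_apply] at key'
    have h2' : (b : ℍ → ℂ) (g • ofComplex z) ≠ 0 := h2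
    have key'' : (a : ℍ → ℂ) (g • ofComplex z) * (b : ℍ → ℂ) (ofComplex z) =
        c * (a : ℍ → ℂ) (ofComplex z) * (b : ℍ → ℂ) (g • ofComplex z) := key'
    simp only [merFun, hG, ofComplex_apply]
    rw [← mul_div_assoc, div_eq_div_iff h2' h1]
    exact key''
  have hm := mer_multiplier_const (mer_meromorphicAt a b τ) hn
    hGd.hasDerivAt.differentiableAt hGt
    (by rw [hderiv]; exact one_div_ne_zero (pow_ne_zero 2 hne)) hinvF
  rw [hderiv, one_div, inv_zpow] at hm
  rw [← hden, zpow_mul, ← hm]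
  have h2 : (denom g ↑τ ^ 2) ^ merOrd τ (algebraMap Hol Mer a / algebraMap Hol Mer b) ≠ 0 :=
    zpow_ne_zero _ (pow_ne_zero 2 hne)
  have h3 : (denom g ↑τ ^ (2 : ℤ)) = denom g ↑τ ^ 2 := by norm_cast
  rw [h3]
  exact inv_mul_cancel₀ h2

/-- Elements of `Γ₀(N)` with a fixed point in the upper half plane. -/
theorem act_eq_self_of_fixed (N : ℕ) [NeZero N] {L : Type*} [Field L] [Algebra ℚ L]
    [IsAlgClosed L] [CharZero L] (ι : L →+* ℂ) (n : ℕ) (hn : 0 < n) (u : FFL L N) (hu : u ≠ 0)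
    (hdiv : ∀ P : Place L (FFL L N), (n : ℤ) ∣ P.ord u) (f : MerN N)
    (hf : f ^ n = realHom N ι u) (γ : SL(2, ℤ)) (hγ : γ ∈ Gamma0 N) (τ : ℍ) (hτ : γ • τ = τ) :
    act N γ f = f := by
  obtain ⟨c, -, hc⟩ := exists_const N ι n hn u hu f hf γ hγ
  have hf0 : f ≠ 0 := root_ne_zero N ι n hn u hu f hf
  have hx0 : toMer N f ≠ 0 := (map_ne_zero (toMer N)).mpr hf0
  have hsemi : compSL γ (toMer N f) = RootDvd.merC c * toMer N f := by
    rw [← toMer_act, hc, map_mul, RootDvd.toMer_cM]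
  have hmult := merOrd_elliptic_const γ τ hτ hx0 c hsemi
  -- the valuation on the function field
  set φ : FFL L N →+* Mer := (toMer N).comp (realHom N ι) with hφ
  have hφ0 : ∀ z : FFL L N, z ≠ 0 → φ z ≠ 0 := fun z hz => (map_ne_zero φ).mpr hz
  have hmul : ∀ z z' : FFL L N, z ≠ 0 → z' ≠ 0 →
      merOrd τ (φ (z * z')) = merOrd τ (φ z) + merOrd τ (φ z') := by
    intro z z' hz hz'
    rw [φ.map_mul z z', merOrd_mul τ (hφ0 z hz) (hφ0 z' hz')]
  have hadd : ∀ z z' : FFL L N, z ≠ 0 → z' ≠ 0 → z + z' ≠ 0 →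
      min (merOrd τ (φ z)) (merOrd τ (φ z')) ≤ merOrd τ (φ (z + z')) := by
    intro z z' hz hz' hzz'
    have h1 : φ (z + z') = φ z + φ z' := φ.map_add z z'
    rw [h1]
    exact merOrd_add τ (hφ0 z hz) (hφ0 z' hz') (by rw [← h1]; exact hφ0 _ hzz')
  have hφc : ∀ a : L, φ (algebraMap L (FFL L N) a) = algebraMap Hol Mer (holC (ι a)) := by
    intro a
    rw [hφ, RingHom.comp_apply, realHom_algebraMap, toMer_algebraMap, toHol_constRN]
  have hconst : ∀ a : L, a ≠ 0 → merOrd τ (φ (algebraMap L (FFL L N) a)) = 0 := by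
    intro a ha
    rw [hφc, merOrd_const τ ((map_ne_zero ι).mpr ha)]
  -- the order of the root
  have hnm : (n : ℤ) * merOrd τ (toMer N f) = merOrd τ (φ u) := by
    have h1 : φ u = (toMer N f) ^ n := by rw [hφ, RingHom.comp_apply, ← hf, map_pow]
    rw [h1, OrdDict.ord_pow (merOrd τ) (fun a b ha hb => merOrd_mul τ ha hb) hx0]
  have hn0 : (n : ℤ) ≠ 0 := by exact_mod_cast hn.ne'
  -- conclusion
  have hc1 : c = 1 := by
    by_cases htriv : ∀ z : FFL L N, z ≠ 0 → merOrd τ (φ z) = 0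
    · have h0 : merOrd τ (toMer N f) = 0 := by
        have h := htriv u hu
        rw [← hnm] at h
        exact (mul_eq_zero.mp h).resolve_left hn0
      rw [h0, mul_zero, zpow_zero, mul_one] at hmult
      exact hmult
    · obtain ⟨z, hz0, hz⟩ : ∃ z : FFL L N, z ≠ 0 ∧ merOrd τ (φ z) ≠ 0 := by
        by_contra hcon
        apply htriv
        intro z hz
        by_contra hne
        exact hcon ⟨z, hz, hne⟩
      -- an element of positive order
      obtain ⟨z₁, hz₁0, hz₁⟩ : ∃ z₁ : FFL L N, z₁ ≠ 0 ∧ 0 < merOrd τ (φ z₁) := by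
        rcases lt_or_gt_of_ne hz with h | h
        · refine ⟨z⁻¹, inv_ne_zero hz0, ?_⟩
          rw [map_inv₀, merOrd_inv]
          omega
        · exact ⟨z, hz0, h⟩
      obtain ⟨w, d, -, hw⟩ := PlacesBasic.exists_place_of_valuation (K := L)
        (fun z : FFL L N => merOrd τ (φ z)) hmul hadd hconst hz₁0 hz₁
      -- a uniformiser
      obtain ⟨π, hπ⟩ := IsDiscreteValuationRing.exists_irreducible w.toValuationSubring
      have hπ0 : (π : FFL L N) ≠ 0 := fun h0 => hπ.ne_zero (Subtype.ext h0)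
      have hπd : merOrd τ (φ (π : FFL L N)) = d := by
        have h := hw (π : FFL L N) hπ0
        rw [w.ord_coe_irreducible hπ, mul_one] at h
        exact h
      have hπinv : compSL γ (φ (π : FFL L N)) = φ (π : FFL L N) := by
        rw [hφ, RingHom.comp_apply, ← toMer_act, act_realHom_of_mem N ι γ hγ]
      have hμ := merOrd_elliptic γ τ hτ (hφ0 _ hπ0) hπinv
      rw [hπd] at hμ
      -- the order of the root is a multiple of `d`
      obtain ⟨a, ha⟩ := hdiv w
      have hm : merOrd τ (toMer N f) = (d : ℤ) * a := by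
        have h1 : merOrd τ (φ u) = (d : ℤ) * w.ord u := hw u hu
        rw [ha, ← hnm] at h1
        apply mul_left_cancel₀ hn0
        rw [h1]
        ring
      rw [hm, ← mul_assoc, zpow_mul, hμ, one_zpow, mul_one] at hmult
      exact hmult
  rw [hc, hc1, cM_one_eq, one_mul]

/-- An element of `SL(2, ℤ)` whose trace has square less than `4` fixes a point of the upper
half plane. -/
theorem exists_fixed_of_trace_sq_lt (γ : SL(2, ℤ))
    (h : (γ : Matrix (Fin 2) (Fin 2) ℤ).trace ^ 2 < 4) : ∃ τ : ℍ, γ • τ = τ := by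
  set g : GL (Fin 2) ℝ := Matrix.SpecialLinearGroup.mapGL ℝ γ with hg
  have hdet : g.val.det = 1 := by
    rw [← Matrix.GeneralLinearGroup.val_det_apply, Matrix.SpecialLinearGroup.det_mapGL]
    rfl
  have htr : g.val.trace = (((γ : Matrix (Fin 2) (Fin 2) ℤ).trace : ℤ) : ℝ) := by
    rw [Matrix.trace_fin_two, Matrix.trace_fin_two]
    simp [hg]
  have hell : g.IsElliptic := by
    show g.val.discr < 0
    rw [Matrix.discr_fin_two, hdet, htr]
    have h' : ((((γ : Matrix (Fin 2) (Fin 2) ℤ).trace : ℤ) : ℝ)) ^ 2 < 4 := by exact_mod_cast h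
    linarith
  refine ⟨fixedPt g hell, ?_⟩
  rw [ModularGroup.sl_moeb]
  exact (gl_smul_eq_self_iff_eq_fixedPt (by rw [hdet]; exact one_pos) hell).mpr rfl

end CuspConverse

/-- If all place-orders of `u` are divisible by `n`, then every `n`-th root of `u` among the
meromorphic functions of level `N` is invariant under the elements of `Γ₀(N)` of trace square
at most `4`. -/
theorem act_eq_self_of_dvd_ord (N : ℕ) [NeZero N] {L : Type*} [Field L] [Algebra ℚ L]
    [IsAlgClosed L] [CharZero L] (ι : L →+* ℂ) (n : ℕ) (hn : 0 < n) (u : FFL L N) (hu : u ≠ 0)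
    (hdiv : ∀ P : Place L (FFL L N), (n : ℤ) ∣ P.ord u) (f : MerN N)
    (hf : f ^ n = realHom N ι u) (γ : ↥(Gamma0 N))
    (hγ : ((γ : SL(2, ℤ)) : Matrix (Fin 2) (Fin 2) ℤ).trace ^ 2 ≤ 4) :
    act N (γ : SL(2, ℤ)) f = f := by
  rcases lt_or_eq_of_le hγ with hlt | heq
  · obtain ⟨τ, hτ⟩ := CuspConverse.exists_fixed_of_trace_sq_lt (γ : SL(2, ℤ)) hlt
    exact CuspConverse.act_eq_self_of_fixed N ι n hn u hu hdiv f hf (γ : SL(2, ℤ)) γ.2 τ hτ
  · exact CuspConverse.act_eq_self_of_trace_sq_eq N ι n hn u hu hdiv f hf (γ : SL(2, ℤ)) γ.2 heq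

end Fermat.Agent.S30
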