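import Fermat.Agent.S30.KummerConverseCore
import Fermat.Agent.S30.CuspConverse

/-!
# P15 (S30), part (A′): every torsion class is a Kummer class

Every class `c ∈ J₀(N)(ℚ̄)` killed by `m ≠ 0` is the Kummer class of a cuspidal additive
character `Γ₀(N) → ℤ/m` (`exists_isKummer_of_torsion`).  The construction of the character is in
`KummerConverseCore.lean`; its cuspidality is `act_eq_self_of_dvd_ord` (`CuspConverse.lean`).
-/

set_option autoImplicit false

namespace Fermat.Agent.S30

open Fermat.Agent.S24 Fermat.Agent.S42 AlgebraicCurve ModularCurve CongruenceSubgroup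
open scoped MatrixGroups

/-- Every `m`-torsion class of `J₀(N)(ℚ̄)` is the Kummer class of a cuspidal character of
`Γ₀(N)` with values in `ℤ/m`. -/
theorem exists_isKummer_of_torsion (N m : ℕ) [NeZero N] [NeZero m] (c : JZero N)
    (hc : c ∈ Jp N m) :
    ∃ φ : Additive ↥(Gamma0 N) →+ ZMod m, IsCuspidalHom N φ ∧ IsKummer N m φ c :=
  KummerConverse.exists_isKummer_of_torsion_of N m
    (fun u hu hdiv f hf γ hγ =>
      act_eq_self_of_dvd_ord N embQ m (Nat.pos_of_ne_zero (NeZero.ne m)) u hu hdiv f hf γ hγ)
    c hc

end Fermat.Agent.S30
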