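import Fermat.Agent.S30.TateDefs

/-!
# P15 (S30), part (A′): characters `Γ₀(N) → ℤ_p` as limits of characters `Γ₀(N) → ℤ / p ^ n`

* `redHom_succ`          : the reduction modulo `p ^ n` factors through the one modulo
                           `p ^ (n + 1)`;
* `eq_of_redHom_eq`      : a character with values in `ℤ_p` is determined by its reductions;
* `exists_hom_of_compat` : a compatible system of characters modulo `p ^ n` is the system of
                           reductions of a character with values in `ℤ_p`;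
* `isCuspidalHom_redHom`, `isCuspidalHom_of_redHom` : a character with values in `ℤ_p` is
                           cuspidal if and only if all its reductions are;
* `exists_eq_pow_smul_of_redHom_eq` : two elements of `Hp N p` with the same reduction modulo
                           `p ^ n` differ by an element of `p ^ n • Hp N p`.
-/

set_option autoImplicit false

namespace Fermat.Agent.S30

open Fermat.Agent.S42 CongruenceSubgroup
open scoped MatrixGroups

namespace TateLimit

/-- A compatible sequence of residues modulo `p ^ n` is the sequence of reductions of a `p`-adic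
integer. -/
theorem exists_padicInt_of_compat (p : ℕ) [Fact p.Prime] (a : ∀ n : ℕ, ZMod (p ^ n))
    (ha : ∀ n, ZMod.castHom (pow_dvd_pow p (Nat.le_succ n)) (ZMod (p ^ n)) (a (n + 1)) = a n) :
    ∃ x : ℤ_[p], ∀ n, PadicInt.toZModPow n x = a n := by
  have hi : ∀ i, (p : ℤ) ^ i ∣ ((a (i + 1)).val : ℤ) - ((a i).val : ℤ) := by
    intro i
    have h1 := ha i
    rw [ZMod.castHom_apply] at h1
    rw [← Nat.cast_pow, ← ZMod.intCast_eq_intCast_iff_dvd_sub, Int.cast_natCast,
      Int.cast_natCast, ZMod.natCast_zmod_val, ZMod.natCast_val]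
    exact h1.symm
  refine ⟨PadicInt.ofIntSeq _ (PadicInt.isCauSeq_padicNorm_of_pow_dvd_sub
    (fun i => ((a i).val : ℤ)) p hi), fun n => ?_⟩
  rw [PadicInt.toZModPow_ofIntSeq_of_pow_dvd_sub (fun i => ((a i).val : ℤ)) p hi n,
    Int.cast_natCast, ZMod.natCast_zmod_val]

end TateLimit

/-- The reduction modulo `p ^ n` is the reduction modulo `p ^ n` of the reduction modulo
`p ^ (n + 1)`. -/
theorem redHom_succ (N p : ℕ) [Fact p.Prime] (n : ℕ) (φ : Additive ↥(Gamma0 N) →+ ℤ_[p]) :
    (ZMod.castHom (pow_dvd_pow p (Nat.le_succ n)) (ZMod (p ^ n))).toAddMonoidHom.comp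
      (redHom N p (n + 1) φ) = redHom N p n φ :=
  AddMonoidHom.ext fun γ =>
    RingHom.congr_fun (PadicInt.zmod_cast_comp_toZModPow n (n + 1) (Nat.le_succ n)) (φ γ)

/-- A character with values in `ℤ_p` is determined by its reductions modulo all `p ^ n`. -/
theorem eq_of_redHom_eq (N p : ℕ) [Fact p.Prime] {φ φ' : Additive ↥(Gamma0 N) →+ ℤ_[p]}
    (h : ∀ n, redHom N p n φ = redHom N p n φ') : φ = φ' :=
  AddMonoidHom.ext fun γ => PadicInt.ext_of_toZModPow.mp fun n => DFunLike.congr_fun (h n) γ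

/-- A compatible system of characters modulo `p ^ n` comes from a character with values in
`ℤ_p`. -/
theorem exists_hom_of_compat (N p : ℕ) [Fact p.Prime]
    (ψ : ∀ n : ℕ, Additive ↥(Gamma0 N) →+ ZMod (p ^ n))
    (hcompat : ∀ n, (ZMod.castHom (pow_dvd_pow p (Nat.le_succ n))
      (ZMod (p ^ n))).toAddMonoidHom.comp (ψ (n + 1)) = ψ n) :
    ∃ Ψ : Additive ↥(Gamma0 N) →+ ℤ_[p], ∀ n, redHom N p n Ψ = ψ n := by
  have hex : ∀ γ : Additive ↥(Gamma0 N), ∃ x : ℤ_[p], ∀ n, PadicInt.toZModPow n x = ψ n γ :=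
    fun γ => TateLimit.exists_padicInt_of_compat p (fun n => ψ n γ)
      (fun n => DFunLike.congr_fun (hcompat n) γ)
  choose F hF using hex
  refine ⟨AddMonoidHom.mk' F fun a b => PadicInt.ext_of_toZModPow.mp fun n => ?_,
    fun n => AddMonoidHom.ext fun γ => hF γ n⟩
  rw [map_add, hF, hF, hF, map_add]

/-- The reductions of a cuspidal character are cuspidal. -/
theorem isCuspidalHom_redHom (N p : ℕ) [Fact p.Prime] (n : ℕ)
    {φ : Additive ↥(Gamma0 N) →+ ℤ_[p]} (hφ : IsCuspidalHom N φ) :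
    IsCuspidalHom N (redHom N p n φ) := by
  intro γ hγ
  rw [redHom_apply, hφ γ hγ, map_zero]

/-- A character with values in `ℤ_p` all of whose reductions are cuspidal is cuspidal. -/
theorem isCuspidalHom_of_redHom (N p : ℕ) [Fact p.Prime] {φ : Additive ↥(Gamma0 N) →+ ℤ_[p]}
    (h : ∀ n, IsCuspidalHom N (redHom N p n φ)) : IsCuspidalHom N φ := by
  intro γ hγ
  refine PadicInt.ext_of_toZModPow.mp fun n => ?_
  rw [map_zero]
  exact h n γ hγ

/-- Two elements of `Hp N p` with the same reduction modulo `p ^ n` differ by an element of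
`p ^ n • Hp N p`. -/
theorem exists_eq_pow_smul_of_redHom_eq (N p : ℕ) [Fact p.Prime] (n : ℕ) (φ φ' : Hp N p)
    (h : redHom N p n (Hp.hom φ) = redHom N p n (Hp.hom φ')) :
    ∃ θ : Hp N p, φ - φ' = (p : ℤ_[p]) ^ n • θ := by
  have hp0 : (p : ℤ_[p]) ≠ 0 := by
    exact_mod_cast (Fact.out : p.Prime).ne_zero
  have hpn : (p : ℤ_[p]) ^ n ≠ 0 := pow_ne_zero n hp0
  have hex : ∀ γ : ↥(Gamma0 N), ∃ c : ℤ_[p],
      (φ : ↥(Gamma0 N) → ℤ_[p]) γ - (φ' : ↥(Gamma0 N) → ℤ_[p]) γ = (p : ℤ_[p]) ^ n * c := by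
    intro γ
    have h1 : PadicInt.toZModPow n ((φ : ↥(Gamma0 N) → ℤ_[p]) γ) =
        PadicInt.toZModPow n ((φ' : ↥(Gamma0 N) → ℤ_[p]) γ) :=
      DFunLike.congr_fun h (Additive.ofMul γ)
    have h2 : (φ : ↥(Gamma0 N) → ℤ_[p]) γ - (φ' : ↥(Gamma0 N) → ℤ_[p]) γ ∈
        RingHom.ker (PadicInt.toZModPow n : ℤ_[p] →+* ZMod (p ^ n)) := by
      rw [RingHom.mem_ker, map_sub, sub_eq_zero]
      exact h1
    rw [PadicInt.ker_toZModPow, Ideal.mem_span_singleton] at h2
    exact h2
  choose F hF using hex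
  refine ⟨⟨F, fun a b => ?_, fun γ hγ => ?_⟩, ?_⟩
  · apply mul_left_cancel₀ hpn
    rw [mul_add, ← hF, ← hF, ← hF, φ.2.1 a b, φ'.2.1 a b]
    ring
  · apply mul_left_cancel₀ hpn
    rw [← hF, mul_zero, φ.2.2 γ hγ, φ'.2.2 γ hγ, sub_zero]
  · apply Subtype.ext
    funext γ
    exact hF γ

end Fermat.Agent.S30
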