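import Fermat.Agent.S30.TateIsoCore
import Fermat.Agent.S30.TateLimit
import Fermat.Agent.S30.HeckeCusp
import Fermat.Agent.S30.KummerCompat
import Fermat.Agent.S30.KummerConverse
import Fermat.Agent.S42.Kummer
import Fermat.Agent.S42.HeckeKummer

/-!
# P15 (S30), part (A′), module TateIso: Kummer classes of `ℤ_p`-valued characters

For `φ ∈ Hp N p` (a cuspidal character `Γ₀(N) → ℤ_p`) and `n : ℕ`, `kclass N p n φ ∈ J₀(N)(ℚ̄)`
(defined in `TateIsoCore.lean`) is the Kummer class, at the modulus `p ^ n`, of the reduction of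
`φ` modulo `p ^ n`.  The maps `kclass N p n` are additive, compatible with multiplication by `p`
(`kclass_succ`), jointly injective (`eq_of_kclass_eq`), surjective onto the compatible systems of
torsion classes (`exists_of_compat_classes`) and Hecke equivariant (`kclass_heckeHp`).

All proofs are in `TateIsoCore.lean` (from the hypothesis bundle `TateIso.Inputs`); this file feeds
the actual theorems of the other modules of part (A′): the Kummer theory at the moduli `p ^ n`
(S42 `Kummer`, `HeckeKummer`), `KummerConverse`, `KummerCompat`, `TateLimit`, `HeckeCusp`.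
-/

set_option autoImplicit false

namespace Fermat.Agent.S30

open Fermat.Agent.S42 AlgebraicCurve ModularCurve CongruenceSubgroup
open scoped MatrixGroups

namespace TateIso

/-- The inputs of the module, from the other modules of part (A′). -/
theorem inputs (N p : ℕ) [NeZero N] [Fact p.Prime] : Inputs N p where
  kummer_cuspidal := fun n φ hφ => exists_isKummer_of_cuspidal N (p ^ n) φ hφ
  kummer_add := fun _ _ _ _ _ h h' => isKummer_add h h'
  kummer_neg := fun _ _ _ h => KummerBasic.isKummer_neg h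
  kummer_unique := fun _ _ _ _ h h' => isKummer_unique h h'
  kummer_zero := fun _ _ h => eq_zero_of_isKummer_zero h
  kummer_mem := fun _ _ _ h => isKummer_mem_Jp h
  kummer_hecke := fun _ _ hℓ hℓN _ _ _ h hT => isKummer_hecke hℓ hℓN h hT
  kummer_torsion := fun n c hc => exists_isKummer_of_torsion N (p ^ n) c hc
  kummer_red := fun n _ _ h => isKummer_red N p n h
  redHom_succ := fun n φ => redHom_succ N p n φ
  eq_of_redHom_eq := fun _ _ h => eq_of_redHom_eq N p h
  exists_hom_of_compat := fun ψ h => exists_hom_of_compat N p ψ h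
  cuspidal_of_redHom := fun _ h => isCuspidalHom_of_redHom N p h
  hom_heckeHp := fun ℓ hℓ hℓN φ => hom_heckeHp N p ℓ hℓ hℓN φ

end TateIso

section TateIso

variable (N p : ℕ) [NeZero N] [Fact p.Prime]

theorem isKummer_kclass (n : ℕ) (φ : Hp N p) :
    IsKummer N (p ^ n) (redHom N p n (Hp.hom φ)) (kclass N p n φ) :=
  TateIso.isKummer_kclass (TateIso.inputs N p) n φ

theorem kclass_eq_of_isKummer {n : ℕ} {φ : Hp N p} {c : JZero N}
    (h : IsKummer N (p ^ n) (redHom N p n (Hp.hom φ)) c) : kclass N p n φ = c :=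
  TateIso.kclass_eq_of_isKummer (TateIso.inputs N p) h

theorem kclass_mem_Jp (n : ℕ) (φ : Hp N p) : kclass N p n φ ∈ Jp N (p ^ n) :=
  TateIso.kclass_mem_Jp (TateIso.inputs N p) n φ

theorem kclass_add (n : ℕ) (φ ψ : Hp N p) :
    kclass N p n (φ + ψ) = kclass N p n φ + kclass N p n ψ :=
  TateIso.kclass_add (TateIso.inputs N p) n φ ψ

theorem kclass_zero (n : ℕ) : kclass N p n 0 = 0 :=
  TateIso.kclass_zero (TateIso.inputs N p) n

theorem kclass_neg (n : ℕ) (φ : Hp N p) : kclass N p n (-φ) = -kclass N p n φ :=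
  TateIso.kclass_neg (TateIso.inputs N p) n φ

theorem kclass_sub (n : ℕ) (φ ψ : Hp N p) :
    kclass N p n (φ - ψ) = kclass N p n φ - kclass N p n ψ :=
  TateIso.kclass_sub (TateIso.inputs N p) n φ ψ

theorem kclass_natCast_smul (n k : ℕ) (φ : Hp N p) :
    kclass N p n ((k : ℤ_[p]) • φ) = (k : ℤ) • kclass N p n φ :=
  TateIso.kclass_natCast_smul (TateIso.inputs N p) n k φ

theorem kclass_succ (n : ℕ) (φ : Hp N p) :
    (p : ℤ) • kclass N p (n + 1) φ = kclass N p n φ :=
  TateIso.kclass_succ (TateIso.inputs N p) n φ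

theorem kclass_eq_iff (n : ℕ) (φ ψ : Hp N p) :
    kclass N p n φ = kclass N p n ψ ↔
      redHom N p n (Hp.hom φ) = redHom N p n (Hp.hom ψ) :=
  TateIso.kclass_eq_iff (TateIso.inputs N p) n φ ψ

theorem eq_of_kclass_eq {φ ψ : Hp N p} (h : ∀ n, kclass N p n φ = kclass N p n ψ) : φ = ψ :=
  TateIso.eq_of_kclass_eq (TateIso.inputs N p) h

theorem exists_of_compat_classes (c : ℕ → JZero N) (hc : ∀ n, c n ∈ Jp N (p ^ n))
    (hcompat : ∀ n, (p : ℤ) • c (n + 1) = c n) :
    ∃ φ : Hp N p, ∀ n, kclass N p n φ = c n :=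
  TateIso.exists_of_compat_classes (TateIso.inputs N p) c hc hcompat

theorem kclass_heckeHp (n ℓ : ℕ) (hℓ : ℓ.Prime) (hℓN : ¬ ℓ ∣ N) (φ : Hp N p) :
    kclass N p n (heckeHp N p ℓ hℓ hℓN φ) = heckeOperatorBar N ⟨ℓ, hℓ⟩ (kclass N p n φ) :=
  TateIso.kclass_heckeHp (TateIso.inputs N p) n ℓ hℓ hℓN φ

end TateIso

end Fermat.Agent.S30
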