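import Fermat.Agent.S30.TateDatumCore
import Fermat.Agent.S30.TateIso
import Fermat.Agent.S30.KummerFin

/-!
# P15 (S30), part (A′): interface (I1) — the Tate datum

The Galois action `galHp N p` on the lattice `Hp N p` of cuspidal additive characters
`Γ₀(N) → ℤ_p` commutes with the Hecke operators, satisfies the Eichler–Shimura relation at every
Frobenius lift at `ℓ ∤ N p`, is trivial on inertia at `q ∤ N p` and is adically continuous, as
soon as the Frobenius relation and the triviality of inertia hold on every `J₀(N)[p ^ n]`.

The proof is in `TateDatumCore.lean` (`TateDatum.isTateDatum_of`); here its inputs are discharged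
by `TateIso.inputs` (module `TateIso`) and `exists_fixing_field` (module `KummerFin`).
-/

set_option autoImplicit false

namespace Fermat.Agent.S30

open Fermat.Agent.S42 AlgebraicCurve ModularCurve CongruenceSubgroup

/-- **Interface (I1).** The Galois action `galHp N p` on the lattice `Hp N p` is a Tate datum:
it commutes with the Hecke operators, satisfies the Eichler–Shimura relation, is unramified
outside `N p` and adically continuous. -/
theorem tateDatum (N p : ℕ) [NeZero N] [Fact p.Prime]
    (hE1 : ∀ n : ℕ, FrobeniusRelation N (p ^ n)) (hE2 : ∀ n : ℕ, InertiaTrivial N (p ^ n)) :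
    IsTateDatum N p (galHp N p) :=
  TateDatum.isTateDatum_of (TateIso.inputs N p)
    (fun n =>
      have : NeZero (p ^ n) := ⟨pow_ne_zero n (Fact.out : p.Prime).ne_zero⟩
      exists_fixing_field N (p ^ n))
    hE1 hE2

end Fermat.Agent.S30
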