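import Fermat.Agent.S42.OrdDict
import Fermat.Agent.S42.RootDvd

set_option autoImplicit false

namespace Fermat.Agent.S30.CuspConvBEll

open Fermat.Agent.S24 Fermat.Agent.S42 UpperHalfPlane Filter Topology
open scoped MatrixGroups

/-- The multiplier lemma with a constant. -/
theorem multiplier_const {m G : ℂ → ℂ} {t : ℂ} {n : ℤ} {c : ℂ} (hm : MeromorphicAt m t)
    (hn : meromorphicOrderAt m t = n) (hG : DifferentiableAt ℂ G t) (hGt : G t = t)
    (hG' : deriv G t ≠ 0) (hinv : ∀ᶠ z in 𝓝[≠] t, m (G z) = c * m z) :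
    deriv G t ^ n = c := by
  obtain ⟨g, hg, hg0, hgm⟩ := (meromorphicOrderAt_eq_int_iff hm).mp hn
  set s : ℂ → ℂ := dslope G t with hs
  have hsc : ContinuousAt s t := continuousAt_dslope_same.mpr hG
  have hst : s t = deriv G t := dslope_same G t
  have hGz : ∀ z, G z - t = (z - t) * s z := by
    intro z
    have h := sub_smul_dslope G t z
    rw [hGt] at h
    rw [← h, smul_eq_mul]
  have hs0 : ∀ᶠ z in 𝓝 t, s z ≠ 0 := hsc.eventually_ne (by rwa [hst])
  have hGtend : Tendsto G (𝓝[≠] t) (𝓝[≠] t) := by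
    rw [tendsto_nhdsWithin_iff]
    constructor
    · have h := hG.continuousAt.tendsto
      rw [hGt] at h
      exact h.mono_left nhdsWithin_le_nhds
    · filter_upwards [self_mem_nhdsWithin, hs0.filter_mono nhdsWithin_le_nhds] with z hz hsz
      intro h
      have h2 := hGz z
      rw [h, sub_self] at h2
      exact (mul_ne_zero (sub_ne_zero.mpr hz) hsz) h2.symm
  have hgm' : ∀ᶠ z in 𝓝[≠] t, m (G z) = (G z - t) ^ n • g (G z) := hGtend.eventually hgm
  have hmain : (fun z => c * g z) =ᶠ[𝓝[≠] t] (fun z => s z ^ n * g (G z)) := by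
    filter_upwards [hgm, hgm', hinv, self_mem_nhdsWithin] with z h1 h2 h3 hz
    have hz' : z - t ≠ 0 := sub_ne_zero.mpr hz
    rw [h1, h2, hGz z, mul_zpow, smul_eq_mul, smul_eq_mul, mul_assoc, mul_left_comm c] at h3
    exact (mul_left_cancel₀ (zpow_ne_zero n hz') h3).symm
  have hc1 : ContinuousAt (fun z => c * g z) t := continuousAt_const.mul hg.continuousAt
  have hc2 : ContinuousAt (fun z => s z ^ n * g (G z)) t := by
    apply ContinuousAt.mul
    · exact hsc.zpow₀ n (Or.inl (by rwa [hst]))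
    · have h : ContinuousAt g (G t) := by
        rw [hGt]
        exact hg.continuousAt
      exact h.comp hG.continuousAt
  have heq : c * g t = s t ^ n * g (G t) :=
    ((hc1.eventuallyEq_nhds_iff_eventuallyEq_nhdsNE hc2).mp hmain).eq_of_nhds
  rw [hGt, hst] at heq
  have h0 : (deriv G t ^ n - c) * g t = 0 := by
    rw [sub_mul, ← heq, sub_self]
  rcases mul_eq_zero.mp h0 with h | h
  · exact sub_eq_zero.mp h
  · exact absurd h hg0

/-- (E2) the multiplier identity with a constant. -/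
theorem mul_multiplier_zpow_eq_one (γ : SL(2, ℤ)) (τ : ℍ) (hγ : γ • τ = τ) {x : Mer}
    (hx : x ≠ 0) (c : ℂ) (hinv : compSL γ x = RootDvd.merC c * x) :
    c * (((γ 1 0 : ℤ) : ℂ) * (τ : ℂ) + ((γ 1 1 : ℤ) : ℂ)) ^ (2 * merOrd τ x) = 1 := by
  obtain ⟨a, b, hb, rfl⟩ := mer_exists_div x
  have ha : a ≠ 0 := (mer_div_ne_zero_iff hb).mp hx
  have hb' : compSLHol γ b ≠ 0 := fun h => hb (compSLHol_injective γ (h.trans (map_zero _).symm))
  rw [compSL_div, RootDvd.merC_apply, ← mul_div_assoc] at hinv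
  have key : compSLHol γ a * b = holC c * a * compSLHol γ b := by
    apply IsFractionRing.injective Hol Mer
    rw [map_mul, map_mul, map_mul]
    rwa [div_eq_div_iff (mer_algebraMap_ne_zero hb') (mer_algebraMap_ne_zero hb)] at hinv
  set g : GL (Fin 2) ℝ := Matrix.SpecialLinearGroup.mapGL ℝ γ with hg
  set G : ℂ → ℂ := fun z => ((g • ofComplex z : ℍ) : ℂ) with hG
  have hGt : G τ = τ := by
    simp only [hG, ofComplex_apply]
    exact congrArg _ hγ
  have hGd : HasStrictDerivAt G (g.val.det / denom g τ ^ 2) τ :=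
    UpperHalfPlane.hasStrictDerivAt_smul (mer_det_pos γ) τ
  have hdet : ((g.val.det : ℝ) : ℂ) = 1 := by
    have h : (Matrix.SpecialLinearGroup.mapGL ℝ γ : GL (Fin 2) ℝ).val.det = 1 := by
      rw [← Matrix.GeneralLinearGroup.val_det_apply, Matrix.SpecialLinearGroup.det_mapGL]
      rfl
    rw [hg, h, Complex.ofReal_one]
  have hderiv : deriv G τ = 1 / denom g τ ^ 2 := by
    rw [hGd.hasDerivAt.deriv, hdet]
  have hden : denom g τ = ((γ 1 0 : ℤ) : ℂ) * (τ : ℂ) + ((γ 1 1 : ℤ) : ℂ) := by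
    simp [denom, hg]
  have hne : denom g τ ≠ 0 := denom_ne_zero g τ
  have hn : meromorphicOrderAt (merFun a b) (τ : ℂ) =
      ((merOrd τ (algebraMap Hol Mer a / algebraMap Hol Mer b) : ℤ) : WithTop ℤ) := by
    rw [merOrd_div_eq τ a hb,
      WithTop.coe_untop₀_of_ne_top (mer_meromorphicOrderAt_ne_top ha hb τ)]
  have hinvF : ∀ᶠ z in 𝓝[≠] (τ : ℂ), merFun a b (G z) = c * merFun a b z := by
    filter_upwards [mer_eventually_ne hb τ, mer_eventually_ne hb' τ] with z h1 h2
    simp only [Function.comp_apply] at h1 h2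
    have key' := congrArg (fun h : Hol => (h : ℍ → ℂ) (ofComplex z)) key
    simp only [Subring.coe_mul, Pi.mul_apply] at key'
    have h2' : (b : ℍ → ℂ) (g • ofComplex z) ≠ 0 := h2
    have key'' : (a : ℍ → ℂ) (g • ofComplex z) * (b : ℍ → ℂ) (ofComplex z) =
        c * (a : ℍ → ℂ) (ofComplex z) * (b : ℍ → ℂ) (g • ofComplex z) := key'
    simp only [merFun, hG, ofComplex_apply]
    rw [← mul_div_assoc, div_eq_div_iff h2' h1]
    exact key''
  have hm := multiplier_const (mer_meromorphicAt a b τ) hn hGd.hasDerivAt.differentiableAt hGt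
    (by rw [hderiv]; exact one_div_ne_zero (pow_ne_zero 2 hne)) hinvF
  rw [hderiv, one_div, inv_zpow] at hm
  rw [← hden, zpow_mul, ← hm]
  have h0 : (denom g τ ^ 2) ^ merOrd τ (algebraMap Hol Mer a / algebraMap Hol Mer b) ≠ 0 :=
    zpow_ne_zero _ (pow_ne_zero 2 hne)
  have h1 : (denom g τ ^ (2 : ℤ)) = denom g τ ^ 2 := by norm_cast
  rw [h1]
  exact inv_mul_cancel₀ h0

end Fermat.Agent.S30.CuspConvBEll
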