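import Fermat.Agent.S42.OrdDict
import Fermat.Agent.S42.RootDvd

set_option autoImplicit false

namespace Fermat.Agent.S30.CuspConvBPar

open Fermat.Agent.S24 Fermat.Agent.S42 UpperHalfPlane Filter Topology
open scoped MatrixGroups

/-- The lower left entry of `h * γ * h⁻¹`. -/
theorem conj_entry (h γ : SL(2, ℤ)) :
    (h * γ * h⁻¹) 1 0 =
      h 1 0 * h 1 1 * (γ 0 0 - γ 1 1) + h 1 1 ^ 2 * γ 1 0 - h 1 0 ^ 2 * γ 0 1 := by
  simp only [Matrix.SpecialLinearGroup.coe_mul, Matrix.SpecialLinearGroup.coe_inv,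
    Matrix.adjugate_fin_two, Matrix.mul_apply, Fin.sum_univ_two, Matrix.of_apply,
    Matrix.cons_val', Matrix.cons_val_zero, Matrix.cons_val_one, Matrix.cons_val_fin_one]
  ring

/-- (P1) an element of SL(2, ℤ) with trace ±2 acts on ℍ as a conjugate of a power of T. -/
theorem exists_conj_T_zpow (γ : SL(2, ℤ))
    (h : (γ : Matrix (Fin 2) (Fin 2) ℤ).trace ^ 2 = 4) :
    ∃ (g : SL(2, ℤ)) (k : ℤ), ∀ z : ℍ, γ • z = (g * ModularGroup.T ^ k * g⁻¹) • z := by
  have hdet : γ 0 0 * γ 1 1 - γ 0 1 * γ 1 0 = 1 := by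
    have := γ.det_coe
    rwa [Matrix.det_fin_two] at this
  rw [Matrix.trace_fin_two] at h
  obtain ⟨ε, hε2, hε⟩ : ∃ ε : ℤ, ε ^ 2 = 1 ∧ γ 0 0 + γ 1 1 = 2 * ε := by
    have h' : (γ 0 0 + γ 1 1 - 2) * (γ 0 0 + γ 1 1 + 2) = 0 := by linear_combination h
    rcases mul_eq_zero.mp h' with h1 | h1
    · exact ⟨1, by norm_num, by linear_combination h1⟩
    · exact ⟨-1, by norm_num, by linear_combination h1⟩
  by_cases hc : γ 1 0 = 0
  · obtain ⟨k, hk⟩ := ModularGroup.exists_eq_T_zpow_of_c_eq_zero hc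
    exact ⟨1, k, fun z => by rw [one_mul, inv_one, mul_one]; exact hk z⟩
  · have hpos : 0 < Int.gcd (γ 1 0) (ε - γ 0 0) :=
      Int.gcd_pos_of_ne_zero_left _ hc
    obtain ⟨r₀, r₁, hgcd, hr₀, hr₁⟩ := Int.exists_gcd_one hpos
    set δ : ℤ := (Int.gcd (γ 1 0) (ε - γ 0 0) : ℤ) with hδ
    have hδ0 : δ ≠ 0 := by
      rw [hδ]
      exact_mod_cast hpos.ne'
    have hcop : IsCoprime r₀ r₁ := Int.isCoprime_iff_gcd_eq_one.mpr hgcd
    obtain ⟨hh, -, hrow⟩ := ModularGroup.bottom_row_surj (R := ℤ)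
      (show (![r₀, r₁] : Fin 2 → ℤ) ∈ {cd : Fin 2 → ℤ | IsCoprime (cd 0) (cd 1)} by
        simpa using hcop)
    have h10 : hh 1 0 = r₀ := by
      have := congrFun hrow 0
      simpa using this
    have h11 : hh 1 1 = r₁ := by
      have := congrFun hrow 1
      simpa using this
    have hentry : (hh * γ * hh⁻¹) 1 0 = 0 := by
      rw [conj_entry, h10, h11]
      have hkey : δ ^ 2 * (r₀ * r₁ * (γ 0 0 - γ 1 1) + r₁ ^ 2 * γ 1 0 - r₀ ^ 2 * γ 0 1) = 0 := by
        have e1 : r₀ * δ = γ 1 0 := hr₀.symm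
        have e2 : r₁ * δ = ε - γ 0 0 := hr₁.symm
        have hz : (ε - γ 0 0) * (ε - γ 1 1) - γ 0 1 * γ 1 0 = 0 := by
          linear_combination (-1) * hε2 - ε * hε + hdet
        have : δ ^ 2 * (r₀ * r₁ * (γ 0 0 - γ 1 1) + r₁ ^ 2 * γ 1 0 - r₀ ^ 2 * γ 0 1) =
            γ 1 0 * ((ε - γ 0 0) * (ε - γ 1 1) - γ 0 1 * γ 1 0) := by
          rw [← e1]
          have e3 : γ 0 0 = ε - r₁ * δ := by linear_combination e2
          rw [e3]
          ring
        rw [this, hz, mul_zero]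
      rcases mul_eq_zero.mp hkey with h0 | h0
      · exact absurd ((pow_eq_zero_iff two_ne_zero).mp h0) hδ0
      · exact h0
    obtain ⟨k, hk⟩ := ModularGroup.exists_eq_T_zpow_of_c_eq_zero hentry
    refine ⟨hh⁻¹, k, fun z => ?_⟩
    rw [inv_inv]
    have h1 := hk (hh • z)
    have h2 : γ • z = hh⁻¹ • ((hh * γ * hh⁻¹) • (hh • z)) := by
      rw [mul_smul, mul_smul, inv_smul_smul, inv_smul_smul]
    rw [h2, h1, mul_smul, mul_smul]

/-- (P2) the action on MerN only depends on the action on ℍ. -/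
theorem act_congr (N : ℕ) {γ γ' : SL(2, ℤ)} (h : ∀ z : ℍ, γ • z = γ' • z) (x : MerN N) :
    act N γ x = act N γ' x := by
  have he : act N γ = act N γ' := by
    apply MerN_ringHom_ext
    intro f
    rw [act_algebraMap, act_algebraMap]
    congr 1
    apply Subtype.ext
    funext τ
    rw [coe_actR, coe_actR]
    show (f : ℍ → ℂ) (γ • τ) = (f : ℍ → ℂ) (γ' • τ)
    rw [h τ]
  rw [he]

/-- (P3) integer powers of T rotate the expansion at infinity. -/
theorem qInfM_act_T_zpow (N : ℕ) [NeZero N] (k : ℤ) (y : MerN N) :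
    qInfM N (act N (ModularGroup.T ^ k) y) = laurentRot (zetaUnit N ^ k) (qInfM N y) := by
  obtain ⟨m, rfl | rfl⟩ := Int.eq_nat_or_neg k
  · rw [zpow_natCast, zpow_natCast]
    exact RootDvd.qInfM_act_T_pow N m y
  · have hy : act N (ModularGroup.T ^ m) (act N (ModularGroup.T ^ (-(m : ℤ))) y) = y := by
      rw [← act_mul, zpow_neg, zpow_natCast, inv_mul_cancel, act_one]
    have h1 := RootDvd.qInfM_act_T_pow N m (act N (ModularGroup.T ^ (-(m : ℤ))) y)
    rw [hy] at h1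
    rw [h1, ← laurentRot_mul, ← zpow_natCast (zetaUnit N) m, ← zpow_add, neg_add_cancel, zpow_zero,
      laurentRot_one]

end Fermat.Agent.S30.CuspConvBPar
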