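import Fermat.Agent.S30.PeriodCharCore
import Fermat.Agent.S30.EigenCharB

/-!
# P15 (S30), part (A′): the eigen-character attached to a character of the Hecke algebra

For a character `χ : 𝕋 → R` of the weight two Hecke algebra of level `Γ₀(N)` with values in a
domain `R` of characteristic zero there is a nonzero cuspidal additive character
`ψ : Γ₀(N) → R`, with values in `χ.range`, whose Hecke transform under `T_ℓ` is `χ (T_ℓ) · ψ` for
every prime `ℓ ∤ N` outside `S`: take a common eigenvector `g` of `𝕋` with eigensystem `χ`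
(`exists_eigenform_of_char_B`) and descend its period homomorphism
(`PeriodCharCore.exists_eigen_hom_of_eigenform`).
-/

set_option autoImplicit false

namespace Fermat.Agent.S30

open Fermat.Agent.S42 ModularCurve CongruenceSubgroup UpperHalfPlane
open scoped MatrixGroups

/-- The eigensystem `χ` of the Hecke algebra occurs in the cuspidal characters of `Γ₀(N)` with
values in `χ.range`. -/
theorem exists_eigen_hom (N : ℕ) [NeZero N] (S : Set ℕ) {R : Type*} [CommRing R] [IsDomain R]
    [CharZero R] (χ : CuspForm.heckeAlgebra N 2 S →+* R) :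
    ∃ ψ : Additive ↥(Gamma0 N) →+ R, ψ ≠ 0 ∧ IsCuspidalHom N ψ ∧ (∀ γ, ψ γ ∈ χ.range) ∧
      ∀ (ℓ : ℕ) (hℓ : ℓ.Prime) (hℓN : ¬ ℓ ∣ N) (hℓS : ℓ ∉ S),
        heckeFun N ℓ hℓ hℓN ψ =
          (AddMonoidHom.mulLeft (χ (CuspForm.heckeAlgebra.T hℓ hℓN hℓS))).comp ψ := by
  obtain ⟨g, e, hg, he, heig⟩ := exists_eigenform_of_char_B N S χ
  exact PeriodCharCore.exists_eigen_hom_of_eigenform N S χ g e hg he heig

end Fermat.Agent.S30
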