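import Fermat.Agent.S30.TateDefs
import Fermat.Agent.S42.PeriodEigen

/-!
# P15 (S30), part (A′), module PeriodChar (second team): the algebraic core

`PeriodCharB.exists_eigen_hom_of_eigenform`: if a nonzero cusp form `g ∈ S₂(Γ₀(N))` is an
eigenvector of the Hecke algebra with character `e ∘ χ` (`e : χ.range →+* ℂ` injective), then
there is a nonzero cuspidal additive character `ψ : Γ₀(N) → R` with values in `χ.range` which is an
eigenvector of the Hecke transforms `T_ℓ` on characters with eigenvalues `χ T_ℓ`.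

The character is the period map of `g` pushed through a functional `ℂ → Frac(χ.range)` which is
linear over `Frac(χ.range)`, with denominators cleared (`Γ₀(N)` is finitely generated).
-/

set_option autoImplicit false

namespace Fermat.Agent.S30

open Fermat.Agent.S42 CongruenceSubgroup UpperHalfPlane ModularCurve
open scoped MatrixGroups

namespace PeriodCharB

/-- Algebraic core: a nonzero homomorphism `P` from a finitely generated group to a field `K`
containing (through `e`) a domain `R₀` can be pushed to a nonzero homomorphism `ψ₀` with values in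
`R₀` by a map `Λ : K → Frac R₀` which is semilinear over `R₀`, up to a denominator `d`. -/
theorem exists_functional {R₀ : Type*} [CommRing R₀] [IsDomain R₀] {K : Type*} [Field K]
    (e : R₀ →+* K) (he : Function.Injective e) {G : Type*} [Group G] (hG : Group.FG G)
    (P : Additive G →+ K) (hP : P ≠ 0) :
    ∃ (ψ₀ : Additive G →+ R₀) (Λ : K →+ FractionRing R₀) (d : R₀),
      ψ₀ ≠ 0 ∧
      (∀ γ, algebraMap R₀ (FractionRing R₀) (ψ₀ γ)
        = algebraMap R₀ (FractionRing R₀) d * Λ (P γ)) ∧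
      (∀ (r : R₀) (x : K), Λ (e r * x) = algebraMap R₀ (FractionRing R₀) r * Λ x) := by
  classical
  obtain ⟨γ₀, hγ₀⟩ : ∃ γ₀, P γ₀ ≠ 0 := by
    by_contra h
    exact hP (AddMonoidHom.ext fun γ => not_not.mp fun hγ => h ⟨γ, hγ⟩)
  let et : FractionRing R₀ →+* K := IsFractionRing.lift he
  have het : ∀ r : R₀, et (algebraMap R₀ (FractionRing R₀) r) = e r :=
    fun r => IsFractionRing.lift_algebraMap he r
  let _instAlg : Algebra (FractionRing R₀) K := et.toAlgebra
  obtain ⟨L, hL⟩ : ∃ L : K →ₗ[FractionRing R₀] FractionRing R₀, L (P γ₀) ≠ 0 :=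
    Module.Projective.exists_dual_ne_zero (FractionRing R₀) hγ₀
  have hLsemi : ∀ (r : R₀) (x : K),
      L (e r * x) = algebraMap R₀ (FractionRing R₀) r * L x := by
    intro r x
    have h1 : e r * x = (algebraMap R₀ (FractionRing R₀) r) • x := by
      rw [Algebra.smul_def, RingHom.algebraMap_toAlgebra, het]
    rw [h1, map_smul, smul_eq_mul]
  obtain ⟨S₀, hS₀, hfin⟩ := Group.fg_iff.mp hG
  obtain ⟨b, hb⟩ := IsLocalization.exist_integer_multiples_of_finset (nonZeroDivisors R₀)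
    (hfin.toFinset.image (fun s : G => L (P (Additive.ofMul s))))
  have hd0 : (b : R₀) ≠ 0 := nonZeroDivisors.coe_ne_zero b
  have hjinj : Function.Injective (algebraMap R₀ (FractionRing R₀)) :=
    IsFractionRing.injective R₀ (FractionRing R₀)
  let jA : R₀ →+ FractionRing R₀ := (algebraMap R₀ (FractionRing R₀)).toAddMonoidHom
  have hjA : Function.Injective jA := hjinj
  let Q : Additive G →+ FractionRing R₀ :=
    (AddMonoidHom.mulLeft (algebraMap R₀ (FractionRing R₀) (b : R₀))).comp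
      (L.toAddMonoidHom.comp P)
  have hQapp : ∀ γ, Q γ = algebraMap R₀ (FractionRing R₀) (b : R₀) * L (P γ) := fun γ => rfl
  have hmem : ∀ g : G, Q (Additive.ofMul g) ∈ jA.range := by
    intro g
    have hg : g ∈ Subgroup.closure S₀ := by
      rw [hS₀]
      exact Subgroup.mem_top g
    induction hg using Subgroup.closure_induction with
    | mem x hx =>
      have hx' : L (P (Additive.ofMul x)) ∈
          hfin.toFinset.image (fun s : G => L (P (Additive.ofMul s))) :=
        Finset.mem_image.mpr ⟨x, hfin.mem_toFinset.mpr hx, rfl⟩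
      obtain ⟨y, hy⟩ := hb _ hx'
      refine ⟨y, ?_⟩
      rw [hQapp, ← Algebra.smul_def]
      exact hy
    | one => rw [ofMul_one, map_zero]; exact jA.range.zero_mem
    | mul x y _ _ hx hy => rw [ofMul_mul, map_add]; exact jA.range.add_mem hx hy
    | inv x _ hx => rw [ofMul_inv, map_neg]; exact jA.range.neg_mem hx
  have hmem' : ∀ γ : Additive G, Q γ ∈ jA.range := fun γ => hmem (Additive.toMul γ)
  let ψ₀ : Additive G →+ R₀ :=
    (AddMonoidHom.ofInjective hjA).symm.toAddMonoidHom.comp (Q.codRestrict jA.range hmem')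
  have hψ₀ : ∀ γ, algebraMap R₀ (FractionRing R₀) (ψ₀ γ) = Q γ := by
    intro γ
    have h := AddMonoidHom.apply_ofInjective_symm hjA (Q.codRestrict jA.range hmem' γ)
    exact h
  refine ⟨ψ₀, L.toAddMonoidHom, (b : R₀), ?_, ?_, ?_⟩
  · intro h0
    have h1 := hψ₀ γ₀
    rw [h0, AddMonoidHom.zero_apply, map_zero, hQapp] at h1
    rcases mul_eq_zero.mp h1.symm with h2 | h2
    · exact hd0 (hjinj (by rw [h2, map_zero]))
    · exact hL h2
  · intro γ
    rw [hψ₀ γ, hQapp]
    rfl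
  · intro r x
    exact hLsemi r x

/-- Transport of the eigen-equation through the functional of `exists_functional`. -/
theorem heckeFun_eq_mulLeft_comp {N ℓ : ℕ} (hℓ : ℓ.Prime) (hℓN : ¬ ℓ ∣ N)
    {R₀ : Type*} [CommRing R₀] [IsDomain R₀] {K : Type*} [Field K] (e : R₀ →+* K)
    (P : Additive ↥(Gamma0 N) →+ K) (ψ₀ : Additive ↥(Gamma0 N) →+ R₀)
    (Λ : K →+ FractionRing R₀) (d : R₀)
    (hψ₀ : ∀ γ, algebraMap R₀ (FractionRing R₀) (ψ₀ γ)
        = algebraMap R₀ (FractionRing R₀) d * Λ (P γ))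
    (hΛ : ∀ (r : R₀) (x : K), Λ (e r * x) = algebraMap R₀ (FractionRing R₀) r * Λ x)
    (lam : R₀) (hP : heckeFun N ℓ hℓ hℓN P = (AddMonoidHom.mulLeft (e lam)).comp P) :
    heckeFun N ℓ hℓ hℓN ψ₀ = (AddMonoidHom.mulLeft lam).comp ψ₀ := by
  have hjinj : Function.Injective (algebraMap R₀ (FractionRing R₀)) :=
    IsFractionRing.injective R₀ (FractionRing R₀)
  let jA : R₀ →+ FractionRing R₀ := (algebraMap R₀ (FractionRing R₀)).toAddMonoidHom
  let f : K →+ FractionRing R₀ :=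
    (AddMonoidHom.mulLeft (algebraMap R₀ (FractionRing R₀) d)).comp Λ
  have h1 : jA.comp ψ₀ = f.comp P := AddMonoidHom.ext fun γ => hψ₀ γ
  have h2 : jA.comp (heckeFun N ℓ hℓ hℓN ψ₀) = f.comp (heckeFun N ℓ hℓ hℓN P) := by
    rw [← heckeFun_comp, ← heckeFun_comp, h1]
  refine AddMonoidHom.ext fun γ => ?_
  apply hjinj
  have h3 := DFunLike.congr_fun h2 γ
  rw [hP] at h3
  have h4 : algebraMap R₀ (FractionRing R₀) (heckeFun N ℓ hℓ hℓN ψ₀ γ)
      = algebraMap R₀ (FractionRing R₀) d * Λ (e lam * P γ) := h3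
  rw [h4, hΛ]
  show _ = algebraMap R₀ (FractionRing R₀) (lam * ψ₀ γ)
  rw [map_mul, hψ₀ γ]
  ring

/-- The period character of a Hecke eigenform with eigencharacter `e ∘ χ`. -/
theorem exists_eigen_hom_of_eigenform (N : ℕ) [NeZero N] (S : Set ℕ) {R : Type*} [CommRing R]
    [IsDomain R] (χ : CuspForm.heckeAlgebra N 2 S →+* R)
    (g : CuspForm (Gamma0 N) 2) (e : ↥χ.range →+* ℂ) (hg : g ≠ 0) (he : Function.Injective e)
    (hev : ∀ T : CuspForm.heckeAlgebra N 2 S,
      (T : Module.End ℂ (CuspForm (Gamma0 N) 2)) g = e ⟨χ T, T, rfl⟩ • g) :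
    ∃ ψ : Additive ↥(Gamma0 N) →+ R, ψ ≠ 0 ∧ IsCuspidalHom N ψ ∧ (∀ γ, ψ γ ∈ χ.range) ∧
      ∀ (ℓ : ℕ) (hℓ : ℓ.Prime) (hℓN : ¬ ℓ ∣ N) (hℓS : ℓ ∉ S),
        heckeFun N ℓ hℓ hℓN ψ =
          (AddMonoidHom.mulLeft (χ (CuspForm.heckeAlgebra.T hℓ hℓN hℓS))).comp ψ := by
  have hjinj : Function.Injective (algebraMap ↥χ.range (FractionRing ↥χ.range)) :=
    IsFractionRing.injective ↥χ.range (FractionRing ↥χ.range)
  obtain ⟨ψ₀, Λ, d, hψ₀ne, hψ₀, hΛ⟩ := exists_functional e he (gamma0_fg N) (periodMap N g)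
    (PeriodEigen.periodMap_ne_zero N g hg)
  let s : ↥χ.range →+ R := χ.range.subtype.toAddMonoidHom
  have hs : ∀ x : ↥χ.range, s x = (x : R) := fun x => rfl
  refine ⟨s.comp ψ₀, ?_, ?_, ?_, ?_⟩
  · intro h0
    apply hψ₀ne
    refine AddMonoidHom.ext fun γ => ?_
    have h1 := DFunLike.congr_fun h0 γ
    exact Subtype.ext h1
  · intro γ hγ
    have h1 := hψ₀ (Additive.ofMul γ)
    rw [PeriodEigen.periodMap_cuspidal N g γ hγ, map_zero, mul_zero] at h1
    have h2 : ψ₀ (Additive.ofMul γ) = 0 := hjinj (by rw [h1, map_zero])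
    show s (ψ₀ (Additive.ofMul γ)) = 0
    rw [h2, map_zero]
  · intro γ
    exact (ψ₀ γ).2
  · intro ℓ hℓ hℓN hℓS
    have hT : IsHeckeTransform N ℓ (periodMap N g)
        (periodMap N (e ⟨χ (CuspForm.heckeAlgebra.T hℓ hℓN hℓS), _, rfl⟩ • g)) :=
      periodMap_hecke N hℓ hℓN g _ (fun τ => by
        have h1 := hev (CuspForm.heckeAlgebra.T hℓ hℓN hℓS)
        exact (congrArg (fun f : CuspForm (Gamma0 N) 2 => f τ) h1).symm)
    have hlin : periodMap N (e ⟨χ (CuspForm.heckeAlgebra.T hℓ hℓN hℓS), _, rfl⟩ • g)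
        = e ⟨χ (CuspForm.heckeAlgebra.T hℓ hℓN hℓS), _, rfl⟩ • periodMap N g := by
      obtain ⟨pml, hpml⟩ := Fermat.Agent.S21.existsPeriodMapLinear' N
      rw [← hpml, ← hpml, map_smul]
    have hP : heckeFun N ℓ hℓ hℓN (periodMap N g)
        = (AddMonoidHom.mulLeft (e ⟨χ (CuspForm.heckeAlgebra.T hℓ hℓN hℓS), _, rfl⟩)).comp
            (periodMap N g) := by
      rw [heckeFun_eq hℓ hℓN hT, hlin]
      exact AddMonoidHom.ext fun γ => rfl
    have h0 := heckeFun_eq_mulLeft_comp hℓ hℓN e (periodMap N g) ψ₀ Λ d hψ₀ hΛ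
      ⟨χ (CuspForm.heckeAlgebra.T hℓ hℓN hℓS), _, rfl⟩ hP
    rw [heckeFun_comp, h0]
    refine AddMonoidHom.ext fun γ => ?_
    show s (_ * ψ₀ γ) = χ (CuspForm.heckeAlgebra.T hℓ hℓN hℓS) * s (ψ₀ γ)
    rw [hs, hs]
    rfl

end PeriodCharB

end Fermat.Agent.S30
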