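import Fermat.Agent.S30.TateDefs
import Fermat.Agent.S42.PeriodEigen

/-!
# P15 (S30), part (A′): the eigen-character attached to an eigenform (core)

Let `χ : 𝕋 → R` be a character of the weight two Hecke algebra of level `Γ₀(N)` with values in a
domain `R`, and suppose `g ≠ 0` is a cusp form and `e : χ.range → ℂ` an injective ring
homomorphism such that `T g = e (χ T) • g` for every `T ∈ 𝕋`.  Then there is a nonzero cuspidal
additive character `ψ : Γ₀(N) → R` with values in `χ.range` such that the Hecke transform of `ψ`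
under `T_ℓ` is `χ (T_ℓ) · ψ` (`PeriodCharCore.exists_eigen_hom_of_eigenform`).

Construction: `ℂ` is a vector space over `E = Frac (χ.range)` through the extension of `e`; an
`E`-linear functional `ℂ → E` not vanishing on the values of the period homomorphism
`periodMap N g` turns it into an `E`-valued eigen-character; since `Γ₀(N)` is finitely generated
a suitable nonzero multiple takes its values in `χ.range`.
-/

set_option autoImplicit false

namespace Fermat.Agent.S30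

open Fermat.Agent.S42 ModularCurve CongruenceSubgroup UpperHalfPlane
open scoped MatrixGroups

namespace PeriodCharCore

/-- A homomorphism `P` from a finitely generated group to a vector space over the fraction field
`E` of `R₀`, with `P γ₀ ≠ 0`: there are an `E`-linear functional `M` and a character `ψ₀` with
values in `R₀` such that `ψ₀ = M ∘ P` (in `E`) and `ψ₀ γ₀ ≠ 0`. -/
theorem exists_integral_functional {R₀ E V G : Type*} [CommRing R₀] [Field E] [Algebra R₀ E]
    [IsFractionRing R₀ E] [AddCommGroup V] [Module E V] [Group G] (hG : Group.FG G)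
    (P : Additive G →+ V) (γ₀ : Additive G) (hγ₀ : P γ₀ ≠ 0) :
    ∃ (M : V →ₗ[E] E) (ψ₀ : Additive G →+ R₀),
      (∀ γ, algebraMap R₀ E (ψ₀ γ) = M (P γ)) ∧ ψ₀ γ₀ ≠ 0 := by
  classical
  obtain ⟨L, hL⟩ := Module.Projective.exists_dual_ne_zero E hγ₀
  obtain ⟨S, hS, hSfin⟩ := Group.fg_iff.mp hG
  obtain ⟨b, hb⟩ := IsLocalization.exist_integer_multiples_of_finset (nonZeroDivisors R₀)
    (hSfin.toFinset.image (fun s => L (P (Additive.ofMul s))))
  have hb0 : algebraMap R₀ E (b : R₀) ≠ 0 := (IsLocalization.map_units E b).ne_zero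
  let M : V →ₗ[E] E := (algebraMap R₀ E (b : R₀)) • L
  have hM : ∀ v, M v = algebraMap R₀ E (b : R₀) * L v := fun v => rfl
  have hint : ∀ γ : G, ∃ r : R₀, algebraMap R₀ E r = M (P (Additive.ofMul γ)) := by
    intro γ
    have hγ : γ ∈ Subgroup.closure S := by
      rw [hS]
      exact Subgroup.mem_top γ
    induction hγ using Subgroup.closure_induction with
    | mem x hx =>
      obtain ⟨r, hr⟩ := hb (L (P (Additive.ofMul x)))
        (Finset.mem_image.mpr ⟨x, hSfin.mem_toFinset.mpr hx, rfl⟩)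
      exact ⟨r, by rw [hr, hM, Algebra.smul_def]⟩
    | one => exact ⟨0, by rw [map_zero, ofMul_one, map_zero, map_zero]⟩
    | mul x y _ _ hx hy =>
      obtain ⟨r, hr⟩ := hx
      obtain ⟨s, hs⟩ := hy
      exact ⟨r + s, by rw [map_add, hr, hs, ofMul_mul, map_add, map_add]⟩
    | inv x _ hx =>
      obtain ⟨r, hr⟩ := hx
      exact ⟨-r, by rw [map_neg, hr, ofMul_inv, map_neg, map_neg]⟩
  choose f hf using hint
  have hinj := IsFractionRing.injective R₀ E
  refine ⟨M, { toFun := fun γ => f (Additive.toMul γ), map_zero' := ?_, map_add' := ?_ },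
    ?_, ?_⟩
  · apply hinj
    show algebraMap R₀ E (f (Additive.toMul (0 : Additive G))) = algebraMap R₀ E 0
    rw [hf, RingHom.map_zero]
    show M (P 0) = 0
    rw [map_zero, map_zero]
  · intro a c
    apply hinj
    show algebraMap R₀ E (f (Additive.toMul (a + c)))
      = algebraMap R₀ E (f (Additive.toMul a) + f (Additive.toMul c))
    rw [RingHom.map_add, hf, hf, hf]
    show M (P (a + c)) = M (P a) + M (P c)
    rw [map_add, map_add]
  · intro γ
    exact hf _
  · intro h0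
    have h1 := hf (Additive.toMul γ₀)
    have h2 : f (Additive.toMul γ₀) = 0 := h0
    rw [h2, map_zero] at h1
    have h3 : M (P γ₀) = 0 := h1.symm
    rw [hM] at h3
    rcases mul_eq_zero.mp h3 with h | h
    · exact hb0 h
    · exact hL h

/-- The Hecke transform of the period homomorphism of a `T_ℓ`-eigenform with eigenvalue `c` is
`c` times the period homomorphism. -/
theorem heckeFun_periodMap (N : ℕ) [NeZero N] {ℓ : ℕ} (hℓ : ℓ.Prime) (hℓN : ¬ ℓ ∣ N)
    (g : CuspForm (Gamma0 N) 2) (c : ℂ) (hc : CuspForm.heckeTLin 2 hℓ hℓN g = c • g) :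
    heckeFun N ℓ hℓ hℓN (periodMap N g) = (AddMonoidHom.mulLeft c).comp (periodMap N g) := by
  have hT : IsHeckeTransform N ℓ (periodMap N g)
      (periodMap N (CuspForm.heckeTLin 2 hℓ hℓN g)) :=
    periodMap_hecke N hℓ hℓN g _ (fun τ => rfl)
  rw [heckeFun_eq hℓ hℓN hT, hc]
  obtain ⟨pml, hpml⟩ := Fermat.Agent.S21.existsPeriodMapLinear' N
  rw [← hpml, ← hpml, map_smul]
  rfl

/-- Descent of an eigen-character from `ℂ` to a subring: `R₀` is a ring with fraction field `E`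
embedded in `ℂ` by `eE` (restricting to `e` on `R₀`), and `P` is a nonzero character of `Γ₀(N)`
with values in `ℂ`.  Then there is a character `ψ₀` with values in `R₀`, nonzero where `P` is
nonzero at a given `γ₀`, vanishing wherever `P` vanishes, and such that every Hecke eigen-relation
`T_ℓ P = e lam · P` with `lam ∈ R₀` descends to `T_ℓ ψ₀ = lam · ψ₀`. -/
theorem exists_eigen_hom_generic {R₀ E : Type*} [CommRing R₀] [Field E] [Algebra R₀ E]
    [IsFractionRing R₀ E] (eE : E →+* ℂ) (e : R₀ →+* ℂ)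
    (heE : ∀ r : R₀, eE (algebraMap R₀ E r) = e r) (N : ℕ) [NeZero N]
    (P : Additive ↥(Gamma0 N) →+ ℂ) (γ₀ : Additive ↥(Gamma0 N)) (hγ₀ : P γ₀ ≠ 0) :
    ∃ ψ₀ : Additive ↥(Gamma0 N) →+ R₀, ψ₀ γ₀ ≠ 0 ∧ (∀ γ, P γ = 0 → ψ₀ γ = 0) ∧
      ∀ (ℓ : ℕ) (hℓ : ℓ.Prime) (hℓN : ¬ ℓ ∣ N) (lam : R₀),
        heckeFun N ℓ hℓ hℓN P = (AddMonoidHom.mulLeft (e lam)).comp P →
        heckeFun N ℓ hℓ hℓN ψ₀ = (AddMonoidHom.mulLeft lam).comp ψ₀ := by
  -- `ℂ` as a vector space over `E`
  let _ : Module E ℂ := Module.compHom ℂ eE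
  have hsmul : ∀ (r : E) (z : ℂ), r • z = eE r * z := fun _ _ => rfl
  have hinj := IsFractionRing.injective R₀ E
  obtain ⟨M, ψ₀, hψ₀, hne⟩ := exists_integral_functional (R₀ := R₀) (E := E) (gamma0_fg N)
    P γ₀ hγ₀
  refine ⟨ψ₀, hne, ?_, ?_⟩
  · intro γ hγ
    apply hinj
    rw [hψ₀, hγ, map_zero, map_zero]
  · intro ℓ hℓ hℓN lam hP
    have hj : (algebraMap R₀ E).toAddMonoidHom.comp ψ₀ = M.toAddMonoidHom.comp P :=
      AddMonoidHom.ext hψ₀
    have h1 : (algebraMap R₀ E).toAddMonoidHom.comp (heckeFun N ℓ hℓ hℓN ψ₀)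
        = M.toAddMonoidHom.comp ((AddMonoidHom.mulLeft (e lam)).comp P) := by
      rw [← heckeFun_comp, hj, heckeFun_comp, hP]
    refine AddMonoidHom.ext fun γ => hinj ?_
    have h3 : algebraMap R₀ E (heckeFun N ℓ hℓ hℓN ψ₀ γ) = M (e lam * P γ) :=
      DFunLike.congr_fun h1 γ
    rw [h3, ← heE, ← hsmul, map_smul, smul_eq_mul, ← hψ₀, ← map_mul]
    rfl

/-- The eigen-character attached to an eigenform whose eigensystem is `e ∘ χ`. -/
theorem exists_eigen_hom_of_eigenform (N : ℕ) [NeZero N] (S : Set ℕ) {R : Type*} [CommRing R]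
    [IsDomain R] [CharZero R] (χ : CuspForm.heckeAlgebra N 2 S →+* R)
    (g : CuspForm (Gamma0 N) 2) (e : ↥χ.range →+* ℂ) (hg : g ≠ 0) (he : Function.Injective e)
    (heig : ∀ T : CuspForm.heckeAlgebra N 2 S,
      (T : Module.End ℂ (CuspForm (Gamma0 N) 2)) g = e ⟨χ T, T, rfl⟩ • g) :
    ∃ ψ : Additive ↥(Gamma0 N) →+ R, ψ ≠ 0 ∧ IsCuspidalHom N ψ ∧ (∀ γ, ψ γ ∈ χ.range) ∧
      ∀ (ℓ : ℕ) (hℓ : ℓ.Prime) (hℓN : ¬ ℓ ∣ N) (hℓS : ℓ ∉ S),
        heckeFun N ℓ hℓ hℓN ψ =
          (AddMonoidHom.mulLeft (χ (CuspForm.heckeAlgebra.T hℓ hℓN hℓS))).comp ψ := by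
  obtain ⟨γ₀, hγ₀⟩ : ∃ γ₀, periodMap N g γ₀ ≠ 0 := by
    by_contra h
    exact PeriodEigen.periodMap_ne_zero N g hg
      (AddMonoidHom.ext fun γ => not_not.mp fun hγ => h ⟨γ, hγ⟩)
  obtain ⟨ψ₀, hne, hzero, heigen⟩ := exists_eigen_hom_generic
    (E := FractionRing ↥χ.range) (IsFractionRing.lift he) e (IsFractionRing.lift_algebraMap he)
    N (periodMap N g) γ₀ hγ₀
  refine ⟨χ.range.subtype.toAddMonoidHom.comp ψ₀, ?_, ?_, ?_, ?_⟩
  · intro h0
    exact hne (Subtype.ext (DFunLike.congr_fun h0 γ₀))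
  · intro γ hγ
    have h1 : ψ₀ (Additive.ofMul γ) = 0 :=
      hzero _ (PeriodEigen.periodMap_cuspidal N g γ hγ)
    show ((ψ₀ (Additive.ofMul γ) : ↥χ.range) : R) = 0
    rw [h1]
    rfl
  · intro γ
    exact (ψ₀ γ).2
  · intro ℓ hℓ hℓN hℓS
    have hP := heckeFun_periodMap N hℓ hℓN g _ (heig (CuspForm.heckeAlgebra.T hℓ hℓN hℓS))
    have hkey := heigen ℓ hℓ hℓN ⟨χ (CuspForm.heckeAlgebra.T hℓ hℓN hℓS), _, rfl⟩ hP
    rw [heckeFun_comp, hkey]
    rfl

end PeriodCharCore

end Fermat.Agent.S30
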