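import Fermat.Agent.S42.RootDvd

/-!
# P15 (S30), part (A′): roots of modular functions with divisible divisor, general coefficients

* `exists_root_of_dvd_ord_gen`: for an algebraically closed field `L` of characteristic zero with
  an embedding `ι : L →+* ℂ`, a function `u ∈ L(X₀(N))` all of whose place-orders are divisible
  by `n` has an `n`-th root (of its analytic realisation) among the meromorphic functions of
  level `N`.

This is `Fermat.Agent.S42.exists_root_of_dvd_ord` for arbitrary `(L, ι)`. The only new input is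
`RootQ.dvd_merOrd_gen`: for every point `τ` of the upper half plane the order at `τ` of the
realisation is a valuation on `L(X₀(N))` trivial on the constants, hence either identically zero
on the nonzero functions or a positive multiple of a place-order.
-/

set_option autoImplicit false

namespace Fermat.Agent.S30

open Fermat.Agent.S24 Fermat.Agent.S42 AlgebraicCurve UpperHalfPlane
open scoped MatrixGroups

namespace RootQ

/-- The orders on the upper half plane of the realisation of a function all of whose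
place-orders are divisible by `n` are divisible by `n`. -/
theorem dvd_merOrd_gen (N : ℕ) [NeZero N] {L : Type*} [Field L] [Algebra ℚ L] (ι : L →+* ℂ)
    (n : ℕ) (u : FFL L N) (hu : u ≠ 0) (hdiv : ∀ P : Place L (FFL L N), (n : ℤ) ∣ P.ord u)
    (τ : ℍ) : (n : ℤ) ∣ merOrd τ (toMer N (realHom N ι u)) := by
  set φ : FFL L N →+* Mer := (toMer N).comp (realHom N ι) with hφ
  have hφ0 : ∀ f : FFL L N, f ≠ 0 → φ f ≠ 0 := fun f hf => (map_ne_zero φ).mpr hf
  have hmul : ∀ f g : FFL L N, f ≠ 0 → g ≠ 0 →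
      merOrd τ (φ (f * g)) = merOrd τ (φ f) + merOrd τ (φ g) := by
    intro f g hf hg
    rw [φ.map_mul f g, merOrd_mul τ (hφ0 f hf) (hφ0 g hg)]
  have hadd : ∀ f g : FFL L N, f ≠ 0 → g ≠ 0 → f + g ≠ 0 →
      min (merOrd τ (φ f)) (merOrd τ (φ g)) ≤ merOrd τ (φ (f + g)) := by
    intro f g hf hg hfg
    have h1 : φ (f + g) = φ f + φ g := φ.map_add f g
    rw [h1]
    exact merOrd_add τ (hφ0 f hf) (hφ0 g hg) (by rw [← h1]; exact hφ0 _ hfg)
  have hφc : ∀ a : L, φ (algebraMap L (FFL L N) a) = algebraMap Hol Mer (holC (ι a)) := by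
    intro a
    rw [hφ, RingHom.comp_apply, realHom_algebraMap, toMer_algebraMap, toHol_constRN]
  have hconst : ∀ a : L, a ≠ 0 → merOrd τ (φ (algebraMap L (FFL L N) a)) = 0 := by
    intro a ha
    rw [hφc, merOrd_const τ ((map_ne_zero ι).mpr ha)]
  show (n : ℤ) ∣ merOrd τ (φ u)
  by_cases htriv : ∀ z : FFL L N, z ≠ 0 → merOrd τ (φ z) = 0
  · rw [htriv u hu]
    exact dvd_zero _
  · obtain ⟨z₀, hz₀0, hz₀pos⟩ : ∃ z₀ : FFL L N, z₀ ≠ 0 ∧ 0 < merOrd τ (φ z₀) := by
      by_contra hcon
      apply htriv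
      intro z hz0
      have h1 : ¬ 0 < merOrd τ (φ z) := fun h => hcon ⟨z, hz0, h⟩
      have h2 : ¬ 0 < merOrd τ (φ z⁻¹) := fun h => hcon ⟨z⁻¹, inv_ne_zero hz0, h⟩
      have h3 : φ z⁻¹ = (φ z)⁻¹ := map_inv₀ φ z
      rw [h3, merOrd_inv] at h2
      omega
    obtain ⟨w, d, -, hw⟩ := PlacesBasic.exists_place_of_valuation (K := L)
      (fun f : FFL L N => merOrd τ (φ f)) hmul hadd hconst hz₀0 hz₀pos
    have h1 : merOrd τ (φ u) = (d : ℤ) * w.ord u := hw u hu
    rw [h1]
    exact Dvd.dvd.mul_left (hdiv w) _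

end RootQ

/-- A modular function over `L` all of whose place-orders are divisible by `n` has an `n`-th
root (of its analytic realisation along `ι : L →+* ℂ`) among the meromorphic functions of
level `N`. -/
theorem exists_root_of_dvd_ord_gen (N : ℕ) [NeZero N] {L : Type*} [Field L] [Algebra ℚ L]
    [IsAlgClosed L] [CharZero L] (ι : L →+* ℂ) (n : ℕ) (hn : 0 < n) (u : FFL L N) (hu : u ≠ 0)
    (hdiv : ∀ P : Place L (FFL L N), (n : ℤ) ∣ P.ord u) :
    ∃ f : MerN N, f ^ n = realHom N ι u := by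
  have hy' : toMer N (realHom N ι u) ≠ 0 :=
    (map_ne_zero (toMer N)).mpr ((map_ne_zero (realHom N ι)).mpr hu)
  obtain ⟨f₀, hf₀⟩ := exists_pow_eq_of_dvd_merOrd_B n hn (toMer N (realHom N ι u)) hy'
    (RootQ.dvd_merOrd_gen N ι n u hu hdiv)
  obtain ⟨f', hf'⟩ := exists_toMer_eq_of_dvd_ord N ι n hn u hu hdiv f₀ hf₀
  exact ⟨f', toMer_injective N (by rw [map_pow, hf', hf₀])⟩

end Fermat.Agent.S30
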