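import Fermat.Agent.S30.TateGalCore
import Fermat.Agent.S30.TateLimit
import Fermat.Agent.S42.GalHecke

/-!
# P15 (S30), part (A′), module TateDatum (core): the Tate datum, given the inputs

The Galois action `galHp N p` on the lattice `Hp N p` of cuspidal additive characters
`Γ₀(N) → ℤ_p` (transported from the torsion of `J₀(N)` through the Kummer classes `kclass`)

* commutes with the Hecke operators `heckeHp N p ℓ` (`ℓ ∤ N`),
* satisfies the Eichler–Shimura relation at every Frobenius lift at `ℓ ∤ N p`,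
* is trivial on inertia at `q ∤ N p`,
* is adically continuous,

as soon as the Frobenius relation and the triviality of inertia hold on every `J₀(N)[p ^ n]`.
Every clause is checked on the Kummer classes at all levels `p ^ n` (`TateIso.eq_of_kclass_eq`,
`TateIso.kclass_eq_iff`).  Here the inputs `TateIso.Inputs N p` of the module `TateIso` and the
existence of a number field fixing `J₀(N)[p ^ n]` are hypotheses; the file `TateDatum.lean`
discharges them.

Main statement: `TateDatum.isTateDatum_of`.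
-/

set_option autoImplicit false

namespace Fermat.Agent.S30

open Fermat.Agent.S42 AlgebraicCurve ModularCurve CongruenceSubgroup

namespace TateDatum

/-- A prime `ℓ` not dividing `N * p` does not divide `N * p ^ n`. -/
theorem not_dvd_mul_pow {N p ℓ : ℕ} (hℓ : ℓ.Prime) (h : ¬ ℓ ∣ N * p) (n : ℕ) :
    ¬ ℓ ∣ N * p ^ n := by
  intro hd
  rcases (Nat.Prime.dvd_mul hℓ).mp hd with h1 | h1
  · exact h (Dvd.dvd.mul_right h1 p)
  · exact h (Dvd.dvd.mul_left (hℓ.dvd_of_dvd_pow h1) N)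

variable {N p : ℕ} [NeZero N] [Fact p.Prime]

/-- The Galois action on `Hp N p` commutes with the Hecke operators. -/
theorem gal_hecke_comm (I : TateIso.Inputs N p) (ℓ : ℕ) (hℓ : ℓ.Prime) (hℓN : ¬ ℓ ∣ N)
    (σ : AlgebraicClosure ℚ ≃ₐ[ℚ] AlgebraicClosure ℚ) :
    galHp N p σ * heckeHp N p ℓ hℓ hℓN = heckeHp N p ℓ hℓ hℓN * galHp N p σ := by
  refine LinearMap.ext fun φ => TateIso.eq_of_kclass_eq I fun n => ?_
  show kclass N p n (galHp N p σ (heckeHp N p ℓ hℓ hℓN φ))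
    = kclass N p n (heckeHp N p ℓ hℓ hℓN (galHp N p σ φ))
  rw [TateGal.kclass_galHp_of I, TateIso.kclass_heckeHp I, TateIso.kclass_heckeHp I,
    TateGal.kclass_galHp_of I, GalHecke.heckeOperatorBar_smul]

/-- The Eichler–Shimura relation on `Hp N p` at a Frobenius lift at `ℓ ∤ N p`. -/
theorem frobenius (I : TateIso.Inputs N p) (hE1 : ∀ n : ℕ, FrobeniusRelation N (p ^ n))
    (ℓ : ℕ) (hℓ : ℓ.Prime) (hℓN : ¬ ℓ ∣ N) (hℓNp : ¬ ℓ ∣ N * p)
    (A : ValuationSubring (AlgebraicClosure ℚ)) (hA : A.LiesOverPrime ℓ)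
    (σ : AlgebraicClosure ℚ ≃ₐ[ℚ] AlgebraicClosure ℚ) (hσ : A.IsFrobeniusAt σ ℓ) :
    galHp N p σ * galHp N p σ - heckeHp N p ℓ hℓ hℓN * galHp N p σ
      + (ℓ : ℤ_[p]) • (1 : Module.End ℤ_[p] (Hp N p)) = 0 := by
  refine LinearMap.ext fun φ => TateIso.eq_of_kclass_eq I fun n => ?_
  show kclass N p n (galHp N p σ (galHp N p σ φ) - heckeHp N p ℓ hℓ hℓN (galHp N p σ φ)
      + (ℓ : ℤ_[p]) • φ) = kclass N p n 0
  rw [TateIso.kclass_add I, TateIso.kclass_sub I, TateGal.kclass_galHp_of I,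
    TateGal.kclass_galHp_of I, TateIso.kclass_heckeHp I, TateGal.kclass_galHp_of I,
    TateIso.kclass_natCast_smul I, TateIso.kclass_zero I]
  exact hE1 n ℓ hℓ (not_dvd_mul_pow hℓ hℓNp n) A hA σ hσ _ (TateIso.kclass_mem_Jp I n φ)

/-- Inertia at `q ∤ N p` acts trivially on `Hp N p`. -/
theorem inertia (I : TateIso.Inputs N p) (hE2 : ∀ n : ℕ, InertiaTrivial N (p ^ n)) (q : ℕ)
    (hq : q.Prime) (hqNp : ¬ q ∣ N * p) (A : ValuationSubring (AlgebraicClosure ℚ))
    (hA : A.LiesOverPrime q) (τ : AlgebraicClosure ℚ ≃ₐ[ℚ] AlgebraicClosure ℚ)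
    (hτ : τ ∈ A.inertiaSubgroupIn ℚ) :
    galHp N p τ = 1 := by
  refine LinearMap.ext fun φ => TateIso.eq_of_kclass_eq I fun n => ?_
  show kclass N p n (galHp N p τ φ) = kclass N p n φ
  rw [TateGal.kclass_galHp_of I]
  exact hE2 n q hq (not_dvd_mul_pow hq hqNp n) A hA τ hτ _ (TateIso.kclass_mem_Jp I n φ)

/-- Adic continuity of the Galois action on `Hp N p`: the Galois group of a number field fixing
`J₀(N)[p ^ n]` acts trivially modulo `p ^ n`. -/
theorem continuity (I : TateIso.Inputs N p) (n : ℕ)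
    (L : IntermediateField ℚ (AlgebraicClosure ℚ))
    (hfix : ∀ σ : AlgebraicClosure ℚ ≃ₐ[ℚ] AlgebraicClosure ℚ, (∀ y ∈ L, σ y = y) →
      ∀ x ∈ Jp N (p ^ n), σ • x = x)
    (σ : AlgebraicClosure ℚ ≃ₐ[ℚ] AlgebraicClosure ℚ) (hσ : ∀ y ∈ L, σ y = y) (φ : Hp N p) :
    ∃ θ : Hp N p, galHp N p σ φ - φ = (p : ℤ_[p]) ^ n • θ := by
  apply exists_eq_pow_smul_of_redHom_eq
  rw [← TateIso.kclass_eq_iff I, TateGal.kclass_galHp_of I]
  exact hfix σ hσ _ (TateIso.kclass_mem_Jp I n φ)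

/-- **Interface (I1), given the inputs.** The Galois action `galHp N p` on the lattice `Hp N p`
is a Tate datum: it commutes with the Hecke operators, satisfies the Eichler–Shimura relation, is
unramified outside `N p` and adically continuous. -/
theorem isTateDatum_of (I : TateIso.Inputs N p)
    (hfix : ∀ n : ℕ, ∃ L : IntermediateField ℚ (AlgebraicClosure ℚ), FiniteDimensional ℚ L ∧
      ∀ σ : AlgebraicClosure ℚ ≃ₐ[ℚ] AlgebraicClosure ℚ, (∀ y ∈ L, σ y = y) →
        ∀ x ∈ Jp N (p ^ n), σ • x = x)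
    (hE1 : ∀ n : ℕ, FrobeniusRelation N (p ^ n)) (hE2 : ∀ n : ℕ, InertiaTrivial N (p ^ n)) :
    IsTateDatum N p (galHp N p) := by
  refine ⟨fun ℓ hℓ hℓN _ σ => gal_hecke_comm I ℓ hℓ hℓN σ,
    fun ℓ hℓ hℓN hℓNp A hA σ hσ => frobenius I hE1 ℓ hℓ hℓN hℓNp A hA σ hσ,
    fun q hq hqNp A hA τ hτ => inertia I hE2 q hq hqNp A hA τ hτ, fun n => ?_⟩
  obtain ⟨L, hL, hLfix⟩ := hfix n
  exact ⟨L, hL, fun σ hσ φ => continuity I n L hLfix σ hσ φ⟩

end TateDatum

end Fermat.Agent.S30
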