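import Fermat.Agent.S30.TateGalCore
import Fermat.Agent.S30.TateIso

/-!
# P15 (S30), part (A′), module TateGal: the Galois action on the lattice `Hp N p`

* `galHp N p : Gal(ℚ̄/ℚ) →* Module.End ℤ_[p] (Hp N p)` (defined in `TateGalCore.lean`): the action
  of `Gal(ℚ̄/ℚ)` on the lattice of cuspidal characters `Γ₀(N) → ℤ_p`, transported from the torsion
  of `J₀(N)` through the Kummer classes;
* `kclass_galHp : kclass N p n (galHp N p σ φ) = σ • kclass N p n φ`, its characterising property.
-/

set_option autoImplicit false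

namespace Fermat.Agent.S30

open Fermat.Agent.S42 AlgebraicCurve ModularCurve CongruenceSubgroup
open scoped MatrixGroups

theorem kclass_galHp (N p : ℕ) [NeZero N] [Fact p.Prime]
    (σ : AlgebraicClosure ℚ ≃ₐ[ℚ] AlgebraicClosure ℚ) (n : ℕ) (φ : Hp N p) :
    kclass N p n (galHp N p σ φ) = σ • kclass N p n φ :=
  TateGal.kclass_galHp_of (TateIso.inputs N p) σ n φ

end Fermat.Agent.S30
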