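import Fermat.Agent.S30.TateIsoCore

/-!
# P15 (S30), part (A′), module TateGal (core): the Galois action on the lattice `Hp N p`

The Kummer classes `kclass N p n φ ∈ J₀(N)[p ^ n]` of a cuspidal character `φ : Γ₀(N) → ℤ_p`
identify `Hp N p` with the compatible systems of torsion classes (`TateIsoCore`).  The group
`Gal(ℚ̄/ℚ)` acts on such systems, and `galHp N p σ` is the transported action:

* `galHp N p : Gal(ℚ̄/ℚ) →* Module.End ℤ_[p] (Hp N p)`;
* `TateGal.kclass_galHp_of : kclass N p n (galHp N p σ φ) = σ • kclass N p n φ`, given the inputs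
  `TateIso.Inputs N p` of the module `TateIso` (the file `TateGal.lean` discharges them).

The definition of `galHp` does not depend on any hypothesis: it is the transported action if the
inputs hold (they do), and the trivial action otherwise.
-/

set_option autoImplicit false

namespace Fermat.Agent.S30

open Fermat.Agent.S42 AlgebraicCurve ModularCurve CongruenceSubgroup
open scoped MatrixGroups

namespace TateGal

/-- The Galois action on `J₀(N)` commutes with integer multiples. -/
theorem gal_smul_zsmul {N : ℕ} (σ : AlgebraicClosure ℚ ≃ₐ[ℚ] AlgebraicClosure ℚ) (k : ℤ)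
    (x : JZero N) : σ • (k • x) = k • (σ • x) :=
  map_zsmul (DistribSMul.toAddMonoidHom (JZero N) σ) k x

section Core

variable {N p : ℕ} [NeZero N] [Fact p.Prime]

/-- The system of the Galois conjugates of the Kummer classes of `φ` comes from a (unique)
element of `Hp N p`. -/
theorem exists_gal (I : TateIso.Inputs N p)
    (σ : AlgebraicClosure ℚ ≃ₐ[ℚ] AlgebraicClosure ℚ) (φ : Hp N p) :
    ∃ ψ : Hp N p, ∀ n, kclass N p n ψ = σ • kclass N p n φ :=
  TateIso.exists_of_compat_classes I (fun n => σ • kclass N p n φ)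
    (fun n => smul_mem_Jp σ (TateIso.kclass_mem_Jp I n φ))
    (fun n => by
      show (p : ℤ) • (σ • kclass N p (n + 1) φ) = σ • kclass N p n φ
      rw [← gal_smul_zsmul, TateIso.kclass_succ I])

/-- The underlying function of the Galois action on `Hp N p`. -/
noncomputable def galFun (I : TateIso.Inputs N p)
    (σ : AlgebraicClosure ℚ ≃ₐ[ℚ] AlgebraicClosure ℚ) (φ : Hp N p) : Hp N p :=
  Classical.choose (exists_gal I σ φ)

theorem kclass_galFun (I : TateIso.Inputs N p)
    (σ : AlgebraicClosure ℚ ≃ₐ[ℚ] AlgebraicClosure ℚ) (n : ℕ) (φ : Hp N p) :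
    kclass N p n (galFun I σ φ) = σ • kclass N p n φ :=
  Classical.choose_spec (exists_gal I σ φ) n

/-- The Kummer class at level `p ^ n` of a `ℤ_p`-multiple `a • φ` only depends on `a` modulo
`p ^ n`. -/
theorem kclass_smul (I : TateIso.Inputs N p) (n : ℕ) (a : ℤ_[p]) (φ : Hp N p) :
    kclass N p n (a • φ) = (((PadicInt.toZModPow n a).val : ℕ) : ℤ) • kclass N p n φ := by
  rw [← TateIso.kclass_natCast_smul I, TateIso.kclass_eq_iff I]
  refine AddMonoidHom.ext fun γ => ?_
  show PadicInt.toZModPow n (a * Hp.hom φ γ)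
    = PadicInt.toZModPow n ((((PadicInt.toZModPow n a).val : ℕ) : ℤ_[p]) * Hp.hom φ γ)
  rw [map_mul, map_mul, map_natCast, ZMod.natCast_zmod_val]

/-- The Galois action on `Hp N p` (given the inputs of `TateIso`). -/
noncomputable def galHom (I : TateIso.Inputs N p) :
    (AlgebraicClosure ℚ ≃ₐ[ℚ] AlgebraicClosure ℚ) →* Module.End ℤ_[p] (Hp N p) where
  toFun σ :=
    { toFun := galFun I σ
      map_add' := fun φ ψ => TateIso.eq_of_kclass_eq I fun n => by
        rw [TateIso.kclass_add I, kclass_galFun, kclass_galFun, kclass_galFun,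
          TateIso.kclass_add I, smul_add]
      map_smul' := fun a φ => TateIso.eq_of_kclass_eq I fun n => by
        rw [RingHom.id_apply, kclass_smul I, kclass_galFun, kclass_galFun, kclass_smul I,
          gal_smul_zsmul] }
  map_one' := LinearMap.ext fun φ => TateIso.eq_of_kclass_eq I fun n => by
    show kclass N p n (galFun I 1 φ) = kclass N p n φ
    rw [kclass_galFun, one_smul]
  map_mul' σ τ := LinearMap.ext fun φ => TateIso.eq_of_kclass_eq I fun n => by
    show kclass N p n (galFun I (σ * τ) φ) = kclass N p n (galFun I σ (galFun I τ φ))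
    rw [kclass_galFun, kclass_galFun, kclass_galFun, mul_smul]

theorem galHom_apply (I : TateIso.Inputs N p)
    (σ : AlgebraicClosure ℚ ≃ₐ[ℚ] AlgebraicClosure ℚ) (φ : Hp N p) :
    galHom I σ φ = galFun I σ φ := rfl

end Core

end TateGal

/-- The Galois action on the lattice `Hp N p`, transported from `J₀(N)[p ^ n]` through the
Kummer isomorphisms. -/
noncomputable def galHp (N p : ℕ) [NeZero N] [Fact p.Prime] :
    (AlgebraicClosure ℚ ≃ₐ[ℚ] AlgebraicClosure ℚ) →* Module.End ℤ_[p] (Hp N p) :=
  open Classical in
  if I : TateIso.Inputs N p then TateGal.galHom I else 1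

namespace TateGal

variable {N p : ℕ} [NeZero N] [Fact p.Prime]

theorem galHp_eq (I : TateIso.Inputs N p) : galHp N p = galHom I := by
  unfold galHp
  rw [dif_pos I]

/-- The characterising property of `galHp` (given the inputs of `TateIso`). -/
theorem kclass_galHp_of (I : TateIso.Inputs N p)
    (σ : AlgebraicClosure ℚ ≃ₐ[ℚ] AlgebraicClosure ℚ) (n : ℕ) (φ : Hp N p) :
    kclass N p n (galHp N p σ φ) = σ • kclass N p n φ := by
  rw [galHp_eq I]
  exact kclass_galFun I σ n φ

end TateGal

end Fermat.Agent.S30
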