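import Fermat.Agent.S30.TateDefs

/-!
# P15 (S30), part (A′), module TateIso (core): Kummer classes of `ℤ_p`-valued characters

For `φ ∈ Hp N p` (a cuspidal character `Γ₀(N) → ℤ_p`) and `n : ℕ`, `kclass N p n φ ∈ J₀(N)(ℚ̄)` is
the Kummer class (at the modulus `p ^ n`) of the reduction of `φ` modulo `p ^ n`.  This file proves
all the formal properties of `kclass` (additivity, compatibility with multiplication by `p`,
injectivity, surjectivity onto compatible systems of torsion classes, Hecke equivariance) from the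
properties of Kummer classes at the moduli `p ^ n` and of the reduction maps, which are taken as
hypotheses (the structure `TateIso.Inputs`); the file `TateIso.lean` feeds the actual theorems.
-/

set_option autoImplicit false

namespace Fermat.Agent.S30

open Fermat.Agent.S42 AlgebraicCurve ModularCurve CongruenceSubgroup
open scoped MatrixGroups

/-- The Kummer class at level `p ^ n` of a cuspidal character `Γ₀(N) → ℤ_p`. -/
noncomputable def kclass (N p : ℕ) [NeZero N] [Fact p.Prime] (n : ℕ) (φ : Hp N p) : JZero N :=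
  open Classical in
  if h : ∃ c, IsKummer N (p ^ n) (redHom N p n (Hp.hom φ)) c then Classical.choose h else 0

namespace TateIso

/-- The inputs of the module: the properties of Kummer classes at the moduli `p ^ n`, of the
reduction maps and of the Hecke operators on `Hp N p`, provided by the other modules. -/
structure Inputs (N p : ℕ) [NeZero N] [Fact p.Prime] : Prop where
  kummer_cuspidal : ∀ (n : ℕ) (φ : Additive ↥(Gamma0 N) →+ ZMod (p ^ n)), IsCuspidalHom N φ →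
    ∃ c, IsKummer N (p ^ n) φ c
  kummer_add : ∀ (n : ℕ) (φ φ' : Additive ↥(Gamma0 N) →+ ZMod (p ^ n)) (c c' : JZero N),
    IsKummer N (p ^ n) φ c → IsKummer N (p ^ n) φ' c' → IsKummer N (p ^ n) (φ + φ') (c + c')
  kummer_neg : ∀ (n : ℕ) (φ : Additive ↥(Gamma0 N) →+ ZMod (p ^ n)) (c : JZero N),
    IsKummer N (p ^ n) φ c → IsKummer N (p ^ n) (-φ) (-c)
  kummer_unique : ∀ (n : ℕ) (φ : Additive ↥(Gamma0 N) →+ ZMod (p ^ n)) (c c' : JZero N),
    IsKummer N (p ^ n) φ c → IsKummer N (p ^ n) φ c' → c = c'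
  kummer_zero : ∀ (n : ℕ) (φ : Additive ↥(Gamma0 N) →+ ZMod (p ^ n)),
    IsKummer N (p ^ n) φ 0 → φ = 0
  kummer_mem : ∀ (n : ℕ) (φ : Additive ↥(Gamma0 N) →+ ZMod (p ^ n)) (c : JZero N),
    IsKummer N (p ^ n) φ c → c ∈ Jp N (p ^ n)
  kummer_hecke : ∀ (n ℓ : ℕ) (hℓ : ℓ.Prime), ¬ ℓ ∣ N →
    ∀ (φ φ' : Additive ↥(Gamma0 N) →+ ZMod (p ^ n)) (c : JZero N),
      IsKummer N (p ^ n) φ c → IsHeckeTransform N ℓ φ φ' →
        IsKummer N (p ^ n) φ' (heckeOperatorBar N ⟨ℓ, hℓ⟩ c)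
  kummer_torsion : ∀ (n : ℕ) (c : JZero N), c ∈ Jp N (p ^ n) →
    ∃ φ : Additive ↥(Gamma0 N) →+ ZMod (p ^ n), IsCuspidalHom N φ ∧ IsKummer N (p ^ n) φ c
  kummer_red : ∀ (n : ℕ) (φ : Additive ↥(Gamma0 N) →+ ZMod (p ^ (n + 1))) (c : JZero N),
    IsKummer N (p ^ (n + 1)) φ c →
      IsKummer N (p ^ n)
        ((ZMod.castHom (pow_dvd_pow p (Nat.le_succ n)) (ZMod (p ^ n))).toAddMonoidHom.comp φ)
        ((p : ℤ) • c)
  redHom_succ : ∀ (n : ℕ) (φ : Additive ↥(Gamma0 N) →+ ℤ_[p]),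
    (ZMod.castHom (pow_dvd_pow p (Nat.le_succ n)) (ZMod (p ^ n))).toAddMonoidHom.comp
      (redHom N p (n + 1) φ) = redHom N p n φ
  eq_of_redHom_eq : ∀ φ φ' : Additive ↥(Gamma0 N) →+ ℤ_[p],
    (∀ n, redHom N p n φ = redHom N p n φ') → φ = φ'
  exists_hom_of_compat : ∀ ψ : ∀ n : ℕ, Additive ↥(Gamma0 N) →+ ZMod (p ^ n),
    (∀ n, (ZMod.castHom (pow_dvd_pow p (Nat.le_succ n))
      (ZMod (p ^ n))).toAddMonoidHom.comp (ψ (n + 1)) = ψ n) →
    ∃ Ψ : Additive ↥(Gamma0 N) →+ ℤ_[p], ∀ n, redHom N p n Ψ = ψ n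
  cuspidal_of_redHom : ∀ φ : Additive ↥(Gamma0 N) →+ ℤ_[p],
    (∀ n, IsCuspidalHom N (redHom N p n φ)) → IsCuspidalHom N φ
  hom_heckeHp : ∀ (ℓ : ℕ) (hℓ : ℓ.Prime) (hℓN : ¬ ℓ ∣ N) (φ : Hp N p),
    Hp.hom (heckeHp N p ℓ hℓ hℓN φ) = heckeFun N ℓ hℓ hℓN (Hp.hom φ)

section Red

variable {N p : ℕ} [Fact p.Prime]

theorem redHom_add (n : ℕ) (φ ψ : Additive ↥(Gamma0 N) →+ ℤ_[p]) :
    redHom N p n (φ + ψ) = redHom N p n φ + redHom N p n ψ :=
  AddMonoidHom.ext fun γ => map_add (PadicInt.toZModPow n) (φ γ) (ψ γ)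

theorem redHom_zero (n : ℕ) : redHom N p n (0 : Additive ↥(Gamma0 N) →+ ℤ_[p]) = 0 :=
  AddMonoidHom.ext fun _ => map_zero (PadicInt.toZModPow n)

theorem redHom_sub (n : ℕ) (φ ψ : Additive ↥(Gamma0 N) →+ ℤ_[p]) :
    redHom N p n (φ - ψ) = redHom N p n φ - redHom N p n ψ :=
  AddMonoidHom.ext fun γ => map_sub (PadicInt.toZModPow n) (φ γ) (ψ γ)

theorem isCuspidalHom_redHom' (n : ℕ) {φ : Additive ↥(Gamma0 N) →+ ℤ_[p]}
    (hφ : IsCuspidalHom N φ) : IsCuspidalHom N (redHom N p n φ) := by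
  intro γ hγ
  rw [redHom_apply, hφ γ hγ, map_zero]

end Red

section Core

variable {N p : ℕ} [NeZero N] [Fact p.Prime]

theorem isKummer_kclass (I : Inputs N p) (n : ℕ) (φ : Hp N p) :
    IsKummer N (p ^ n) (redHom N p n (Hp.hom φ)) (kclass N p n φ) := by
  have h : ∃ c, IsKummer N (p ^ n) (redHom N p n (Hp.hom φ)) c :=
    I.kummer_cuspidal n _ (isCuspidalHom_redHom' n (Hp.isCuspidalHom_hom φ))
  unfold kclass
  rw [dif_pos h]
  exact Classical.choose_spec h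

theorem kclass_eq_of_isKummer (I : Inputs N p) {n : ℕ} {φ : Hp N p} {c : JZero N}
    (h : IsKummer N (p ^ n) (redHom N p n (Hp.hom φ)) c) : kclass N p n φ = c :=
  I.kummer_unique n _ _ _ (isKummer_kclass I n φ) h

theorem kclass_mem_Jp (I : Inputs N p) (n : ℕ) (φ : Hp N p) : kclass N p n φ ∈ Jp N (p ^ n) :=
  I.kummer_mem n _ _ (isKummer_kclass I n φ)

theorem kclass_add (I : Inputs N p) (n : ℕ) (φ ψ : Hp N p) :
    kclass N p n (φ + ψ) = kclass N p n φ + kclass N p n ψ := by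
  apply kclass_eq_of_isKummer I
  rw [Hp.hom_add, redHom_add]
  exact I.kummer_add n _ _ _ _ (isKummer_kclass I n φ) (isKummer_kclass I n ψ)

theorem kclass_zero (I : Inputs N p) (n : ℕ) : kclass N p n 0 = 0 := by
  have h := kclass_add I n 0 0
  rw [add_zero] at h
  exact left_eq_add.mp h

theorem kclass_neg (I : Inputs N p) (n : ℕ) (φ : Hp N p) :
    kclass N p n (-φ) = -kclass N p n φ := by
  have h := kclass_add I n (-φ) φ
  rw [neg_add_cancel, kclass_zero I] at h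
  exact eq_neg_of_add_eq_zero_left h.symm

theorem kclass_sub (I : Inputs N p) (n : ℕ) (φ ψ : Hp N p) :
    kclass N p n (φ - ψ) = kclass N p n φ - kclass N p n ψ := by
  rw [sub_eq_add_neg, kclass_add I, kclass_neg I, ← sub_eq_add_neg]

theorem kclass_natCast_smul (I : Inputs N p) (n k : ℕ) (φ : Hp N p) :
    kclass N p n ((k : ℤ_[p]) • φ) = (k : ℤ) • kclass N p n φ := by
  induction k with
  | zero => rw [Nat.cast_zero, zero_smul, Nat.cast_zero, zero_zsmul, kclass_zero I]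
  | succ k ih =>
    rw [Nat.cast_succ, add_smul, one_smul, kclass_add I, ih, Nat.cast_succ, add_zsmul, one_zsmul]

theorem kclass_succ (I : Inputs N p) (n : ℕ) (φ : Hp N p) :
    (p : ℤ) • kclass N p (n + 1) φ = kclass N p n φ := by
  symm
  apply kclass_eq_of_isKummer I
  have h := I.kummer_red n _ _ (isKummer_kclass I (n + 1) φ)
  rw [I.redHom_succ] at h
  exact h

theorem kclass_eq_iff (I : Inputs N p) (n : ℕ) (φ ψ : Hp N p) :
    kclass N p n φ = kclass N p n ψ ↔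
      redHom N p n (Hp.hom φ) = redHom N p n (Hp.hom ψ) := by
  constructor
  · intro h
    have h1 := isKummer_kclass I n (φ - ψ)
    rw [kclass_sub I, h, sub_self, Hp.hom_sub, redHom_sub] at h1
    exact sub_eq_zero.mp (I.kummer_zero n _ h1)
  · intro h
    apply kclass_eq_of_isKummer I
    rw [h]
    exact isKummer_kclass I n ψ

theorem eq_of_kclass_eq (I : Inputs N p) {φ ψ : Hp N p}
    (h : ∀ n, kclass N p n φ = kclass N p n ψ) : φ = ψ :=
  Hp.hom_injective (I.eq_of_redHom_eq _ _ fun n => (kclass_eq_iff I n φ ψ).mp (h n))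

/-- Two characters with the same Kummer class are equal. -/
theorem eq_of_isKummer_of_isKummer (I : Inputs N p) {n : ℕ}
    {χ χ' : Additive ↥(Gamma0 N) →+ ZMod (p ^ n)} {c : JZero N}
    (h : IsKummer N (p ^ n) χ c) (h' : IsKummer N (p ^ n) χ' c) : χ = χ' := by
  have h1 := I.kummer_add n _ _ _ _ h (I.kummer_neg n _ _ h')
  rw [add_neg_cancel, ← sub_eq_add_neg] at h1
  exact sub_eq_zero.mp (I.kummer_zero n _ h1)

theorem exists_of_compat_classes (I : Inputs N p) (c : ℕ → JZero N)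
    (hc : ∀ n, c n ∈ Jp N (p ^ n)) (hcompat : ∀ n, (p : ℤ) • c (n + 1) = c n) :
    ∃ φ : Hp N p, ∀ n, kclass N p n φ = c n := by
  choose ψ hψc hψ using fun n => I.kummer_torsion n (c n) (hc n)
  have hcomp : ∀ n, (ZMod.castHom (pow_dvd_pow p (Nat.le_succ n))
      (ZMod (p ^ n))).toAddMonoidHom.comp (ψ (n + 1)) = ψ n := by
    intro n
    have h1 := I.kummer_red n _ _ (hψ (n + 1))
    rw [hcompat n] at h1
    exact eq_of_isKummer_of_isKummer I h1 (hψ n)
  obtain ⟨Ψ, hΨ⟩ := I.exists_hom_of_compat ψ hcomp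
  have hcusp : IsCuspidalHom N Ψ := I.cuspidal_of_redHom Ψ fun n => by
    rw [hΨ n]
    exact hψc n
  refine ⟨Hp.ofHom Ψ hcusp, fun n => ?_⟩
  apply kclass_eq_of_isKummer I
  rw [Hp.hom_ofHom, hΨ n]
  exact hψ n

theorem kclass_heckeHp (I : Inputs N p) (n ℓ : ℕ) (hℓ : ℓ.Prime) (hℓN : ¬ ℓ ∣ N) (φ : Hp N p) :
    kclass N p n (heckeHp N p ℓ hℓ hℓN φ) = heckeOperatorBar N ⟨ℓ, hℓ⟩ (kclass N p n φ) := by
  apply kclass_eq_of_isKummer I
  rw [I.hom_heckeHp, redHom_heckeFun]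
  exact I.kummer_hecke n ℓ hℓ hℓN _ _ _ (isKummer_kclass I n φ)
    (isHeckeTransform_heckeFun N ℓ hℓ hℓN (redHom N p n (Hp.hom φ)))

end Core

end TateIso

end Fermat.Agent.S30
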